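import Fermat.Agent.CFT6.RecPrime
import Mathlib.NumberTheory.LSeries.PrimesInAP

/-!
# Auxiliary primes
-/

set_option autoImplicit false

open Module

namespace Fermat.Agent.CFR

open Fermat.Agent.CFT6

theorem exists_aux_avoid_aux {Ω : Type*} [Field Ω] [CharZero Ω] [IsGalois ℚ Ω] [IsAlgClosed Ω]
    (p : ℕ) [hp : Fact p.Prime] {v : ℕ} (hv : v.Prime) (T : Finset ℕ) :
    ∃ ℓ : ℕ, ℓ.Prime ∧ ℓ ∉ T ∧ ℓ ≠ v ∧ ℓ ≠ 2 ∧ ∃ k, p * k = ℓ - 1 ∧ (v : ZMod ℓ) ^ k ≠ 1 := by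
  have : NeZero (p : Ω) := ⟨by exact_mod_cast hp.out.ne_zero⟩
  obtain ⟨ζ, hζ⟩ := HasEnoughRootsOfUnity.exists_primitiveRoot Ω p
  obtain ⟨α, hα⟩ := IsAlgClosed.exists_pow_nat_eq (v : Ω) hp.out.pos
  have hα0 : α ≠ 0 := by
    rintro rfl
    rw [zero_pow hp.out.ne_zero] at hα
    exact hv.ne_zero (by exact_mod_cast hα.symm)
  have hnot := notMem_adjoin p hv hζ hα
  obtain ⟨σ, hσζ, hσα⟩ : ∃ σ : Ω ≃ₐ[ℚ] Ω, σ ζ = ζ ∧ σ α ≠ α := by
    rw [← InfiniteGalois.fixedField_fixingSubgroup (IntermediateField.adjoin ℚ {ζ}),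
      IntermediateField.mem_fixedField_iff] at hnot
    push Not at hnot
    obtain ⟨σ, hσ, hσα⟩ := hnot
    refine ⟨σ, ?_, hσα⟩
    rw [IntermediateField.mem_fixingSubgroup_iff] at hσ
    exact hσ _ (IntermediateField.mem_adjoin_simple_self _ _)
  have hfd : FiniteDimensional ℚ (IntermediateField.adjoin ℚ {ζ, α}) := by
    have : Finite ({ζ, α} : Set Ω) := Set.toFinite _
    exact IntermediateField.finiteDimensional_adjoin (fun x _ => Algebra.IsIntegral.isIntegral x)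
  obtain ⟨ℓ, hℓ, hℓS, A, hA, -, τ, hτ, ⟨j, hj⟩, ⟨k', hk'⟩⟩ :=
    FrobDensity.exists_frobenius_pow_eq_aux (IntermediateField.adjoin ℚ {ζ, α}) hfd σ (T ∪ {p, v, 2})
  simp only [Finset.mem_union, Finset.mem_insert, Finset.mem_singleton, not_or] at hℓS
  obtain ⟨hℓT, hℓp, hℓv, hℓ2⟩ := hℓS
  have hζL : ζ ∈ IntermediateField.adjoin ℚ {ζ, α} :=
    IntermediateField.subset_adjoin _ _ (by simp)
  have hαL : α ∈ IntermediateField.adjoin ℚ {ζ, α} :=
    IntermediateField.subset_adjoin _ _ (by simp)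
  have hτζ : τ ζ = ζ := by
    rw [← hk' ζ hζL]
    have : ∀ m : ℕ, (σ ^ m) ζ = ζ := by
      intro m
      induction m with
      | zero => rfl
      | succ m ih => rw [pow_succ', AlgEquiv.mul_apply, ih, hσζ]
    exact this k'
  have hτα : τ α ≠ α := by
    intro h
    apply hσα
    rw [← hj α hαL]
    have : ∀ m : ℕ, (τ ^ m) α = α := by
      intro m
      induction m with
      | zero => rfl
      | succ m ih => rw [pow_succ', AlgEquiv.mul_apply, ih, h]
    exact this j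
  have hℓk := natCast_eq_zero_of_liesOver A hA
  have hpk := residue_natCast_ne_zero A hℓ hp.out hℓp hℓk
  have hvk := residue_natCast_ne_zero A hℓ hv hℓv hℓk
  -- elements of `A`
  have hζA : ζ ∈ A := mem_of_pow_mem A hp.out.ne_zero (by rw [hζ.pow_eq_one]; exact A.one_mem)
  have hαA : α ∈ A := mem_of_pow_mem A hp.out.ne_zero (by rw [hα]; exact natCast_mem A v)
  set zA : A := ⟨ζ, hζA⟩ with hzA
  set aA : A := ⟨α, hαA⟩ with haA
  have hzp : zA ^ p = 1 := Subtype.ext hζ.pow_eq_one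
  have hz1 : zA ≠ 1 := by
    intro h
    have : ζ = 1 := congrArg Subtype.val h
    exact hζ.ne_one hp.out.one_lt this
  have hres1 := residue_ne_one A hzp hz1 hpk
  have hresp : (IsLocalRing.residue A zA) ^ p = 1 := by rw [← map_pow, hzp, map_one]
  have hord : orderOf (IsLocalRing.residue A zA) = p := orderOf_eq_prime hresp hres1
  have hz0 : IsLocalRing.residue A zA ≠ 0 := by
    intro h0
    rw [h0, zero_pow hp.out.ne_zero] at hresp
    exact zero_ne_one hresp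
  have hfz := residue_frob hτ zA
  have hfz' : (⟨τ (zA : Ω), frob_mem hτ zA⟩ : A) = zA := Subtype.ext hτζ
  rw [hfz'] at hfz
  have hdiv : p ∣ ℓ - 1 := by
    rw [← hord]
    apply orderOf_dvd_of_pow_eq_one
    have h1 : (IsLocalRing.residue A zA) ^ (ℓ - 1) * IsLocalRing.residue A zA =
        1 * IsLocalRing.residue A zA := by
      rw [← pow_succ, Nat.sub_add_cancel hℓ.one_lt.le, one_mul]; exact hfz.symm
    exact mul_right_cancel₀ hz0 h1
  obtain ⟨k, hk⟩ := hdiv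
  refine ⟨ℓ, hℓ, hℓT, hℓv, hℓ2, k, hk.symm, fun hpow => ?_⟩
  -- derive a contradiction
  have hap : aA ^ p = (v : A) := Subtype.ext (by simpa using! hα)
  have ha0 : IsLocalRing.residue A aA ≠ 0 := by
    intro h0
    have := congrArg (IsLocalRing.residue A) hap
    rw [map_pow, h0, zero_pow hp.out.ne_zero, map_natCast] at this
    exact hvk this.symm
  have hvk1 : (v : IsLocalRing.ResidueField A) ^ k = 1 := by
    have h1 : (((v : ℤ) ^ k - 1 : ℤ) : ZMod ℓ) = 0 := by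
      push_cast; rw [hpow, sub_self]
    rw [ZMod.intCast_zmod_eq_zero_iff_dvd] at h1
    obtain ⟨m, hm⟩ := h1
    have h2 := congrArg (fun z : ℤ => (z : IsLocalRing.ResidueField A)) hm
    push_cast at h2
    rw [hℓk, zero_mul] at h2
    exact sub_eq_zero.1 h2
  have hfa := residue_frob hτ aA
  have h3 : (IsLocalRing.residue A aA) ^ ℓ = IsLocalRing.residue A aA := by
    have h4 : (IsLocalRing.residue A aA) ^ (ℓ - 1) = 1 := by
      rw [hk, pow_mul, ← map_pow, hap, map_natCast, hvk1]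
    calc (IsLocalRing.residue A aA) ^ ℓ = (IsLocalRing.residue A aA) ^ (ℓ - 1 + 1) := by
          rw [Nat.sub_add_cancel hℓ.one_lt.le]
      _ = _ := by rw [pow_succ, h4, one_mul]
  rw [h3] at hfa
  -- `τ α = η α`
  have hη : (τ α / α) ^ p = 1 := by
    rw [div_pow, ← map_pow, hα, map_natCast, div_self]
    exact_mod_cast hv.ne_zero
  have hηA : τ α / α ∈ A := mem_of_pow_mem A hp.out.ne_zero (by rw [hη]; exact A.one_mem)
  have hη1 : (⟨τ α / α, hηA⟩ : A) ≠ 1 := by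
    intro h
    have h5 : τ α / α = 1 := congrArg Subtype.val h
    exact hτα ((div_eq_one_iff_eq hα0).1 h5)
  have h6 := residue_ne_one A (p := p) (η := ⟨τ α / α, hηA⟩) (Subtype.ext hη) hη1 hpk
  apply h6
  have h7 : (⟨τ (aA : Ω), frob_mem hτ aA⟩ : A) = ⟨τ α / α, hηA⟩ * aA := by
    apply Subtype.ext
    show τ α = τ α / α * α
    field_simp
  rw [h7, map_mul] at hfa
  exact mul_right_cancel₀ ha0 (by rw [one_mul]; exact hfa)

/-- auxiliary primes outside a finite set -/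
theorem exists_aux_avoid (p : ℕ) [hp : Fact p.Prime] {v : ℕ} (hv : v.Prime) (T : Finset ℕ) :
    ∃ ℓ : ℕ, ℓ.Prime ∧ ℓ ∉ T ∧ ℓ ≠ v ∧ ℓ ≠ 2 ∧ ∃ k, p * k = ℓ - 1 ∧ (v : ZMod ℓ) ^ k ≠ 1 :=
  exists_aux_avoid_aux (Ω := AlgebraicClosure ℚ) p hv T

/-- a family of auxiliary primes -/
theorem exists_aux_family (p : ℕ) [hp : Fact p.Prime] (S : Finset Nat.Primes) (T : Finset ℕ) :
    ∃ ℓ : Nat.Primes → Nat.Primes, Set.InjOn ℓ S ∧ ∀ q ∈ S, (ℓ q : ℕ) ∉ T ∧
      ∃ k, p * k = (ℓ q : ℕ) - 1 ∧ ((q : ℕ) : ZMod (ℓ q : ℕ)) ^ k ≠ 1 := by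
  classical
  induction S using Finset.induction_on with
  | empty => exact ⟨id, by simp, by simp⟩
  | insert q S hq ih =>
    obtain ⟨ℓ, hinj, hℓ⟩ := ih
    obtain ⟨ℓ', hℓ', hT, -, -, k, hk, hk'⟩ := exists_aux_avoid p q.2
      (T ∪ S.image (fun q' => (ℓ q' : ℕ)))
    rw [Finset.mem_union, not_or] at hT
    refine ⟨Function.update ℓ q ⟨ℓ', hℓ'⟩, ?_, ?_⟩
    · have hne : ∀ a ∈ S, ℓ a ≠ ⟨ℓ', hℓ'⟩ := by
        intro a ha h
        apply hT.2
        rw [Finset.mem_image]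
        exact ⟨a, ha, congrArg Subtype.val h⟩
      have hqa : ∀ a ∈ S, a ≠ q := fun a ha h => hq (h ▸ ha)
      intro a ha b hb hab
      rw [Finset.mem_coe, Finset.mem_insert] at ha hb
      rcases ha with rfl | ha
      · rcases hb with rfl | hb
        · rfl
        · rw [Function.update_self, Function.update_of_ne (hqa b hb)] at hab
          exact absurd hab.symm (hne b hb)
      · rcases hb with rfl | hb
        · rw [Function.update_self, Function.update_of_ne (hqa a ha)] at hab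
          exact absurd hab (hne a ha)
        · rw [Function.update_of_ne (hqa a ha), Function.update_of_ne (hqa b hb)] at hab
          exact hinj ha hb hab
    · intro a ha
      rw [Finset.mem_insert] at ha
      by_cases haq : a = q
      · subst haq
        rw [Function.update_self]
        exact ⟨hT.1, k, hk, hk'⟩
      · rw [Function.update_of_ne haq]
        exact hℓ a (ha.resolve_left haq)

/-- a common inverse -/
theorem exists_common_inverse (S : Finset Nat.Primes) (ℓ : Nat.Primes → Nat.Primes)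
    (hinj : Set.InjOn ℓ S) (hne : ∀ q ∈ S, ℓ q ≠ q) (T : Finset Nat.Primes) :
    ∃ q' : Nat.Primes, q' ∉ T ∧ ∀ q ∈ S, (((q : ℕ) * (q' : ℕ) : ℕ) : ZMod (ℓ q : ℕ)) = 1 := by
  classical
  -- CRT
  obtain ⟨b, hb⟩ : ∃ b : ℕ, ∀ q ∈ S, (((q : ℕ) * b : ℕ) : ZMod (ℓ q : ℕ)) = 1 := by
    have hcop : Set.Pairwise (S : Set Nat.Primes) (Function.onFun Nat.Coprime
        (fun q => (ℓ q : ℕ))) := by
      intro a ha b hb hab
      refine (Nat.coprime_primes (ℓ a).2 (ℓ b).2).2 (fun h => hab (hinj ha hb (Subtype.ext h)))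
    obtain ⟨b, hb⟩ := Nat.chineseRemainderOfFinset
      (fun q : Nat.Primes => (((q : ℕ) : ZMod (ℓ q : ℕ))⁻¹).val) (fun q => (ℓ q : ℕ)) S
      (fun q _ => (ℓ q).2.ne_zero) hcop
    refine ⟨b, fun q hq => ?_⟩
    have h1 := (ZMod.natCast_eq_natCast_iff _ _ _).2 (hb q hq)
    have : NeZero (ℓ q : ℕ) := ⟨(ℓ q).2.ne_zero⟩
    have : Fact (ℓ q : ℕ).Prime := ⟨(ℓ q).2⟩
    rw [ZMod.natCast_zmod_val] at h1
    push_cast
    rw [h1, mul_inv_cancel₀]
    intro h0
    rw [ZMod.natCast_eq_zero_iff] at h0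
    exact hne q hq (Subtype.ext ((Nat.prime_dvd_prime_iff_eq (ℓ q).2 q.2).1 h0))
  set M : ℕ := ∏ q ∈ S, (ℓ q : ℕ) with hM
  have hM0 : M ≠ 0 := Finset.prod_ne_zero_iff.2 (fun q _ => (ℓ q).2.ne_zero)
  have : NeZero M := ⟨hM0⟩
  have hbu : IsUnit ((b : ℕ) : ZMod M) := by
    rw [ZMod.isUnit_iff_coprime]
    refine Nat.Coprime.prod_right (fun q hq => ?_)
    rw [← ZMod.isUnit_iff_coprime]
    have h1 := hb q hq
    push_cast at h1
    exact IsUnit.of_mul_eq_one _ ((mul_comm _ _).trans h1)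
  obtain ⟨r, hrT, hr, hrb⟩ := Nat.forall_exists_prime_gt_and_eq_mod hbu
    (T.sup (fun q => (q : ℕ)))
  refine ⟨⟨r, hr⟩, fun h => ?_, fun q hq => ?_⟩
  · have h1 := Finset.le_sup (f := fun q : Nat.Primes => (q : ℕ)) h
    exact absurd h1 (not_le.2 hrT)
  · have h1 : r ≡ b [MOD M] := (ZMod.natCast_eq_natCast_iff _ _ _).1 hrb
    have h2 : r ≡ b [MOD (ℓ q : ℕ)] :=
      h1.of_dvd (Finset.dvd_prod_of_mem (fun q : Nat.Primes => (ℓ q : ℕ)) hq)
    have h3 := (ZMod.natCast_eq_natCast_iff _ _ _).2 h2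
    rw [← hb q hq]
    push_cast
    rw [h3]

end Fermat.Agent.CFR
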