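import Fermat.Agent.PTLocal.Cyclic
import Fermat.Agent.PTGlob.Conj

/-!
# Biadditivity of the cyclic coboundary
-/

set_option autoImplicit false

namespace Fermat.Agent.CFR

open Fermat.Agent.PT Fermat.Agent.PTLocal

section

variable {p : ℕ} [hp : Fact p.Prime] {G : Type*} [Group G] {L : Levels G} {A : Type*}
  [AddCommGroup A] {ρ : Act G A}

lemma carry_add_add (a a' c c' : ZMod p) :
    carry (a + a') (c + c') - carry a c - carry a' c' =
      carry (a + c) (a' + c') - carry a a' - carry c c' := by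
  have e : (a + a') + (c + c') = (a + c) + (a' + c') := by ring
  have h1 := val_add_cases (a + a') (c + c')
  have h2 := val_add_cases a a'
  have h3 := val_add_cases c c'
  have h4 := val_add_cases (a + c) (a' + c')
  have h5 := val_add_cases a c
  have h6 := val_add_cases a' c'
  rw [e] at h1
  have hp' : (p : ℤ) ≠ 0 := by exact_mod_cast hp.out.ne_zero
  apply mul_left_cancel₀ hp'
  linear_combination h1 - h4 + h2 + h3 - h5 - h6

lemma cycδ_add_left (hρ : Smooth L ρ) (χ χ' : Chi p L) (b : H0 ρ) :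
    cycδ hρ (χ + χ') b = cycδ hρ χ b + cycδ hρ χ' b := by
  rw [← sub_eq_zero, cycδ_apply, cycδ_apply, cycδ_apply, ← map_add, ← map_sub]
  refine H2.mk_eq_zero.2 ⟨fun g => carry ((χ : G → ZMod p) g) ((χ' : G → ZMod p) g) • (b : A),
    ?_, ?_⟩
  · exact χ.2.1.comp₂ χ'.2.1 (fun x y => carry x y • (b : A))
  · ext g h
    rw [d1_apply, map_zsmul, mem_H0.1 b.2]
    show _ = -(carry ((χ : G → ZMod p) g + (χ' : G → ZMod p) g)
      ((χ : G → ZMod p) h + (χ' : G → ZMod p) h) • (b : A)) -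
      (-(carry ((χ : G → ZMod p) g) ((χ : G → ZMod p) h) • (b : A)) +
      -(carry ((χ' : G → ZMod p) g) ((χ' : G → ZMod p) h) • (b : A)))
    have h1 := carry_add_add ((χ : G → ZMod p) g) ((χ' : G → ZMod p) g)
      ((χ : G → ZMod p) h) ((χ' : G → ZMod p) h)
    rw [chi_mul, chi_mul]
    have h2 : carry ((χ : G → ZMod p) g + (χ' : G → ZMod p) g)
      ((χ : G → ZMod p) h + (χ' : G → ZMod p) h) =
      carry ((χ : G → ZMod p) g) ((χ : G → ZMod p) h) +
      carry ((χ' : G → ZMod p) g) ((χ' : G → ZMod p) h) +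
      carry ((χ : G → ZMod p) g + (χ : G → ZMod p) h)
        ((χ' : G → ZMod p) g + (χ' : G → ZMod p) h) -
      carry ((χ : G → ZMod p) g) ((χ' : G → ZMod p) g) -
      carry ((χ : G → ZMod p) h) ((χ' : G → ZMod p) h) := by linarith
    rw [h2, sub_smul, sub_smul, add_smul, add_smul]
    abel

lemma cycδ_zero_left (hρ : Smooth L ρ) (b : H0 ρ) : cycδ hρ (0 : Chi p L) b = 0 := by
  have h := cycδ_add_left hρ (0 : Chi p L) 0 b
  rw [add_zero] at h
  exact left_eq_add.1 h

lemma cycδ_nsmul_left (hρ : Smooth L ρ) (n : ℕ) (χ : Chi p L) (b : H0 ρ) :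
    cycδ hρ (n • χ) b = n • cycδ hρ χ b := by
  induction n with
  | zero => rw [zero_smul, zero_smul, cycδ_zero_left]
  | succ n ih => rw [succ_nsmul, succ_nsmul, cycδ_add_left, ih]

lemma nsmul_chi_eq_zero (χ : Chi p L) : p • χ = 0 := by
  apply Subtype.ext
  funext g
  show p • (χ : G → ZMod p) g = 0
  rw [nsmul_eq_mul, CharP.cast_eq_zero, zero_mul]

lemma p_nsmul_cycδ (hρ : Smooth L ρ) (χ : Chi p L) (b : H0 ρ) : p • cycδ hρ χ b = 0 := by
  rw [← cycδ_nsmul_left, nsmul_chi_eq_zero, cycδ_zero_left]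

/-- proportional characters -/
lemma cycδ_smul_left (hρ : Smooth L ρ) (c : ZMod p) {χ χ' : Chi p L}
    (h : ∀ g, (χ' : G → ZMod p) g = c * (χ : G → ZMod p) g) (b : H0 ρ) :
    cycδ hρ χ' b = c.val • cycδ hρ χ b := by
  rw [← cycδ_nsmul_left]
  congr 1
  congr 1
  apply Subtype.ext
  funext g
  show (χ' : G → ZMod p) g = c.val • (χ : G → ZMod p) g
  rw [h, nsmul_eq_mul, ZMod.natCast_zmod_val]

end

section

variable {p : ℕ} [hp : Fact p.Prime] {M : Type*} [AddCommGroup M]

/-- multiples of an element killed by `p` -/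
lemma val_add_nsmul {m : M} (hm : p • m = 0) (a b : ZMod p) :
    (a + b).val • m = a.val • m + b.val • m := by
  rw [← add_smul, ZMod.val_add]
  conv_rhs => rw [← Nat.mod_add_div (a.val + b.val) p, add_smul, mul_comm, mul_smul, hm, smul_zero,
    add_zero]

lemma val_mul_nsmul {m : M} (hm : p • m = 0) (a b : ZMod p) :
    (a * b).val • m = a.val • b.val • m := by
  rw [← mul_smul, ZMod.val_mul]
  conv_rhs => rw [← Nat.mod_add_div (a.val * b.val) p, add_smul, mul_comm p, mul_smul _ p m, hm,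
    smul_zero, add_zero]

lemma nsmul_eq_val {m : M} (hm : p • m = 0) (n : ℕ) :
    n • m = ((n : ZMod p)).val • m := by
  rw [ZMod.val_natCast]
  conv_lhs => rw [← Nat.mod_add_div n p, add_smul, mul_comm p, mul_smul _ p m, hm,
    smul_zero, add_zero]

lemma zsmul_eq_val {m : M} (hm : p • m = 0) (n : ℤ) :
    n • m = ((n : ZMod p)).val • m := by
  have h1 : ((n - (((n : ZMod p)).val : ℤ) : ℤ) : ZMod p) = 0 := by
    rw [Int.cast_sub, Int.cast_natCast, ZMod.natCast_zmod_val, sub_self]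
  rw [ZMod.intCast_zmod_eq_zero_iff_dvd] at h1
  obtain ⟨k, hk⟩ := h1
  have h2 : n = (((n : ZMod p)).val : ℤ) + k * p := by linarith
  conv_lhs => rw [h2, add_smul, mul_smul, natCast_zsmul, natCast_zsmul, hm, smul_zero, add_zero]

lemma val_nsmul_eq_zero {m : M} (hm : p • m = 0) (hm0 : m ≠ 0) {a : ZMod p}
    (h : a.val • m = 0) : a = 0 := by
  by_contra ha
  apply hm0
  have h1 : ((a⁻¹ * a).val) • m = 0 := by
    rw [val_mul_nsmul hm, h, smul_zero]
  rw [inv_mul_cancel₀ ha, ZMod.val_one, one_smul] at h1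
  exact h1

end

end Fermat.Agent.CFR
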