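import Fermat.Agent.CFR.TC

/-!
# Reciprocity over `ℚ` for the Brauer group: "all but one" implies all
-/

set_option autoImplicit false

open NumberField Module
open scoped ComplexConjugate

namespace Fermat.Agent.CFR

open Fermat.Agent.PT Fermat.Agent.CFT Fermat.Agent.CFT6 Fermat.Agent.PTLocal Fermat.Agent.PTC
  Fermat.Agent.ABHN

attribute [local instance] isGalois_qbar

section general

variable {G Γ : Type*} [Group G] [Group Γ] {A B : Type*} [AddCommGroup A] [AddCommGroup B]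
  {X : Type*}

lemma mapPair_constHom' {L : Levels G} {ρ : Act G A} {L' : Levels Γ} {σ : Act Γ B}
    (φ : PairHom L ρ L' σ) (ξ : G →* Equiv.Perm X) (x : H2 L ρ) :
    (ABHN.mapPair ξ φ).h2 ((constHom ξ ρ).h2 L x) = (constHom (ξ.comp φ.r) σ).h2 L' (φ.h2 x) := by
  rw [EHom.h2, EHom.h2, ← PairHom.h2_comp, ← PairHom.h2_comp]
  exact PairHom.h2_congr (fun _ => rfl) (fun _ => rfl) x

/-- the trivial character -/
lemma exists_sum_zero {p : ℕ} [hp : Fact p.Prime] {L : Levels G} {ρ : Act G A} (b : H0 ρ) :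
    ∃ f : H0 (mapAct (xi (0 : Chi p L)) ρ), (sumHom (xi (0 : Chi p L)) ρ).h0 f = b := by
  refine ⟨⟨Pi.single 0 (b : A), ?_⟩, ?_⟩
  · rw [mem_H0_mapAct]
    intro g x
    have h1 : xi (0 : Chi p L) g x = x := by
      rw [xi_apply]
      show x + 0 = x
      rw [add_zero]
    rw [h1]
    by_cases hx : x = 0
    · subst hx
      rw [Pi.single_eq_same, mem_H0.1 b.2]
    · rw [Pi.single_eq_of_ne hx, map_zero]
  · apply Subtype.ext
    show ∑ x : ZMod p, (Pi.single 0 (b : A) : ZMod p → A) x = b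
    simp

end general

/-- the auxiliary field, all `p` -/
theorem exists_rec_field_gen (p : ℕ) [hp : Fact p.Prime] (v₀ : Nat.Primes) :
    ∃ (L : IntermediateField ℚ (AlgebraicClosure ℚ)) (_ : NumberField L),
      IsGalois ℚ L ∧ finrank ℚ L = p ∧ TransAt L v₀ ∧
      (p = 2 → ∀ (c : AlgebraicClosure ℚ ≃ₐ[ℚ] AlgebraicClosure ℚ)
        (ι : AlgebraicClosure ℚ →+* ℂ), (∀ x, ι (c x) = conj (ι x)) → ∃ x ∈ L, c x ≠ x) ∧
      ∀ x : ℚ, x ≠ 0 → (p = 2 → 0 < x) → (∀ q : Nat.Primes, q ≠ v₀ → NormAt L q (x : Cq q)) →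
        NormAt L v₀ (x : Cq v₀) := by
  by_cases h2 : p = 2
  · subst h2
    obtain ⟨L, hL, h1, h3, h4, h5, h6⟩ := exists_rec_field_two v₀
    exact ⟨L, hL, h1, h3, h4, fun _ => h5, fun x hx hx' => h6 x (hx' rfl)⟩
  · obtain ⟨L, hL, h1, h3, h4, h5⟩ := exists_rec_field p h2 v₀
    exact ⟨L, hL, h1, h3, h4, fun h => absurd h h2, fun x hx _ => h5 x hx⟩

/-- the character attached to a cyclic extension of degree `p` -/
lemma exists_chi_allL {p : ℕ} [hp : Fact p.Prime] (L : IntermediateField ℚ Qb)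
    (hfd : FiniteDimensional ℚ L) (hN : @Normal ℚ L _ _ L.algebra')
    (hL : @finrank ℚ L _ _ L.algebra'.toModule = p) : ∃ χ : Chi p allL, χ ≠ 0 ∧
      ∀ g, (χ : (Qb ≃ₐ[ℚ] Qb) → ZMod p) g = 0 ↔ g ∈ L.fixingSubgroup := by
  have hn : L.fixingSubgroup.Normal := fixing_normal L hN
  have hidx : L.fixingSubgroup.index = p := by
    rw [← IntermediateField.finrank_eq_fixingSubgroup_index]
    exact hL
  let e : (Qb ≃ₐ[ℚ] Qb) ⧸ L.fixingSubgroup ≃* Multiplicative (ZMod p) :=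
    mulEquivOfPrimeCardEq (p := p) hidx
      (by rw [Nat.card_congr Multiplicative.toAdd, Nat.card_zmod])
  let φ : (Qb ≃ₐ[ℚ] Qb) →* Multiplicative (ZMod p) :=
    e.toMonoidHom.comp (QuotientGroup.mk' L.fixingSubgroup)
  have hφ : ∀ s, φ s = 1 ↔ s ∈ L.fixingSubgroup := by
    intro s
    show e ((QuotientGroup.mk' L.fixingSubgroup) s) = 1 ↔ _
    rw [← map_one e, e.injective.eq_iff]
    exact QuotientGroup.eq_one_iff s
  refine ⟨⟨fun g => Multiplicative.toAdd (φ g), ?_⟩, ?_, fun g => ?_⟩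
  · rw [mem_Z1']
    refine ⟨⟨L.fixingSubgroup, ⟨hn, L, hfd, rfl⟩, fun g s hs => ?_⟩, fun g h => ?_⟩
    · show Multiplicative.toAdd (φ (g * s)) = Multiplicative.toAdd (φ g)
      rw [map_mul, (hφ s).2 hs, mul_one]
    · show Multiplicative.toAdd (φ (g * h)) = _
      rw [map_mul, toAdd_mul, trivAct_apply]
  · intro h0
    have h1 : ∀ g, φ g = 1 := fun g => congrFun (congrArg Subtype.val h0) g
    have hs : Function.Surjective φ :=
      e.surjective.comp (QuotientGroup.mk'_surjective L.fixingSubgroup)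
    obtain ⟨g, hg⟩ := hs (Multiplicative.ofAdd 1)
    rw [h1] at hg
    have h2 : (0 : ZMod p) = 1 := congrArg Multiplicative.toAdd hg
    exact zero_ne_one h2
  · exact hφ g

/-- a quadratic cyclic class which is trivial at a complex conjugation comes from a positive
number -/
lemma pos_of_real {χ : Chi 2 allL} {c : PTC.GQ} {ι : Qb →+* ℂ} (hc : ∀ z, ι (c z) = conj (ι z))
    (hχ : (χ : PTC.GQ → ZMod 2) c ≠ 0) {a : H0 (galAct ℚ Qb)} {t : ℚ}
    (ht : ((Additive.toMul (a : Additive Qbˣ) : Qbˣ) : Qb) = algebraMap ℚ Qb t)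
    (h : (resPair allL (galAct ℚ Qb) (Subgroup.zpowers c)).h2
      (cycδ (p := 2) lgAll.smooth χ a) = 0) : 0 < t := by
  have hχ1 : (χ : PTC.GQ → ZMod 2) c = 1 := by
    revert hχ
    generalize (χ : PTC.GQ → ZMod 2) c = y
    revert y
    decide
  have hc2 : c * c = 1 := by
    apply AlgEquiv.ext
    intro z
    apply ι.injective
    show ι (c (c z)) = ι z
    rw [hc, hc, Complex.conj_conj]
  rw [cycδ_apply] at h
  obtain ⟨b, -, hb⟩ := (H2.mk_eq_zero (L := allL.sub (Subgroup.zpowers c))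
    (ρ := resAct (galAct ℚ Qb) (Subgroup.zpowers c))
    (f := (resPair allL (galAct ℚ Qb) (Subgroup.zpowers c)).z2 ⟨_, carry_mem χ a⟩)).1 h
  let d : Subgroup.zpowers c := ⟨c, Subgroup.mem_zpowers c⟩
  have hdd : d * d = 1 := Subtype.ext hc2
  have e1 : galAct ℚ Qb c (b d) - b (d * d) + b d =
      -(carry ((χ : PTC.GQ → ZMod 2) c) ((χ : PTC.GQ → ZMod 2) c) • (a : Additive Qbˣ)) :=
    congrFun (congrFun hb d) d
  have e2 : galAct ℚ Qb 1 (b 1) - b (1 * 1) + b 1 =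
      -(carry ((χ : PTC.GQ → ZMod 2) 1) ((χ : PTC.GQ → ZMod 2) 1) • (a : Additive Qbˣ)) :=
    congrFun (congrFun hb 1) 1
  have hcar0 : carry (0 : ZMod 2) 0 = 0 := by decide
  have hcar1 : carry (1 : ZMod 2) 1 = 1 := by decide
  rw [chi_one, hcar0, zero_smul, neg_zero, act_one, mul_one, sub_self, zero_add] at e2
  rw [hχ1, hcar1, one_smul, hdd, e2, sub_zero] at e1
  -- multiplicative form
  set y : Qb := ((Additive.toMul (b d) : Qbˣ) : Qb) with hy
  have hy0 : y ≠ 0 := (Additive.toMul (b d) : Qbˣ).ne_zero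
  have e3 : c y * y = (algebraMap ℚ Qb t)⁻¹ := by
    have := congrArg (fun u : Additive Qbˣ => ((Additive.toMul u : Qbˣ) : Qb)) e1
    rw [← ht]
    refine Eq.trans ?_ (this.trans ?_)
    · rfl
    · show (((Additive.toMul (a : Additive Qbˣ) : Qbˣ)⁻¹ : Qbˣ) : Qb) = _
      rw [Units.val_inv_eq_inv_val]
  have e4 : ((Complex.normSq (ι y) : ℝ) : ℂ) = (((t : ℝ)⁻¹ : ℝ) : ℂ) := by
    have h5 := congrArg ι e3
    rw [map_mul, hc, map_inv₀, mul_comm, Complex.mul_conj] at h5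
    rw [h5, eq_ratCast, map_ratCast]
    push_cast
    rfl
  have e5 : Complex.normSq (ι y) = ((t : ℝ)⁻¹ : ℝ) := by exact_mod_cast e4
  have e6 : 0 < Complex.normSq (ι y) := Complex.normSq_pos.2 ((map_ne_zero ι).2 hy0)
  rw [e5, inv_pos] at e6
  exact_mod_cast e6

variable {p : ℕ} [hp : Fact p.Prime]

/-- local classes killed by `p` are killed by every non-trivial character of order `p` -/
lemma constHom_loc_eq_zero (v : Nat.Primes) {χ : Chi p (allL.comap (ExtCitation.primeLocalToGlobal v))}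
    (hχ : χ ≠ 0) (y : H2 (allL.comap (ExtCitation.primeLocalToGlobal v))
      (galAct ℚ_[(v : ℕ)] (Cq v))) (hy : p • y = 0) :
    (constHom (xi χ) (galAct ℚ_[(v : ℕ)] (Cq v))).h2 _ y = 0 := by
  obtain ⟨ζ, hζ⟩ := PTC.exists_zeta p
  have hiv : Function.Injective ((φq v).f.comp (zetaHom hζ)) := by
    intro a b hab
    apply zetaHom_injective hζ
    apply Additive.toMul.injective
    apply Units.ext
    apply (padicEmbedding (v : ℕ)).injective
    have h1 := congrArg (fun t => ((Additive.toMul t : (Cq v)ˣ) : Cq v)) hab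
    exact h1
  have hcv : ∀ g a, ((φq v).f.comp (zetaHom hζ))
      (((muA p).comp (localGaloisToGlobal (v : ℕ))) g a) =
      (lgq v).act g (((φq v).f.comp (zetaHom hζ)) a) := by
    intro g a
    show (φq v).f (zetaHom hζ (muA p (localGaloisToGlobal (v : ℕ) g) a)) =
      galAct ℚ_[(v : ℕ)] (Cq v) g ((φq v).f (zetaHom hζ a))
    rw [zetaHom_mu]
    exact (φq v).comm g _
  have h1 : (kumMu (lgq v) hiv hcv).p.h2 _ y = 0 :=
    (EHom.h2_nsmul _ (fun a => rfl) y).trans hy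
  obtain ⟨z, hz⟩ := ((kumMu (lgq v) hiv hcv).exact_H2_mid (lgq v).smooth _).1 h1
  rw [← hz]
  exact constHom_mu_eq_zero (lgq v) hiv hcv hχ z

/-- **Reciprocity for the Brauer group of `ℚ`, all but one form.** -/
theorem recip_br (x : H2 allL (galAct ℚ Qb)) (hx : p • x = 0) (v : Nat.Primes)
    (hloc : ∀ q : Nat.Primes, q ≠ v → (sysAll.loc q).h2 x = 0)
    (hreal : p = 2 → ∃ (c : PTC.GQ) (ι : Qb →+* ℂ), (∀ z, ι (c z) = conj (ι z)) ∧
      (resPair allL (galAct ℚ Qb) (Subgroup.zpowers c)).h2 x = 0) :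
    (sysAll.loc v).h2 x = 0 := by
  obtain ⟨L, hnf, hgal, hdeg, htrans, hconj, hrec⟩ := exists_rec_field_gen p v
  have hfd : FiniteDimensional ℚ L := by
    have h1 := hnf.to_finiteDimensional
    have h2 : (L.algebra' : Algebra ℚ L) = DivisionRing.toRatAlgebra := Subsingleton.elim _ _
    exact h1
  obtain ⟨χ, hχ0, hχ⟩ := exists_chi_allL (p := p) L hfd (normal_conv.2 hgal.to_normal) hdeg
  -- local characters
  let χl : ∀ q : Nat.Primes, Chi p (allL.comap (ExtCitation.primeLocalToGlobal q)) := fun q =>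
    PTGlob.chiPull (sysAll.loc q) χ
  have hχq : ∀ (q : Nat.Primes) (γ : Gq q), (χl q).1 γ =
      (χ : (Qb ≃ₐ[ℚ] Qb) → ZMod p) (localGaloisToGlobal (q : ℕ) γ) := fun _ _ => rfl
  have hχv : χl v ≠ 0 := chi_ne_zero_of_trans hχ v (hχq v) hdeg hχ0 htrans
  set U := L.fixingSubgroup with hU
  have hUo : IsOpenSub allL U :=
    ⟨U, ⟨fixing_normal L (normal_conv.2 hgal.to_normal), L, hfd, rfl⟩, le_rfl⟩
  have hUn : U.Normal := fixing_normal L (normal_conv.2 hgal.to_normal)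
  have hlift : ∀ a b : (Qb ≃ₐ[ℚ] Qb), (QuotientGroup.leftRel U) a b →
      (χ : (Qb ≃ₐ[ℚ] Qb) → ZMod p) a = (χ : (Qb ≃ₐ[ℚ] Qb) → ZMod p) b := by
    intro a b hab
    rw [QuotientGroup.leftRel_apply, ← hχ, chi_mul, chi_inv, neg_add_eq_zero] at hab
    exact hab
  let π : (Qb ≃ₐ[ℚ] Qb) ⧸ U → ZMod p := fun c =>
    Quotient.liftOn' c (fun g => (χ : (Qb ≃ₐ[ℚ] Qb) → ZMod p) g) hlift
  have hπ : ∀ g c, π (cosetAct U g c) = xi χ g (π c) := by
    intro g c
    obtain ⟨h, rfl⟩ := QuotientGroup.mk_surjective c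
    show (χ : (Qb ≃ₐ[ℚ] Qb) → ZMod p) (g * h) = (χ : (Qb ≃ₐ[ℚ] Qb) → ZMod p) h +
      (χ : (Qb ≃ₐ[ℚ] Qb) → ZMod p) g
    rw [chi_mul, add_comm]
  choose s hs using fun x : ZMod p => chi_surjective hχ0 x
  let π' : ZMod p → (Qb ≃ₐ[ℚ] Qb) ⧸ U := fun x => (s x : (Qb ≃ₐ[ℚ] Qb) ⧸ U)
  have hπ' : ∀ g x, π' (xi χ g x) = cosetAct U g (π' x) := by
    intro g x
    show ((s (xi χ g x) : (Qb ≃ₐ[ℚ] Qb)) : (Qb ≃ₐ[ℚ] Qb) ⧸ U) =
      ((g * s x : (Qb ≃ₐ[ℚ] Qb)) : (Qb ≃ₐ[ℚ] Qb) ⧸ U)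
    rw [QuotientGroup.eq, ← hχ, chi_mul, chi_mul, chi_inv, hs, hs, xi_apply]
    ring
  -- `x` becomes trivial over `L`
  have hlocU : ∀ q : Nat.Primes, (ABHN.mapPair (cosetAct U) (sysAll.loc q)).h2
      ((constHom (cosetAct U) (galAct ℚ Qb)).h2 allL x) = 0 := by
    intro q
    refine (mapPair_constHom' (sysAll.loc q) (cosetAct U) x).trans ?_
    by_cases hq : q = v
    · subst hq
      refine constHom_transfer (ξ := xi (χl q)) π (fun g c => ?_) _ ?_
      · exact hπ (localGaloisToGlobal (q : ℕ) g) c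
      · exact constHom_loc_eq_zero q hχv _ ((map_nsmul (sysAll.loc q).h2 p x).symm.trans
          ((congrArg _ hx).trans (map_zero _)))
    · rw [hloc q hq]
      exact map_zero _
  have hβp : p • (constHom (cosetAct U) (galAct ℚ Qb)).h2 allL x = 0 := by
    rw [← map_nsmul, hx, map_zero]
  have hcU : (constHom (cosetAct U) (galAct ℚ Qb)).h2 allL x = 0 := by
    by_cases hp2 : p = 2
    · obtain ⟨c, ι, hc, -⟩ := hreal hp2
      refine abhn_coset_tc (p := p) U hUo ?_ 1 _ (by rw [pow_one]; exact hβp) hlocU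
      refine isTotallyComplex_fixedField U hUo c ι hc (fun g hg => ?_)
      obtain ⟨z, hz, hz'⟩ := hconj hp2 c ι hc
      have h1 := hUn.conj_mem _ hg g
      have h2 : g * (g⁻¹ * c * g) * g⁻¹ = c := by group
      rw [h2] at h1
      exact hz' ((IntermediateField.mem_fixingSubgroup_iff _ _).1 h1 z hz)
    · have hfi : U.FiniteIndex := hUo.finiteIndex
      have hX : Finite (PTC.GQ ⧸ U) := inferInstance
      exact abhn_all_semi hp2 (cosetAct U) (levelTrivial_cosetAct hUo) _ hβp hlocU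
  have h0 : (constHom (xi χ) (galAct ℚ Qb)).h2 allL x = 0 := constHom_transfer π' hπ' x hcU
  obtain ⟨a, ha⟩ := exists_cycδ lgAll.smooth χ (h90_chi lgAll hχ0) x h0
  obtain ⟨t, ht0, ht⟩ := exists_rat a
  have hval : ∀ q : Nat.Primes,
      ((Additive.toMul ((sysAll.loc q).h0 a : Additive (Cq q)ˣ) : (Cq q)ˣ) : Cq q) =
        (t : Cq q) := by
    intro q
    show padicEmbedding (q : ℕ) ((Additive.toMul (a : Additive Qbˣ) : Qbˣ) : Qb) = _
    rw [ht, eq_ratCast, map_ratCast]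
  have hβq : ∀ q : Nat.Primes, (sysAll.loc q).h2 x =
      cycδ (lgq q).smooth (χl q) ((sysAll.loc q).h0 a) := by
    intro q
    rw [← ha]
    exact PTGlob.cycδ_nat (sysAll.loc q) lgAll.smooth (lgq q).smooth χ a
  have hnorm : ∀ q : Nat.Primes, q ≠ v → NormAt L q (t : Cq q) := by
    intro q hq
    rw [← hval q]
    refine (normAt_iff hχ q (hχq q) hdeg hχ0 _).2 ?_
    by_cases h : χl q = 0
    · rw [h]
      exact exists_sum_zero _
    · refine (cycδ_eq_zero (lgq q).smooth (χl q) (h90_chi (lgq q) h) _).1 ?_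
      exact (hβq q).symm.trans (hloc q hq)
  have hpos : p = 2 → 0 < t := by
    intro hp2
    subst hp2
    obtain ⟨c, ι, hc, hres⟩ := hreal rfl
    obtain ⟨z, hz, hz'⟩ := hconj rfl c ι hc
    refine pos_of_real (χ := χ) hc (fun h => ?_) ht (by rw [ha]; exact hres)
    exact hz' ((IntermediateField.mem_fixingSubgroup_iff _ _).1 ((hχ c).1 h) z hz)
  have hnv := hrec t ht0 hpos hnorm
  rw [← hval v] at hnv
  rw [hβq]
  exact (cycδ_eq_zero (lgq v).smooth (χl v) (h90_chi (lgq v) hχv) _).2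
    ((normAt_iff hχ v (hχq v) hdeg hχ0 _).1 hnv)

end Fermat.Agent.CFR
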