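import Mathlib

/-!
# Homomorphisms out of the class group
-/

set_option autoImplicit false

open scoped nonZeroDivisors

namespace Fermat.Agent.CFR

/-- a multiplicative function on ideals which kills principal ideals factors through the
class group -/
theorem exists_classGroup_hom {R : Type*} [CommRing R] [IsDedekindDomain R] {M : Type*}
    [AddCommGroup M] (f : Ideal R → M) (hmul : ∀ I J : Ideal R, I ≠ 0 → J ≠ 0 →
      f (I * J) = f I + f J) (hprin : ∀ a : R, a ≠ 0 → f (Ideal.span {a}) = 0) :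
    ∃ ψ : ClassGroup R →* Multiplicative M, ∀ I : (Ideal R)⁰,
      ψ (ClassGroup.mk0 I) = Multiplicative.ofAdd (f (I : Ideal R)) := by
  have hne : ∀ I : (Ideal R)⁰, (I : Ideal R) ≠ 0 := fun I => nonZeroDivisors.ne_zero I.2
  have key : ∀ I J : (Ideal R)⁰, ClassGroup.mk0 I = ClassGroup.mk0 J →
      f (I : Ideal R) = f (J : Ideal R) := by
    intro I J h
    obtain ⟨x, y, hx, hy, hxy⟩ := ClassGroup.mk0_eq_mk0_iff.1 h
    have hx' : (Ideal.span {x} : Ideal R) ≠ 0 := by
      rw [Ne, Ideal.zero_eq_bot, Ideal.span_singleton_eq_bot]; exact hx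
    have hy' : (Ideal.span {y} : Ideal R) ≠ 0 := by
      rw [Ne, Ideal.zero_eq_bot, Ideal.span_singleton_eq_bot]; exact hy
    have h1 := congrArg f hxy
    rw [hmul _ _ hx' (hne I), hmul _ _ hy' (hne J), hprin x hx, hprin y hy, zero_add,
      zero_add] at h1
    exact h1
  choose r hr using (ClassGroup.mk0_surjective (R := R))
  have hψ : ∀ I : (Ideal R)⁰, f (r (ClassGroup.mk0 I) : Ideal R) = f (I : Ideal R) :=
    fun I => key _ _ (hr _)
  refine ⟨MonoidHom.mk' (fun c => Multiplicative.ofAdd (f (r c : Ideal R))) ?_, fun I => ?_⟩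
  · intro c d
    rw [← ofAdd_add]
    congr 1
    rw [← hmul _ _ (hne _) (hne _)]
    have h1 : ClassGroup.mk0 (r (c * d)) = ClassGroup.mk0 (r c * r d) := by
      rw [map_mul, hr, hr, hr]
    exact key _ _ h1
  · show Multiplicative.ofAdd (f (r (ClassGroup.mk0 I) : Ideal R)) = _
    rw [hψ]

end Fermat.Agent.CFR
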