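import Fermat.Agent.CFR.Sum
import Mathlib.RingTheory.DedekindDomain.AdicValuation

/-!
# Multiplicities of primes of number fields, and embeddings
-/

set_option autoImplicit false

open IsDedekindDomain Module
open scoped Pointwise NumberField nonZeroDivisors

namespace Fermat.Agent.CFR

open Fermat.Agent.PT Fermat.Agent.CFT Fermat.Agent.CFT6 Fermat.Agent.PTLocal Fermat.Agent.PTC
  Fermat.Agent.ABHN Fermat.Agent.Frob

attribute [local instance] isGalois_qbar

section cnt

variable {R : Type*} [CommRing R] [IsDedekindDomain R]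

/-- multiplicity of a prime in an ideal -/
noncomputable def cnt (P : HeightOneSpectrum R) (I : Ideal R) : ℕ :=
  (Associates.mk P.asIdeal).count (Associates.mk I).factors

lemma cnt_mul (P : HeightOneSpectrum R) {I J : Ideal R} (hI : I ≠ 0) (hJ : J ≠ 0) :
    cnt P (I * J) = cnt P I + cnt P J := by
  unfold cnt
  rw [← Associates.mk_mul_mk]
  exact Associates.count_mul (Associates.mk_ne_zero.2 hI) (Associates.mk_ne_zero.2 hJ)
    P.associates_irreducible

lemma cnt_self (P : HeightOneSpectrum R) : cnt P P.asIdeal = 1 :=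
  Associates.count_self P.associates_irreducible

lemma cnt_of_ne {P P' : HeightOneSpectrum R} (h : P ≠ P') : cnt P P'.asIdeal = 0 := by
  refine Associates.count_eq_zero_of_ne P.associates_irreducible P'.associates_irreducible
    (fun h' => h ?_)
  apply HeightOneSpectrum.ext
  exact associated_iff_eq.1 (Associates.mk_eq_mk_iff_associated.1 h')

lemma le_of_cnt_ne_zero {P : HeightOneSpectrum R} {I : Ideal R} (hI : I ≠ 0)
    (h : cnt P I ≠ 0) : I ≤ P.asIdeal := by
  rw [← Ideal.dvd_iff_le]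
  exact (Associates.count_ne_zero_iff_dvd hI P.irreducible).1 h

end cnt

section nf

variable {K : Type*} [Field K] [NumberField K]

lemma ord_eq_cnt (P : HeightOneSpectrum (𝓞 K)) {a : 𝓞 K} (ha : a ≠ 0) :
    ord P (a : K) = (cnt P (Ideal.span {a}) : ℤ) := by
  unfold ord
  have h1 : P.valuation K (a : K) = P.intValuation a := P.valuation_of_algebraMap a
  rw [h1, HeightOneSpectrum.intValuation_apply, P.intValuationDef_if_neg ha, WithZero.log_exp,
    neg_neg]
  rfl

/-- the norm at an embedding with image in `ℚ_q` -/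
theorem norm_eq_zpow_ord {q : Nat.Primes} (φ : Emb K q) (h : ∀ γ : Gq q, γ • φ = φ) {x : K}
    (hx : x ≠ 0) : ‖φ x‖ = ((q : ℕ) : ℝ) ^ (-(ord (CFT6.place φ) x)) := by
  -- values are powers of `q`
  have hq1 : (1 : ℝ) < ((q : ℕ) : ℝ) := by exact_mod_cast q.2.one_lt
  have hq0 : ((q : ℕ) : ℝ) ≠ 0 := by exact_mod_cast q.2.ne_zero
  have hval : ∀ y : K, y ≠ 0 → ∃ m : ℤ, ‖φ y‖ = ((q : ℕ) : ℝ) ^ (-m) := by
    intro y hy
    have h1 : φ y ∈ (⊥ : IntermediateField ℚ_[(q : ℕ)] (Cq q)) := by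
      rw [← InfiniteGalois.fixedField_fixingSubgroup (⊥ : IntermediateField ℚ_[(q : ℕ)] (Cq q)),
        IntermediateField.mem_fixedField_iff]
      intro f _
      exact congrArg (fun ψ : Emb K q => ψ y) (h f)
    obtain ⟨z, hz⟩ := IntermediateField.mem_bot.1 h1
    have hz0 : z ≠ 0 := by
      rintro rfl
      rw [map_zero] at hz
      exact (map_ne_zero φ).2 hy hz.symm
    refine ⟨z.valuation, ?_⟩
    rw [← hz, norm_algebraMap_padic, Padic.norm_eq_zpow_neg_valuation hz0]
  obtain ⟨π, hπ⟩ := (CFT6.place φ).valuation_exists_uniformizer K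
  have hπ0 : π ≠ 0 := by
    rintro rfl; rw [map_zero] at hπ; exact WithZero.coe_ne_zero hπ.symm
  have hordπ : ord (CFT6.place φ) π = 1 := by
    unfold ord
    rw [hπ]
    rfl
  obtain ⟨m, hm⟩ := hval π hπ0
  have hu : unif φ = ((q : ℕ) : ℝ) ^ (-m) := by
    rw [← hm, norm_eq_unif_zpow φ hπ0, hordπ, zpow_one]
  -- `m * ord q = 1`
  have hqK : ((q : ℕ) : K) ≠ 0 := by exact_mod_cast q.2.ne_zero
  have h2 := norm_eq_unif_zpow φ hqK
  rw [map_natCast, norm_natCast_q, hu, ← zpow_mul, ← zpow_neg_one] at h2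
  have h3 : (-1 : ℤ) = -m * ord (CFT6.place φ) ((q : ℕ) : K) :=
    zpow_right_injective₀ (by linarith) hq1.ne' h2
  have h4 : m * ord (CFT6.place φ) ((q : ℕ) : K) = 1 := by linarith
  have h5 : 0 < m := by
    by_contra hcon
    push Not at hcon
    have h6 := unif_lt_one φ
    rw [hu] at h6
    have h7 : (1 : ℝ) ≤ ((q : ℕ) : ℝ) ^ (-m) := one_le_zpow₀ hq1.le (by omega)
    linarith
  have h6 : m = 1 := by
    rcases Int.eq_one_or_neg_one_of_mul_eq_one h4 with h | h
    · exact h
    · omega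
  rw [norm_eq_unif_zpow φ hx, hu, h6, ← zpow_mul]
  congr 1
  ring

lemma natAbs_mem_of_le {q : Nat.Primes} {φ : Emb K q} {I : Ideal (𝓞 K)}
    (h : I ≤ (CFT6.place φ).asIdeal) : (q : ℕ) ∣ Ideal.absNorm I := by
  have h1 : ((Ideal.absNorm I : ℕ) : 𝓞 K) ∈ (CFT6.place φ).asIdeal := h (Ideal.absNorm_mem I)
  have h2 : ((Ideal.absNorm I : ℤ) : 𝓞 K) ∈ (CFT6.place φ).asIdeal := by exact_mod_cast h1
  have h3 := intCast_mem_place.1 h2
  exact_mod_cast h3

end nf

end Fermat.Agent.CFR
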