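import Fermat.Agent.CFR.Theta

/-!
# Corestriction of semilocal classes and its localisations
-/

set_option autoImplicit false

open NumberField IsDedekindDomain Module
open scoped Pointwise

namespace Fermat.Agent.CFR

open Fermat.Agent.PT Fermat.Agent.CFT Fermat.Agent.CFT6 Fermat.Agent.PTLocal Fermat.Agent.PTC
  Fermat.Agent.ABHN Fermat.Agent.Frob

attribute [local instance] isGalois_qbar

section gen

variable {G Γ : Type*} [Group G] [Group Γ] {A B : Type*} [AddCommGroup A] [AddCommGroup B]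
  {L : Levels G} {ρ : Act G A} {L' : Levels Γ} {σ : Act Γ B}

/-- additivity of `h2` in the coefficient map -/
lemma h2_sum {ι : Type*} [Fintype ι] (Q : PairHom L ρ L' σ) (P : ι → PairHom L ρ L' σ)
    (hr : ∀ i γ, (P i).r γ = Q.r γ) (hf : ∀ a, Q.f a = ∑ i, (P i).f a) (x : H2 L ρ) :
    Q.h2 x = ∑ i, (P i).h2 x := by
  obtain ⟨c, rfl⟩ := H2.mk_surjective L ρ x
  simp only [PairHom.h2_mk]
  rw [← map_sum]
  congr 1
  apply Subtype.ext
  ext γ δ
  rw [AddSubgroup.val_finset_sum, Finset.sum_apply, Finset.sum_apply]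
  show Q.f (c.1 (Q.r γ) (Q.r δ)) = ∑ i, (P i).f (c.1 ((P i).r γ) ((P i).r δ))
  rw [hf]
  refine Finset.sum_congr rfl (fun i _ => ?_)
  rw [hr, hr]

end gen

/-- localisation of `ℚ̄ˣ` -/
noncomputable def lc (q : Nat.Primes) : PairHom allL (galAct ℚ Qb) (Lvq q) (sq q) := sysAll.loc q

lemma gsm : Smooth allL (galAct ℚ Qb) := lgAll.smooth

variable {X : Type} [Fintype X] {ξ : PTC.GQ →* Equiv.Perm X} {x₀ : X}

/-- the corestriction -/
noncomputable def cor (ξ : PTC.GQ →* Equiv.Perm X) (β : H2 allL (mapAct ξ (galAct ℚ Qb))) :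
    H2 allL (galAct ℚ Qb) := (sumHom ξ (galAct ℚ Qb)).h2 allL β

/-- localisation at a point -/
noncomputable def evq (ξ : PTC.GQ →* Equiv.Perm X) (q : Nat.Primes)
    (hs : ∀ γ x, ξ (rq q γ) x = x) (y : X) :
    PairHom allL (mapAct ξ (galAct ℚ Qb)) (Lvq q) (sq q) where
  r := rq q
  f := { toFun := fun a => embU (iq q) (a y)
         map_zero' := map_zero _
         map_add' := fun a b => map_add _ _ _ }
  lev := sysAll.lev q
  comm γ a := by
    have h1 : ξ (rq q γ)⁻¹ y = y := by rw [map_inv, Equiv.Perm.inv_eq_iff_eq, hs]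
    show embU (iq q) (galAct ℚ Qb (rq q γ) (a (ξ (rq q γ)⁻¹ y))) = sq q γ (embU (iq q) (a y))
    rw [h1]
    exact (lc q).comm γ (a y)

omit [Fintype X] in
lemma evq_h2 (q : Nat.Primes) (hs : ∀ γ x, ξ (rq q γ) x = x) (g : PTC.GQ)
    (β : H2 allL (mapAct ξ (galAct ℚ Qb))) :
    (evq ξ q hs (ξ g x₀)).h2 β =
      (kap ξ x₀ q hs g).h2 ((shPair allL ξ (galAct ℚ Qb) x₀).h2 β) := by
  rw [← PairHom.h2_comp]
  conv_lhs => rw [← PTGlob.conj_h2 (ρ := mapAct ξ (galAct ℚ Qb)) g β]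
  refine (PairHom.h2_comp (evq ξ q hs (ξ g x₀))
    (PTGlob.conjPair allL (mapAct ξ (galAct ℚ Qb)) g) β).symm.trans ?_
  refine PairHom.h2_congr (φ := (evq ξ q hs (ξ g x₀)).comp
    (PTGlob.conjPair allL (mapAct ξ (galAct ℚ Qb)) g))
    (ψ := (kap ξ x₀ q hs g).comp (shPair allL ξ (galAct ℚ Qb) x₀)) (fun _ => rfl)
    (fun a => ?_) β
  show embU (iq q) (galAct ℚ Qb g (a (ξ g⁻¹ (ξ g x₀)))) =
    embU (iq q) (galAct ℚ Qb g (a x₀))
  rw [← Equiv.Perm.mul_apply, ← map_mul, inv_mul_cancel, map_one]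
  rfl

/-- localisation of the corestriction at a split place -/
theorem cor_split (q : Nat.Primes) (hs : ∀ γ x, ξ (rq q γ) x = x) (g : X → PTC.GQ)
    (hg : ∀ y, ξ (g y) x₀ = y) (β : H2 allL (mapAct ξ (galAct ℚ Qb))) :
    (lc q).h2 (cor ξ β) =
      ∑ y, (kap ξ x₀ q hs (g y)).h2 ((shPair allL ξ (galAct ℚ Qb) x₀).h2 β) := by
  have h1 : (lc q).h2 (cor ξ β) = ∑ y, (evq ξ q hs y).h2 β := by
    refine (PairHom.h2_comp (lc q) ((sumHom ξ (galAct ℚ Qb)).pair allL) β).symm.trans ?_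
    refine h2_sum ((lc q).comp ((sumHom ξ (galAct ℚ Qb)).pair allL))
      (fun y => evq ξ q hs y) (fun _ _ => rfl) (fun a => ?_) β
    show embU (iq q) (∑ y, a y) = ∑ y, embU (iq q) (a y)
    rw [map_sum]
  rw [h1]
  refine Finset.sum_congr rfl (fun y _ => ?_)
  rw [← evq_h2, hg]

omit [Fintype X] in
/-- restriction at a place -/
noncomputable def kap' (ξ : PTC.GQ →* Equiv.Perm X) (x₀ : X) (q : Nat.Primes) :
    PairHom (allL.sub (stab ξ x₀)) (resAct (galAct ℚ Qb) (stab ξ x₀))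
      ((Lvq q).sub (stab (ξ.comp (rq q)) x₀)) (resAct (sq q) (stab (ξ.comp (rq q)) x₀)) where
  r := ((rq q).comp (stab (ξ.comp (rq q)) x₀).subtype).codRestrict (stab ξ x₀) (fun γ => γ.2)
  f := embU (iq q)
  lev := by
    rintro _ ⟨N, hN, rfl⟩
    obtain ⟨N', hN', h⟩ := sysAll.lev q N hN
    exact ⟨_, ⟨N', hN', rfl⟩, fun γ hγ => h γ hγ⟩
  comm γ a := (lc q).comm (γ : Gq q) a

/-- localisation of the corestriction at a place where `Γ_q` is transitive -/
theorem cor_nonsplit (hξ : LevelTrivial allL ξ) (q : Nat.Primes)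
    (ht : PT.IsTrans (ξ.comp (rq q)) x₀) (β : H2 allL (mapAct ξ (galAct ℚ Qb)))
    (h : (kap' ξ x₀ q).h2 ((shPair allL ξ (galAct ℚ Qb) x₀).h2 β) = 0) :
    (lc q).h2 (cor ξ β) = 0 := by
  have hξq : LevelTrivial (Lvq q) (ξ.comp (rq q)) := by
    obtain ⟨N, hN, hx⟩ := hξ
    exact ⟨_, ⟨N, hN, rfl⟩, fun s hs x => hx _ hs x⟩
  have h1 : (ABHN.mapPair ξ (lc q)).h2 β = 0 := by
    apply (sh_h2_bijective hξq (lq q) ht).1
    have h2 : (shPair (Lvq q) (ξ.comp (rq q)) (sq q) x₀).h2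
        ((ABHN.mapPair ξ (lc q)).h2 β) = 0 := by
      rw [← h]
      refine (PairHom.h2_comp (shPair (Lvq q) (ξ.comp (rq q)) (sq q) x₀)
        (ABHN.mapPair ξ (lc q)) β).symm.trans ?_
      refine Eq.trans ?_ (PairHom.h2_comp (kap' ξ x₀ q)
        (shPair allL ξ (galAct ℚ Qb) x₀) β)
      exact PairHom.h2_congr (fun _ => rfl) (fun _ => rfl) β
    exact h2.trans (map_zero _).symm
  have h3 : (lc q).h2 (cor ξ β) = (sumHom (ξ.comp (rq q)) (sq q)).h2 (Lvq q)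
      ((ABHN.mapPair ξ (lc q)).h2 β) := by
    refine (PairHom.h2_comp (lc q) ((sumHom ξ (galAct ℚ Qb)).pair allL) β).symm.trans ?_
    refine Eq.trans ?_ (PairHom.h2_comp ((sumHom (ξ.comp (rq q)) (sq q)).pair (Lvq q))
      (ABHN.mapPair ξ (lc q)) β)
    refine PairHom.h2_congr
      (φ := (lc q).comp ((sumHom ξ (galAct ℚ Qb)).pair allL))
      (ψ := ((sumHom (ξ.comp (rq q)) (sq q)).pair (Lvq q)).comp
        (ABHN.mapPair ξ (lc q))) (fun _ => rfl) (fun a => ?_) β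
    show embU (iq q) (∑ y, a y) = ∑ y, embU (iq q) (a y)
    rw [map_sum]
  rw [h3, h1]
  exact map_zero _

end Fermat.Agent.CFR
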