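import Fermat.Agent.CFR.Bil
import Fermat.Agent.CFR.Br
import Fermat.Agent.CFT6.CycArith

/-!
# Cyclotomic characters of prime order and their local cup products
-/

set_option autoImplicit false

open NumberField Module

namespace Fermat.Agent.CFR

open Fermat.Agent.PT Fermat.Agent.CFT Fermat.Agent.CFT6 Fermat.Agent.PTLocal Fermat.Agent.PTC
  Fermat.Agent.ABHN

attribute [local instance] isGalois_qbar

variable {p : ℕ} [hp : Fact p.Prime] {ℓ : ℕ} [hℓ : Fact ℓ.Prime] {k : ℕ}

/-- the local action -/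
noncomputable abbrev sq (q : Nat.Primes) : Act (Gq q) (Additive (Cq q)ˣ) := galAct ℚ_[(q : ℕ)] (Cq q)

/-- the local levels -/
noncomputable abbrev Lvq (q : Nat.Primes) : Levels (Gq q) :=
  allL.comap (ExtCitation.primeLocalToGlobal q)

/-- smoothness -/
lemma lq (q : Nat.Primes) : Smooth (Lvq q) (sq q) := (lgq q).smooth

/-- the value of an invariant -/
noncomputable def vl {q : Nat.Primes} (b : H0 (sq q)) : Cq q :=
  ((Additive.toMul (b : Additive (Cq q)ˣ) : (Cq q)ˣ) : Cq q)

lemma exists_lam (hpk : p * k = ℓ - 1) :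
    ∃ lam : (ZMod ℓ)ˣ →* Multiplicative (ZMod p), ∀ u, lam u = 1 ↔ u ^ k = 1 := by
  have hk0 : k ≠ 0 := by
    rintro rfl
    have := hℓ.out.two_le
    omega
  let H : Subgroup (ZMod ℓ)ˣ := (powMonoidHom k : (ZMod ℓ)ˣ →* (ZMod ℓ)ˣ).ker
  have hcardH : Nat.card H = k := by
    rw [IsCyclic.card_powMonoidHom_ker, Nat.card_eq_fintype_card, ZMod.card_units, ← hpk]
    exact Nat.gcd_mul_left_left _ _
  have hidx : H.index = p := by
    have h1 := H.card_mul_index
    rw [hcardH, Nat.card_eq_fintype_card, ZMod.card_units, ← hpk, mul_comm p k] at h1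
    exact Nat.eq_of_mul_eq_mul_left (Nat.pos_of_ne_zero hk0) h1
  let e : (ZMod ℓ)ˣ ⧸ H ≃* Multiplicative (ZMod p) :=
    mulEquivOfPrimeCardEq (p := p) hidx
      (by rw [Nat.card_congr Multiplicative.toAdd, Nat.card_zmod])
  refine ⟨e.toMonoidHom.comp (QuotientGroup.mk' H), fun u => ?_⟩
  show e ((QuotientGroup.mk' H) u) = 1 ↔ _
  rw [← map_one e, e.injective.eq_iff]
  exact QuotientGroup.eq_one_iff u

lemma ker_chi_level (ℓ : ℕ) [hℓ : Fact ℓ.Prime] : (chi ℓ).ker ∈ allL.carrier := by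
  obtain ⟨ζ, hζ⟩ := HasEnoughRootsOfUnity.exists_primitiveRoot (AlgebraicClosure ℚ) ℓ
  have : NeZero ℓ := ⟨hℓ.out.ne_zero⟩
  refine ⟨inferInstance, IntermediateField.adjoin ℚ {ζ}, ?_, ?_⟩
  · exact IntermediateField.adjoin.finiteDimensional (Algebra.IsIntegral.isIntegral ζ)
  · ext g
    rw [MonoidHom.mem_ker, chi_eq_one_iff, IntermediateField.mem_fixingSubgroup_iff]
    constructor
    · intro h x hx
      have h1 : IntermediateField.adjoin ℚ {ζ} ≤
          IntermediateField.fixedField (Subgroup.zpowers g) := by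
        rw [IntermediateField.adjoin_simple_le_iff, IntermediateField.mem_fixedField_iff]
        intro f hf
        have h2 : Subgroup.zpowers g ≤ MulAction.stabilizer (Qb ≃ₐ[ℚ] Qb) ζ := by
          rw [Subgroup.zpowers_le]; exact h ζ hζ.pow_eq_one
        exact h2 hf
      exact (IntermediateField.mem_fixedField_iff _ _).1 (h1 hx) g (Subgroup.mem_zpowers g)
    · intro h t ht
      obtain ⟨i, -, rfl⟩ := hζ.eq_pow_of_pow_eq_one ht
      rw [map_pow, h ζ (IntermediateField.mem_adjoin_simple_self _ _)]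

/-- the cyclotomic character of order `p` attached to `lam` -/
noncomputable def cyCh (lam : (ZMod ℓ)ˣ →* Multiplicative (ZMod p)) : Chi p allL :=
  ⟨fun g => Multiplicative.toAdd (lam (chi ℓ g)), by
    rw [mem_Z1']
    refine ⟨⟨(chi ℓ).ker, ker_chi_level ℓ, fun g s hs => ?_⟩, fun g h => ?_⟩
    · show Multiplicative.toAdd (lam (chi ℓ (g * s))) = Multiplicative.toAdd (lam (chi ℓ g))
      rw [map_mul, MonoidHom.mem_ker.1 hs, mul_one]
    · show Multiplicative.toAdd (lam (chi ℓ (g * h))) = _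
      rw [map_mul, map_mul, toAdd_mul, trivAct_apply]⟩

lemma cyCh_apply (lam : (ZMod ℓ)ˣ →* Multiplicative (ZMod p)) (g : Qb ≃ₐ[ℚ] Qb) :
    (cyCh lam : (Qb ≃ₐ[ℚ] Qb) → ZMod p) g = Multiplicative.toAdd (lam (chi ℓ g)) := rfl

/-- the field cut out by the character -/
theorem exists_field {lam : (ZMod ℓ)ˣ →* Multiplicative (ZMod p)} (hlam : ∃ u, lam u ≠ 1) :
    ∃ (L : IntermediateField ℚ Qb) (_ : NumberField L), IsGalois ℚ L ∧ finrank ℚ L = p ∧
      (∀ g, (cyCh lam : (Qb ≃ₐ[ℚ] Qb) → ZMod p) g = 0 ↔ g ∈ L.fixingSubgroup) ∧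
      ∃ (M : IntermediateField ℚ Qb) (_ : NumberField M), IsCyclotomicExtension {ℓ} ℚ M ∧
        L ≤ M := by
  have : NeZero ℓ := ⟨hℓ.out.ne_zero⟩
  let φ : (Qb ≃ₐ[ℚ] Qb) →* Multiplicative (ZMod p) := lam.comp (chi ℓ)
  obtain ⟨ζ, hζ⟩ := HasEnoughRootsOfUnity.exists_primitiveRoot (AlgebraicClosure ℚ) ℓ
  let M : IntermediateField ℚ Qb := IntermediateField.adjoin ℚ {ζ}
  have hMfd : FiniteDimensional ℚ M :=
    IntermediateField.adjoin.finiteDimensional (Algebra.IsIntegral.isIntegral ζ)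
  have hM : NumberField M := ⟨⟩
  have hMcyc : IsCyclotomicExtension {ℓ} ℚ M :=
    hζ.intermediateField_adjoin_isCyclotomicExtension ℚ
  let H : Subgroup (Qb ≃ₐ[ℚ] Qb) := φ.ker
  have hMH : M.fixingSubgroup ≤ H := by
    intro g hg
    rw [IntermediateField.mem_fixingSubgroup_iff] at hg
    have h1 : chi ℓ g = 1 := by
      rw [chi_eq_one_iff]
      intro t ht
      obtain ⟨i, -, rfl⟩ := hζ.eq_pow_of_pow_eq_one ht
      rw [map_pow, hg ζ (IntermediateField.mem_adjoin_simple_self _ _)]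
    show lam (chi ℓ g) = 1
    rw [h1, map_one]
  let L := IntermediateField.fixedField H
  have hcl : IsClosed (H : Set (Qb ≃ₐ[ℚ] Qb)) := by
    have ho : IsOpen (H : Set (Qb ≃ₐ[ℚ] Qb)) :=
      Subgroup.isOpen_mono hMH (IntermediateField.fixingSubgroup_isOpen M)
    exact (⟨H, ho⟩ : OpenSubgroup (Qb ≃ₐ[ℚ] Qb)).isClosed
  have hLH : L.fixingSubgroup = H :=
    InfiniteGalois.fixingSubgroup_fixedField (k := ℚ) (K := Qb) ⟨H, hcl⟩
  have hLM : L ≤ M := by
    rw [← InfiniteGalois.fixedField_fixingSubgroup M]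
    exact IntermediateField.fixedField_antitone hMH
  have hgal : IsGalois ℚ L := (InfiniteGalois.normal_iff_isGalois L).1 (by
    rw [hLH]; infer_instance)
  have hfd : FiniteDimensional ℚ L := by
    exact FiniteDimensional.of_injective (IntermediateField.inclusion hLM).toLinearMap
      (IntermediateField.inclusion hLM).injective
  have hnf : NumberField L := ⟨⟩
  have hsurj : Function.Surjective φ := by
    have h1 : Function.Surjective lam := by
      obtain ⟨u, hu⟩ := hlam
      have hc : Nat.card (Multiplicative (ZMod p)) = p := by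
        rw [Nat.card_congr Multiplicative.toAdd, Nat.card_zmod]
      intro y
      have h2 := mem_powers_of_prime_card (g := lam u) (g' := y) hc hu
      obtain ⟨n, hn⟩ := h2
      exact ⟨u ^ n, by rw [map_pow]; exact hn⟩
    exact h1.comp chi_surjective
  refine ⟨L, hnf, hgal, ?_, ?_, M, hM, hMcyc, hLM⟩
  · rw [IntermediateField.finrank_eq_fixingSubgroup_index, hLH, Subgroup.index_ker,
      MonoidHom.range_eq_top.2 hsurj, Subgroup.card_top, Nat.card_congr Multiplicative.toAdd,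
      Nat.card_zmod]
  · intro g
    rw [hLH]
    show Multiplicative.toAdd (lam (chi ℓ g)) = 0 ↔ lam (chi ℓ g) = 1
    rw [toAdd_eq_zero]

end Fermat.Agent.CFR
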