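import Fermat.Agent.CFR.CycChar

/-!
# Local cup products with cyclotomic characters
-/

set_option autoImplicit false

open NumberField Module

namespace Fermat.Agent.CFR

open Fermat.Agent.PT Fermat.Agent.CFT Fermat.Agent.CFT6 Fermat.Agent.PTLocal Fermat.Agent.PTC
  Fermat.Agent.ABHN

attribute [local instance] isGalois_qbar

variable {p : ℕ} [hp : Fact p.Prime] {ℓ : ℕ} [hℓ : Fact ℓ.Prime]

/-- restriction of a character to the local group -/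
noncomputable abbrev chq (χ : Chi p allL) (q : Nat.Primes) : Chi p (Lvq q) :=
  PTGlob.chiPull (sysAll.loc q) χ

lemma chq_apply (χ : Chi p allL) (q : Nat.Primes) (γ : Gq q) :
    (chq χ q).1 γ = χ.1 (ExtCitation.primeLocalToGlobal q γ) := rfl

/-- elements of `H⁰` are in `ℚ_q` -/
lemma exists_padic {q : Nat.Primes} (b : H0 (sq q)) :
    ∃ y : ℚ_[(q : ℕ)], y ≠ 0 ∧ algebraMap ℚ_[(q : ℕ)] (Cq q) y = vl b := by
  have h1 : vl b ∈ (⊥ : IntermediateField ℚ_[(q : ℕ)] (Cq q)) := by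
    rw [← InfiniteGalois.fixedField_fixingSubgroup (⊥ : IntermediateField ℚ_[(q : ℕ)] (Cq q)),
      IntermediateField.mem_fixedField_iff]
    intro f _
    have h2 := mem_H0.1 b.2 f
    exact congrArg (fun a => ((Additive.toMul a : (Cq q)ˣ) : Cq q)) h2
  obtain ⟨y, hy⟩ := IntermediateField.mem_bot.1 h1
  refine ⟨y, ?_, hy⟩
  rintro rfl
  rw [map_zero] at hy
  exact (Additive.toMul (b : Additive (Cq q)ˣ) : (Cq q)ˣ).ne_zero hy.symm

lemma norm_algebraMap_padic {q : Nat.Primes} (y : ℚ_[(q : ℕ)]) :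
    ‖algebraMap ℚ_[(q : ℕ)] (Cq q) y‖ = ‖y‖ := by
  exact norm_algebraMap' (Cq q) y

/-- non-trivial local character implies transitivity -/
lemma trans_of_chi_ne_zero {L : IntermediateField ℚ Qb} [NumberField L] {χ : Chi p allL}
    (hχ : ∀ g, (χ : (Qb ≃ₐ[ℚ] Qb) → ZMod p) g = 0 ↔ g ∈ L.fixingSubgroup)
    (q : Nat.Primes) (hL : finrank ℚ L = p) (hχ0 : χ ≠ 0) (h : chq χ q ≠ 0) : TransAt L q := by
  obtain ⟨e, he⟩ := exists_bij hχ q hL hχ0
  have he' : ∀ (γ : Gq q) (x : ZMod p), e (x + (chq χ q).1 γ) = γ • e x := by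
    intro γ x
    obtain ⟨g, rfl⟩ := chi_surjective hχ0 x
    rw [he, smul_embOf, ← he, chq_apply]
    erw [chi_mul]
    rw [add_comm]
    rfl
  intro ψ ψ'
  obtain ⟨x, rfl⟩ := e.surjective ψ
  obtain ⟨y, rfl⟩ := e.surjective ψ'
  obtain ⟨γ, hγ⟩ := chi_surjective h (y - x)
  refine ⟨γ, ?_⟩
  rw [← he']
  congr 1
  have h1 : (chq χ q).1 γ = y - x := hγ
  rw [h1]
  ring

variable {lam : (ZMod ℓ)ˣ →* Multiplicative (ZMod p)}

lemma cyCh_ne_zero (hlam : ∃ u, lam u ≠ 1) : cyCh lam ≠ 0 := by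
  obtain ⟨u, hu⟩ := hlam
  obtain ⟨g, hg⟩ := CFT6.chi_surjective u
  intro h
  apply hu
  have h1 : (cyCh lam : (Qb ≃ₐ[ℚ] Qb) → ZMod p) g = 0 := by rw [h]; rfl
  rw [cyCh_apply, hg] at h1
  exact toAdd_eq_zero.1 h1

/-- (N1) -/
theorem cyCh_cup_eq_zero (hlam : ∃ u, lam u ≠ 1) (q : Nat.Primes) (hq : (q : ℕ) ≠ ℓ)
    (b : H0 (sq q)) {m : ℤ} (hb : ‖vl b‖ = ((q : ℕ) : ℝ) ^ (m * p)) :
    cycδ (lq q) (chq (cyCh lam) q) b = 0 := by
  by_cases h0 : chq (cyCh lam) q = 0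
  · rw [h0, cycδ_zero_left]
  obtain ⟨L, hnf, hgal, hdeg, hχ, M, hM, hMc, hLM⟩ := exists_field (p := p) hlam
  have hχ0 := cyCh_ne_zero hlam
  have htr := trans_of_chi_ne_zero hχ q hdeg hχ0 h0
  letI : Algebra L M := (IntermediateField.inclusion hLM).toRingHom.toAlgebra
  obtain ⟨y, hy0, hy⟩ := exists_padic b
  have h1 : NormAt L q (vl b) := by
    rw [← hy]
    refine normAt_of_valuation hdeg htr
      (fun ψ z hz => unr_of_cyclo (ℓ := ℓ) M hq ψ z hz) hy0 (m := m) ?_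
    rw [← norm_algebraMap_padic, hy, hb]
  have h2 := (normAt_iff hχ q (χq := chq (cyCh lam) q) (fun _ => rfl) hdeg hχ0 b).1 h1
  exact (cycδ_eq_zero (lq q) (chq (cyCh lam) q) (h90_chi (lgq q) h0) _).2 h2

/-- (N2) -/
theorem exists_zpow_of_cyCh_cup (hlam : ∃ u, lam u ≠ 1) (q : Nat.Primes) (hq : (q : ℕ) ≠ ℓ)
    (h0 : chq (cyCh lam) q ≠ 0) (b : H0 (sq q))
    (hb : cycδ (lq q) (chq (cyCh lam) q) b = 0) :
    ∃ m : ℤ, ‖vl b‖ = ((q : ℕ) : ℝ) ^ (m * p) := by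
  obtain ⟨L, hnf, hgal, hdeg, hχ, M, hM, hMc, hLM⟩ := exists_field (p := p) hlam
  have hχ0 := cyCh_ne_zero hlam
  have htr := trans_of_chi_ne_zero hχ q hdeg hχ0 h0
  letI : Algebra L M := (IntermediateField.inclusion hLM).toRingHom.toAlgebra
  have h1 := (cycδ_eq_zero (lq q) (chq (cyCh lam) q) (h90_chi (lgq q) h0) _).1 hb
  have h2 := (normAt_iff hχ q (χq := chq (cyCh lam) q) (fun _ => rfl) hdeg hχ0 b).2 h1
  obtain ⟨m, hm⟩ := exists_zpow_of_normAt htr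
    (fun ψ z hz => unr_of_cyclo (ℓ := ℓ) M hq ψ z hz) h2
  exact ⟨m, by rw [hdeg] at hm; exact hm⟩

omit hℓ in
/-- one-units are `p`-th powers if `q ≠ p` -/
lemma exists_pow_eq_of_norm_sub_one {q : ℕ} [hq : Fact q.Prime] (hqp : q ≠ p) {y : ℤ_[q]}
    (hy : ‖y - 1‖ < 1) : ∃ z : ℤ_[q], z ^ p = y := by
  have h1 : ‖(p : ℤ_[q])‖ = 1 := by
    rw [PadicInt.norm_natCast_eq_one_iff]
    exact (Nat.coprime_primes hq.out hp.out).2 hqp
  obtain ⟨z, hz, -⟩ := hensels_lemma (p := q)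
    (F := (Polynomial.X ^ p - Polynomial.C y : Polynomial ℤ_[q])) (a := 1) (by
      simp only [Polynomial.derivative_sub, Polynomial.derivative_X_pow, Polynomial.derivative_C,
        sub_zero, map_sub, map_mul, map_pow, Polynomial.aeval_X, Polynomial.aeval_C,
        Algebra.algebraMap_self, RingHom.id_apply, one_pow, mul_one, map_natCast]
      rw [h1, one_pow, norm_sub_rev]
      exact hy)
  refine ⟨z, ?_⟩
  simpa [sub_eq_zero] using hz

omit hℓ in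
/-- (N3) -/
theorem cup_eq_zero_of_one_unit (q : Nat.Primes) (hqp : (q : ℕ) ≠ p) (χ : Chi p (Lvq q))
    (b : H0 (sq q)) (n : ℕ) (hn : ((n : ℕ) : ZMod (q : ℕ)) = 1) (hb : vl b = (n : Cq q)) :
    cycδ (lq q) χ b = 0 := by
  have h1 : ‖((n : ℤ_[(q : ℕ)])) - 1‖ < 1 := by
    have h2 : ((n : ℤ_[(q : ℕ)])) - 1 = (((n : ℤ) - 1 : ℤ) : ℤ_[(q : ℕ)]) := by push_cast; ring
    rw [h2, PadicInt.norm_int_lt_one_iff_dvd, ← ZMod.intCast_zmod_eq_zero_iff_dvd]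
    push_cast
    rw [hn, sub_self]
  obtain ⟨z, hz⟩ := exists_pow_eq_of_norm_sub_one (p := p) hqp h1
  have hz0 : z ≠ 0 := by
    rintro rfl
    rw [zero_pow hp.out.ne_zero] at hz
    have h3 : (n : Cq q) = 0 := by
      have := congrArg (fun t : ℤ_[(q : ℕ)] => algebraMap ℚ_[(q : ℕ)] (Cq q) (t : ℚ_[(q : ℕ)])) hz
      simpa using this.symm
    rw [← hb] at h3
    exact (Additive.toMul (b : Additive (Cq q)ˣ) : (Cq q)ˣ).ne_zero h3
  have hzq : algebraMap ℚ_[(q : ℕ)] (Cq q) (z : ℚ_[(q : ℕ)]) ≠ 0 := by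
    rw [Ne, map_eq_zero]
    intro h
    exact hz0 (Subtype.ext h)
  let c : H0 (sq q) := ⟨Additive.ofMul (Units.mk0 _ hzq), by
    rw [mem_H0]
    intro g
    apply Additive.toMul.injective
    apply Units.ext
    show g (algebraMap ℚ_[(q : ℕ)] (Cq q) (z : ℚ_[(q : ℕ)])) = _
    rw [AlgEquiv.commutes]
    rfl⟩
  have h2 : b = p • c := by
    apply Subtype.ext
    apply Additive.toMul.injective
    apply Units.ext
    show vl b = (algebraMap ℚ_[(q : ℕ)] (Cq q) (z : ℚ_[(q : ℕ)])) ^ p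
    rw [hb, ← map_pow, ← PadicInt.coe_pow, hz]
    simp
  rw [h2, map_nsmul, p_nsmul_cycδ]

end Fermat.Agent.CFR
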