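import Fermat.Agent.PTC.Inertia
import Fermat.Prelude.Def_EllipticCurve_FrobeniusTrace

/-!
# Frobenius elements: characterisation, conjugation, uniqueness modulo inertia
-/

set_option autoImplicit false

open scoped Pointwise

namespace Fermat.Agent.CFR

open Fermat.Agent.PTC

variable {K L : Type*} [Field K] [Field L] [Algebra K L]

lemma isFrobeniusAt_iff (A : ValuationSubring L) (σ : L ≃ₐ[K] L) (q : ℕ) :
    A.IsFrobeniusAt σ q ↔ σ • A = A ∧ ∀ x ∈ A, σ x - x ^ q ∈ A.nonunits := by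
  have key : ∀ (hσ : σ ∈ A.decompositionSubgroup K) (a : A),
      (⟨σ, hσ⟩ : A.decompositionSubgroup K) • IsLocalRing.residue A a =
        (IsLocalRing.residue A a) ^ q ↔ σ (a : L) - (a : L) ^ q ∈ A.nonunits := by
    intro hσ a
    rw [← IsLocalRing.ResidueField.residue_smul, ← map_pow, ← sub_eq_zero, ← map_sub,
      IsLocalRing.residue_eq_zero_iff, ValuationSubring.mem_nonunits_iff]
    exact A.valuation_lt_one_iff _
  constructor
  · rintro ⟨hσ, h⟩
    exact ⟨hσ, fun x hx => (key hσ ⟨x, hx⟩).1 (h _)⟩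
  · rintro ⟨hσ, h⟩
    refine ⟨hσ, fun x => ?_⟩
    obtain ⟨a, rfl⟩ := IsLocalRing.residue_surjective x
    exact (key hσ a).2 (h a a.2)

lemma frob_conj {A : ValuationSubring L} {σ : L ≃ₐ[K] L} {q : ℕ} (h : A.IsFrobeniusAt σ q)
    (g : L ≃ₐ[K] L) : (g • A).IsFrobeniusAt (g * σ * g⁻¹) q := by
  rw [isFrobeniusAt_iff] at h ⊢
  obtain ⟨h1, h2⟩ := h
  refine ⟨?_, fun x hx => ?_⟩
  · rw [mul_smul, inv_smul_smul, mul_smul, h1]
  · rw [ValuationSubring.mem_pointwise_smul_iff_inv_smul_mem, AlgEquiv.smul_def] at hx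
    rw [mem_smul_nonunits, map_sub, map_pow]
    have h3 : g⁻¹ ((g * σ * g⁻¹) x) = σ (g⁻¹ x) := by
      rw [mul_assoc, AlgEquiv.mul_apply]
      show (g⁻¹ * g) ((σ * g⁻¹) x) = _
      rw [inv_mul_cancel]; rfl
    rw [h3]
    exact h2 _ hx

lemma frob_inv_mul {A : ValuationSubring L} {σ σ' : L ≃ₐ[K] L} {q : ℕ}
    (h : A.IsFrobeniusAt σ q) (h' : A.IsFrobeniusAt σ' q) :
    σ⁻¹ * σ' ∈ A.inertiaSubgroupIn K := by
  rw [isFrobeniusAt_iff] at h h'
  rw [mem_inertia_iff]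
  have h1 : σ⁻¹ • A = A := by
    conv_lhs => rw [← h.1]
    rw [inv_smul_smul]
  refine ⟨by rw [mul_smul, h'.1, h1], fun x hx => ?_⟩
  have h2 : σ' x - σ x ∈ A.nonunits := by
    have e : σ' x - σ x = (σ' x - x ^ q) - (σ x - x ^ q) := by ring
    rw [e, sub_eq_add_neg]
    rw [ValuationSubring.mem_nonunits_iff]
    refine lt_of_le_of_lt (A.valuation.map_add _ _) (max_lt ?_ ?_)
    · exact (ValuationSubring.mem_nonunits_iff A).1 (h'.2 x hx)
    · rw [Valuation.map_neg]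
      exact (ValuationSubring.mem_nonunits_iff A).1 (h.2 x hx)
  have h3 : σ' x - σ x ∈ (σ • A).nonunits := by rw [h.1]; exact h2
  rw [mem_smul_nonunits, map_sub] at h3
  have h4 : σ⁻¹ (σ x) = x := σ.symm_apply_apply x
  rw [h4] at h3
  exact h3

end Fermat.Agent.CFR
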