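import Fermat.Agent.CFR.CycLoc
import Fermat.Agent.CFT6.UnrProc

/-!
# Local Galois groups at finite level: density, procyclicity, commutators
-/

set_option autoImplicit false

open NumberField IsDedekindDomain Module
open scoped Pointwise

namespace Fermat.Agent.CFR

open Fermat.Agent.PT Fermat.Agent.CFT Fermat.Agent.CFT6 Fermat.Agent.PTLocal Fermat.Agent.PTC
  Fermat.Agent.ABHN Fermat.Agent.Frob

attribute [local instance] isGalois_qbar

/-- the map of the local group to the global one -/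
noncomputable abbrev rq (q : Nat.Primes) : Gq q →* PTC.GQ := ExtCitation.primeLocalToGlobal q

lemma rq_spec (q : Nat.Primes) (γ : Gq q) (x : Qb) :
    padicEmbedding (q : ℕ) (rq q γ x) = γ (padicEmbedding (q : ℕ) x) :=
  padicEmbedding_localGaloisToGlobal (q : ℕ) γ x

section gen

variable {q : Nat.Primes} {Ω : Type*} [Field Ω] [CharZero Ω] [IsGalois ℚ Ω] (ι : Ω →+* Cq q)
  {A : ValuationSubring Ω} (hA : ∀ x, x ∈ A.nonunits ↔ ‖ι x‖ < 1) (hAq : A.LiesOverPrime (q : ℕ))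
  (r : Gq q →* (Ω ≃ₐ[ℚ] Ω)) (hr : ∀ τ x, ι (r τ x) = τ (ι x))

include hA hr in
theorem exists_loc_gen {σ : Ω ≃ₐ[ℚ] Ω} (hσA : σ • A = A) (F : IntermediateField ℚ Ω)
    [FiniteDimensional ℚ F] : ∃ g : Gq q, ∀ x ∈ F, r g x = σ x := by
  have hnf : NumberField F := ⟨⟩
  let φ' : Emb F q := ι.comp ((σ : Ω →+* Ω).comp (algebraMap F Ω))
  have h1 : CFT6.place (embF ι F) = CFT6.place φ' := by
    apply HeightOneSpectrum.ext
    ext x
    let x' : integralClosure ℤ Ω := ⟨((x : F) : Ω), isIntegral_coe x⟩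
    have e1 : x ∈ (CFT6.place (embF ι F)).asIdeal ↔ x' ∈ center A :=
      (mem_center_iota ι hA x').symm
    have e2 : x ∈ (CFT6.place φ').asIdeal ↔ σ • x' ∈ center A :=
      (mem_center_iota ι hA (σ • x')).symm
    rw [e1, e2]
    have h2 : center A = σ • center A := by
      rw [← center_smul, hσA]
    conv_rhs => rw [h2]
    exact (Ideal.smul_mem_pointwise_smul_iff).symm
  obtain ⟨τ, hτ⟩ := place_eq_iff.1 h1
  refine ⟨τ, fun x hx => ?_⟩
  apply ι.injective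
  rw [hr]
  exact hτ ⟨x, hx⟩

include hA hAq hr in
theorem comm_gen (F : IntermediateField ℚ Ω) [FiniteDimensional ℚ F] [Normal ℚ F] (γ δ : Gq q) :
    ∃ τ ∈ A.inertiaSubgroupIn ℚ, ∀ x ∈ F, τ x = r (γ * δ * γ⁻¹ * δ⁻¹) x := by
  have hnf : NumberField F := ⟨⟩
  have hint : ∀ x : integralClosure ℤ Ω, ‖ι (x : Ω)‖ ≤ 1 := fun x =>
    Fermat.Agent.CFT.norm_le_one_of_isIntegral (x.2.map ι.toIntAlgHom)
  have key : ∀ γ : Gq q, ∃ j : ℕ, ∀ x : integralClosure ℤ Ω, (x : Ω) ∈ F →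
      ‖ι (r γ (x : Ω)) - ι (x : Ω) ^ ((q : ℕ) ^ j)‖ < 1 := by
    intro γ
    let σγ : F ≃ₐ[ℚ] F := (r γ).restrictNormal F
    have hσγ : ∀ x : F, ((σγ x : F) : Ω) = r γ (x : Ω) :=
      fun x => AlgEquiv.restrictNormal_commutes (r γ) F x
    obtain ⟨j, hj⟩ := exists_frob_pow (embF ι F) σγ (by
      intro x
      rw [embF_apply, embF_apply, hσγ, hr, norm_gq])
    refine ⟨j, fun x hx => ?_⟩
    have hxi : IsIntegral ℤ (⟨(x : Ω), hx⟩ : F) := by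
      have h := x.2
      exact (isIntegral_algHom_iff (algebraMap F Ω).toIntAlgHom (algebraMap F Ω).injective).1 h
    have h1 := hj ⟨⟨(x : Ω), hx⟩, hxi⟩
    rw [embF_apply, embF_apply, hσγ] at h1
    exact h1
  have hFm : ∀ (γ : Gq q) (x : integralClosure ℤ Ω), (x : Ω) ∈ F →
      ((r γ • x : integralClosure ℤ Ω) : Ω) ∈ F := by
    intro γ x hx
    show r γ (x : Ω) ∈ F
    have := AlgEquiv.restrictNormal_commutes (r γ) F ⟨(x : Ω), hx⟩
    have h2 : r γ (x : Ω) = (((r γ).restrictNormal F ⟨(x : Ω), hx⟩ : F) : Ω) := this.symm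
    rw [h2]
    exact Subtype.mem _
  obtain ⟨j, hj⟩ := key γ
  obtain ⟨j', hj'⟩ := key δ
  have hcomp : ∀ (γ δ : Gq q) (j j' : ℕ), (∀ x : integralClosure ℤ Ω, (x : Ω) ∈ F →
      ‖ι (r γ (x : Ω)) - ι (x : Ω) ^ ((q : ℕ) ^ j)‖ < 1) →
      (∀ x : integralClosure ℤ Ω, (x : Ω) ∈ F →
      ‖ι (r δ (x : Ω)) - ι (x : Ω) ^ ((q : ℕ) ^ j')‖ < 1) →
      ∀ x : integralClosure ℤ Ω, (x : Ω) ∈ F →
      ‖ι (r (γ * δ) (x : Ω)) - ι (x : Ω) ^ ((q : ℕ) ^ (j' + j))‖ < 1 := by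
    intro γ δ j j' hj hj' x hx
    have h1 := hj (r δ • x) (hFm δ x hx)
    have h2 := hj' x hx
    have h3 := norm_pow_sub_pow_lt' (a := ι ((r δ • x : integralClosure ℤ Ω) : Ω))
      (b := ι (x : Ω) ^ ((q : ℕ) ^ j')) (hint _)
      (by rw [norm_pow]; exact pow_le_one₀ (norm_nonneg _) (hint x)) h2 ((q : ℕ) ^ j)
    have h4 := norm_sub_lt_trans h1 h3
    rw [← pow_mul, ← pow_add] at h4
    rw [map_mul, AlgEquiv.mul_apply]
    exact h4
  have e1 := hcomp γ δ j j' hj hj'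
  have e2 := hcomp δ γ j' j hj' hj
  exact Fermat.Agent.ExtVan.exists_lift_inertia F q.2 hAq
    (r (γ * δ * γ⁻¹ * δ⁻¹)) (by
    intro x hx
    rw [mem_center_iota ι hA]
    -- `x = δ γ y`
    set y : integralClosure ℤ Ω := r (γ⁻¹ * δ⁻¹) • x with hy
    have hyF := hFm (γ⁻¹ * δ⁻¹) x hx
    have h1 := e1 y hyF
    have h2 := e2 y hyF
    rw [add_comm j j'] at h2
    have h3 : ‖ι (r (γ * δ) (y : Ω)) - ι (r (δ * γ) (y : Ω))‖ < 1 := by
      refine norm_sub_lt_trans h1 ?_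
      rw [norm_sub_rev]
      exact h2
    have h4 : r (δ * γ) (y : Ω) = (x : Ω) := by
      show r (δ * γ) (r (γ⁻¹ * δ⁻¹) (x : Ω)) = (x : Ω)
      rw [← AlgEquiv.mul_apply, ← map_mul]
      have : δ * γ * (γ⁻¹ * δ⁻¹) = 1 := by group
      rw [this, map_one]; rfl
    have h5 : r (γ * δ) (y : Ω) = r (γ * δ * γ⁻¹ * δ⁻¹) (x : Ω) := by
      show r (γ * δ) (r (γ⁻¹ * δ⁻¹) (x : Ω)) = _
      rw [← AlgEquiv.mul_apply, ← map_mul, mul_assoc (γ * δ)]
    rw [h4, h5, ← map_sub] at h3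
    exact h3)

end gen

/-- `q`-adic density of the local group in the decomposition group -/
theorem exists_loc_of_decomp (q : Nat.Primes) {σ : PTC.GQ}
    (hσA : σ • padicPlace (q : ℕ) = padicPlace (q : ℕ)) (F : IntermediateField ℚ Qb)
    [FiniteDimensional ℚ F] : ∃ g : Gq q, ∀ x ∈ F, rq q g x = σ x :=
  exists_loc_gen (padicEmbedding (q : ℕ)).toRingHom mem_nonunits_padic (rq q) (rq_spec q) hσA F

lemma level_iff {N : Subgroup PTC.GQ} (hN : N ∈ allL.carrier) :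
    ∃ F : IntermediateField ℚ Qb, FiniteDimensional ℚ F ∧ Normal ℚ F ∧
      ∀ σ τ : PTC.GQ, (∀ x ∈ F, τ x = σ x) ↔ σ⁻¹ * τ ∈ N := by
  obtain ⟨hn, F, hF, rfl⟩ := hN
  refine ⟨F, hF, PTC.normal_of_fixing_normal F hn, fun σ τ => ?_⟩
  rw [IntermediateField.mem_fixingSubgroup_iff]
  constructor
  · intro h x hx
    show σ.symm (τ x) = x
    rw [h x hx, AlgEquiv.symm_apply_apply]
  · intro h x hx
    have h1 : σ.symm (τ x) = x := h x hx
    rw [AlgEquiv.symm_apply_eq] at h1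
    exact h1

theorem exists_loc_level (q : Nat.Primes) {N : Subgroup PTC.GQ} (hN : N ∈ allL.carrier)
    {σ : PTC.GQ} (hσ : σ • padicPlace (q : ℕ) = padicPlace (q : ℕ)) :
    ∃ g : Gq q, σ⁻¹ * rq q g ∈ N := by
  obtain ⟨F, hF, -, h⟩ := level_iff hN
  obtain ⟨g, hg⟩ := exists_loc_of_decomp q hσ F
  exact ⟨g, (h _ _).1 hg⟩

theorem procyc_level (q : Nat.Primes) {N : Subgroup PTC.GQ} (hN : N ∈ allL.carrier)
    (hI : (padicPlace (q : ℕ)).inertiaSubgroupIn ℚ ≤ N) {σ : PTC.GQ}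
    (hσ : (padicPlace (q : ℕ)).IsFrobeniusAt σ q) {g : Gq q} (hg : σ⁻¹ * rq q g ∈ N)
    (γ : Gq q) : ∃ j : ℕ, rq q ((g ^ j)⁻¹ * γ) ∈ N := by
  obtain ⟨F, hF, hFn, h⟩ := level_iff hN
  have hNF : ∀ τ : PTC.GQ, τ ∈ F.fixingSubgroup ↔ τ ∈ N := by
    intro τ
    have h1 := h 1 τ
    rw [inv_one, one_mul] at h1
    rw [← h1, IntermediateField.mem_fixingSubgroup_iff]
    rfl
  obtain ⟨j, hj⟩ := procyc (q := q) (padicEmbedding (q : ℕ)).toRingHom mem_nonunits_padic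
    (liesOver_padic (q : ℕ)) (localGaloisToGlobal (q : ℕ))
    (padicEmbedding_localGaloisToGlobal (q : ℕ)) F
    (fun τ hτ => (hNF τ).2 (hI hτ)) hσ ((h _ _).2 hg) γ
  exact ⟨j, (hNF _).1 hj⟩

/-- the local Galois group modulo inertia is commutative -/
theorem comm_level (q : Nat.Primes) {N : Subgroup PTC.GQ} (hN : N ∈ allL.carrier)
    (γ δ : Gq q) : ∃ τ ∈ (padicPlace (q : ℕ)).inertiaSubgroupIn ℚ,
      τ⁻¹ * rq q (γ * δ * γ⁻¹ * δ⁻¹) ∈ N := by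
  obtain ⟨F, hF, hFn, h⟩ := level_iff hN
  obtain ⟨τ, hτ, hτF⟩ := comm_gen (padicEmbedding (q : ℕ)).toRingHom mem_nonunits_padic
    (liesOver_padic (q : ℕ)) (rq q) (rq_spec q) F γ δ
  exact ⟨τ, hτ, (h _ _).1 (fun x hx => (hτF x hx).symm)⟩

end Fermat.Agent.CFR
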