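import Fermat.Agent.CFR.Psi0
import Fermat.Agent.CFR.ClHom
import Fermat.Agent.CFR.FrobConj

/-!
# (CF3): Artin reciprocity for unramified dihedral characters
-/

set_option autoImplicit false

open IsDedekindDomain Module
open scoped Pointwise NumberField nonZeroDivisors

namespace Fermat.Agent.CFR

open Fermat.Agent.PT Fermat.Agent.CFT Fermat.Agent.CFT6 Fermat.Agent.PTLocal Fermat.Agent.PTC
  Fermat.Agent.ABHN Fermat.Agent.Frob

attribute [local instance] isGalois_qbar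

variable {p : ℕ} [hp : Fact p.Prime] {K : IntermediateField ℚ Qb}

/-- smoothness of a character -/
def SmoothCh (θ : K.fixingSubgroup →* Multiplicative (ZMod p)) : Prop :=
  ∃ F : IntermediateField ℚ Qb, FiniteDimensional ℚ F ∧
    ∀ σ (h : σ ∈ K.fixingSubgroup), σ ∈ F.fixingSubgroup → θ ⟨σ, h⟩ = 1

lemma of_stab {σ : PTC.GQ} (h : σ ∈ stab (xiK K) (x0 K)) : σ ∈ K.fixingSubgroup := by
  rw [stabK] at h
  exact h

/-- transport of `θ` -/
noncomputable def thK (θ : K.fixingSubgroup →* Multiplicative (ZMod p)) (hsm : SmoothCh θ) :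
    Chi p (allL.sub (stab (xiK K) (x0 K))) :=
  ⟨fun σ => Multiplicative.toAdd (θ ⟨σ.1, of_stab σ.2⟩), by
    rw [mem_Z1']
    obtain ⟨F, hF, h⟩ := hsm
    obtain ⟨N, hN, hle⟩ := PTC.exists_allL_le F hF
    have hmul : ∀ σ τ : stab (xiK K) (x0 K),
        θ ⟨(σ * τ).1, of_stab (σ * τ).2⟩ =
          θ ⟨σ.1, of_stab σ.2⟩ * θ ⟨τ.1, of_stab τ.2⟩ := by
      intro σ τ
      rw [← map_mul]
      rfl
    refine ⟨⟨_, ⟨N, hN, rfl⟩, fun g s hs => ?_⟩, fun g h => ?_⟩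
    · show Multiplicative.toAdd (θ ⟨(g * s).1, _⟩) = Multiplicative.toAdd (θ ⟨g.1, _⟩)
      rw [hmul, h _ (of_stab s.2) (hle hs), mul_one]
    · show Multiplicative.toAdd (θ ⟨(g * h).1, _⟩) = _
      rw [hmul, toAdd_mul, trivAct_apply]⟩

lemma thK_apply (θ : K.fixingSubgroup →* Multiplicative (ZMod p)) (hsm : SmoothCh θ) (σ : PTC.GQ)
    (h : σ ∈ stab (xiK K) (x0 K)) (h' : σ ∈ K.fixingSubgroup) :
    (thK θ hsm).1 ⟨σ, h⟩ = Multiplicative.toAdd (θ ⟨σ, h'⟩) := rfl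

/-- unramified characters -/
def UnrCh (θ : K.fixingSubgroup →* Multiplicative (ZMod p)) : Prop :=
  ∀ q : ℕ, q.Prime → ∀ A : ValuationSubring Qb, A.LiesOverPrime q →
    ∀ σ ∈ A.inertiaSubgroupIn ℚ, ∀ h : σ ∈ K.fixingSubgroup, θ ⟨σ, h⟩ = 1

/-- dihedral characters -/
def DihCh (θ : K.fixingSubgroup →* Multiplicative (ZMod p)) : Prop :=
  ∀ g, g ∉ K.fixingSubgroup → ∀ u, ∀ (h : u ∈ K.fixingSubgroup)
    (h' : g * u * g⁻¹ ∈ K.fixingSubgroup), θ ⟨g * u * g⁻¹, h'⟩ = (θ ⟨u, h⟩)⁻¹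

lemma thK_unr {θ : K.fixingSubgroup →* Multiplicative (ZMod p)} (hsm : SmoothCh θ)
    (hunr : UnrCh θ) : Unr (thK θ hsm) := by
  intro q g σ hσ h
  have h' : g⁻¹ * σ * g ∈ K.fixingSubgroup := of_stab h
  rw [thK_apply θ hsm _ h h']
  rw [hunr q q.2 (g⁻¹ • padicPlace (q : ℕ)) (liesOverPrime_smul (liesOver_padic (q : ℕ)) _) _
    (inertia_conj hσ) h', toAdd_one]

section quad

variable [NumberField K] (hK : K.fixingSubgroup.index = 2)

include hK in
lemma normalK : K.fixingSubgroup.Normal := Subgroup.normal_of_index_eq_two hK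

include hK in
lemma coset_cases {s : PTC.GQ} (hs : s ∉ K.fixingSubgroup) (y : PTC.GQ ⧸ K.fixingSubgroup) :
    y = x0 K ∨ y = (s : PTC.GQ ⧸ K.fixingSubgroup) := by
  obtain ⟨t, rfl⟩ := QuotientGroup.mk_surjective y
  by_cases ht : t ∈ K.fixingSubgroup
  · left
    rw [QuotientGroup.eq, mul_one]
    exact inv_mem ht
  · right
    rw [QuotientGroup.eq]
    have h1 := (Subgroup.mul_mem_iff_of_index_two hK (a := t⁻¹) (b := s))
    rw [h1]
    constructor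
    · intro h
      exact absurd ((Subgroup.inv_mem_iff _).1 h) ht
    · intro h
      exact absurd h hs

include hK in
/-- a nonsplit prime has an element outside `U` -/
lemma exists_notMem_of_nonsplit {q : Nat.Primes} (hq : ¬ IsSplit K q) :
    ∃ γ : Gq q, rq q γ ∉ K.fixingSubgroup := by
  by_contra hcon
  push Not at hcon
  apply hq
  intro γ y
  obtain ⟨t, rfl⟩ := QuotientGroup.mk_surjective y
  rw [xiK_apply, QuotientGroup.eq]
  have h1 := (normalK hK).conj_mem _ (inv_mem (hcon γ)) t⁻¹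
  rw [inv_inv] at h1
  rw [mul_inv_rev]
  exact h1

include hK in
/-- local triviality at nonsplit places -/
theorem theta_nonsplit (hp2 : p ≠ 2) {θ : K.fixingSubgroup →* Multiplicative (ZMod p)}
    (hsm : SmoothCh θ) (hunr : UnrCh θ) (hdih : DihCh θ) {q : Nat.Primes} (hq : ¬ IsSplit K q)
    (γ : Gq q) (h : rq q γ ∈ K.fixingSubgroup) : θ ⟨rq q γ, h⟩ = 1 := by
  have hn := normalK hK
  obtain ⟨s, hs⟩ := exists_notMem_of_nonsplit hK hq
  obtain ⟨F, hF, hFθ⟩ := id hsm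
  obtain ⟨N₁, hN₁, hle₁⟩ := PTC.exists_allL_le F hF
  obtain ⟨N₂, hN₂, hle₂⟩ := openK K
  obtain ⟨N, hN, h1, h2⟩ := allL.directed' N₁ hN₁ N₂ hN₂
  obtain ⟨τ, hτ, hτN⟩ := comm_level q hN s γ
  have hcm : rq q (s * γ * s⁻¹ * γ⁻¹) ∈ K.fixingSubgroup := by
    rw [map_mul, map_mul, map_mul, map_inv, map_inv]
    exact mul_mem (hn.conj_mem _ h _) (inv_mem h)
  have hτU : τ ∈ K.fixingSubgroup := by
    have h3 := hle₂ (h2 hτN)
    have h4 := mul_mem hcm (inv_mem h3)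
    rwa [mul_inv_rev, inv_inv, mul_inv_cancel_left] at h4
  have h5 : θ ⟨τ, hτU⟩ = 1 := hunr q q.2 _ (liesOver_padic (q : ℕ)) τ hτ hτU
  have h6 : τ⁻¹ * rq q (s * γ * s⁻¹ * γ⁻¹) ∈ K.fixingSubgroup := hle₂ (h2 hτN)
  have h7 : θ ⟨_, h6⟩ = 1 := hFθ _ h6 (hle₁ (h1 hτN))
  have h8 : θ ⟨rq q (s * γ * s⁻¹ * γ⁻¹), hcm⟩ = 1 := by
    have h9 : (⟨rq q (s * γ * s⁻¹ * γ⁻¹), hcm⟩ : K.fixingSubgroup) =
        ⟨τ, hτU⟩ * ⟨_, h6⟩ := Subtype.ext (by
          show _ = τ * (τ⁻¹ * _)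
          rw [mul_inv_cancel_left])
    rw [h9, map_mul, h5, h7, one_mul]
  have hcj : rq q s * rq q γ * (rq q s)⁻¹ ∈ K.fixingSubgroup := hn.conj_mem _ h _
  have h10 : (⟨rq q (s * γ * s⁻¹ * γ⁻¹), hcm⟩ : K.fixingSubgroup) =
      ⟨_, hcj⟩ * (⟨rq q γ, h⟩)⁻¹ := Subtype.ext (by
        show rq q (s * γ * s⁻¹ * γ⁻¹) = rq q s * rq q γ * (rq q s)⁻¹ * (rq q γ)⁻¹
        rw [map_mul, map_mul, map_mul, map_inv, map_inv])
  rw [h10, map_mul, map_inv, hdih (rq q s) hs _ h hcj, ← mul_inv, inv_eq_one] at h8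
  -- `x² = 1` implies `x = 1`
  set x := θ ⟨rq q γ, h⟩ with hx
  have h11 : Multiplicative.toAdd x + Multiplicative.toAdd x = 0 := by
    rw [← toAdd_mul, h8, toAdd_one]
  have h12 : (2 : ZMod p) * Multiplicative.toAdd x = 0 := by rw [two_mul]; exact h11
  have h13 : (2 : ZMod p) ≠ 0 := by
    intro h0
    have h14 : ((2 : ℕ) : ZMod p) = 0 := by exact_mod_cast h0
    rw [ZMod.natCast_eq_zero_iff] at h14
    exact hp2 ((Nat.prime_dvd_prime_iff_eq hp.out Nat.prime_two).1 h14)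
  rcases mul_eq_zero.1 h12 with h14 | h14
  · exact absurd h14 h13
  · exact toAdd_eq_zero.1 h14

include hK in
lemma theta_hns (hp2 : p ≠ 2) {θ : K.fixingSubgroup →* Multiplicative (ZMod p)}
    (hsm : SmoothCh θ) (hunr : UnrCh θ) (hdih : DihCh θ) (q : Nat.Primes) (hq : ¬ IsSplit K q) :
    PT.IsTrans ((xiK K).comp (rq q)) (x0 K) ∧
      ∀ γ, ∀ h : rq q γ ∈ stab (xiK K) (x0 K), (thK θ hsm).1 ⟨rq q γ, h⟩ = 0 := by
  constructor
  · obtain ⟨s, hs⟩ := exists_notMem_of_nonsplit hK hq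
    intro y
    rcases coset_cases hK hs y with rfl | rfl
    · refine ⟨1, ?_⟩
      rw [map_one]; rfl
    · refine ⟨s, ?_⟩
      show xiK K (rq q s) (x0 K) = _
      rw [xiK_apply, mul_one]
  · intro γ h
    have h' : rq q γ ∈ K.fixingSubgroup := of_stab h
    rw [thK_apply θ hsm _ h h', theta_nonsplit hK hp2 hsm hunr hdih hq γ h', toAdd_one]

include hK in
/-- `θ` is trivial on `D ∩ U` at nonsplit places -/
lemma theta_decomp_nonsplit (hp2 : p ≠ 2) {θ : K.fixingSubgroup →* Multiplicative (ZMod p)}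
    (hsm : SmoothCh θ) (hunr : UnrCh θ) (hdih : DihCh θ) {q : Nat.Primes} (hq : ¬ IsSplit K q)
    {σ : PTC.GQ} (hσ : σ • padicPlace (q : ℕ) = padicPlace (q : ℕ)) (h : σ ∈ K.fixingSubgroup) :
    θ ⟨σ, h⟩ = 1 := by
  obtain ⟨F, hF, hFθ⟩ := id hsm
  obtain ⟨N₁, hN₁, hle₁⟩ := PTC.exists_allL_le F hF
  obtain ⟨N₂, hN₂, hle₂⟩ := openK K
  obtain ⟨N, hN, h1, h2⟩ := allL.directed' N₁ hN₁ N₂ hN₂
  obtain ⟨g, hg⟩ := exists_loc_level q hN hσ
  have h3 : σ⁻¹ * rq q g ∈ K.fixingSubgroup := hle₂ (h2 hg)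
  have h4 : rq q g ∈ K.fixingSubgroup := by
    have := mul_mem h h3
    rwa [mul_inv_cancel_left] at this
  have h5 := theta_nonsplit hK hp2 hsm hunr hdih hq g h4
  have h6 : θ ⟨_, h3⟩ = 1 := hFθ _ h3 (hle₁ (h1 hg))
  have h7 : (⟨rq q g, h4⟩ : K.fixingSubgroup) = ⟨σ, h⟩ * ⟨_, h3⟩ := Subtype.ext (by
    show _ = σ * (σ⁻¹ * _)
    rw [mul_inv_cancel_left])
  rw [h7, map_mul, h6, mul_one] at h5
  exact h5

end quad

/-- **(CF3)** Artin reciprocity for everywhere unramified dihedral characters of odd prime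
order. -/
theorem exists_psi (hp2 : p ≠ 2) [NumberField K] (hK : K.fixingSubgroup.index = 2)
    (θ : K.fixingSubgroup →* Multiplicative (ZMod p))
    (hsm : SmoothCh θ) (hunr : UnrCh θ) (hdih : DihCh θ) :
    ∃ ψ : ClassGroup (𝓞 K) →* Multiplicative (ZMod p), ∀ q : ℕ, q.Prime →
      ∀ A : ValuationSubring Qb, A.LiesOverPrime q → ∀ σ, A.IsFrobeniusAt σ q →
        ∀ h : σ ∈ K.fixingSubgroup, ∀ P : (Ideal (𝓞 K))⁰,
          (∀ x : 𝓞 K, x ∈ (P : Ideal (𝓞 K)) ↔ ((x : K) : Qb) ∈ A.nonunits) →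
          ψ (ClassGroup.mk0 P) = θ ⟨σ, h⟩ := by
  classical
  have hn := normalK hK
  have hfi : K.fixingSubgroup.FiniteIndex := ⟨by rw [hK]; norm_num⟩
  have hX : Finite (PTC.GQ ⧸ K.fixingSubgroup) := inferInstance
  letI : Fintype (PTC.GQ ⧸ K.fixingSubgroup) := Fintype.ofFinite _
  have hunr' := thK_unr hsm hunr
  obtain ⟨ψ, hψ⟩ := exists_classGroup_hom (psi0 K (thK θ hsm))
    (fun I J hI hJ => psi0_mul K (thK θ hsm) hI hJ)
    (fun a ha => psi0_principal K (thK θ hsm) hp2 hunr'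
      (theta_hns hK hp2 hsm hunr hdih) ha)
  refine ⟨ψ, ?_⟩
  intro q₀ hq₀ A hA σ hσ h P hP
  rw [hψ]
  apply Multiplicative.toAdd.injective
  rw [toAdd_ofAdd]
  let q : Nat.Primes := ⟨q₀, hq₀⟩
  haveI : Fact q₀.Prime := ⟨hq₀⟩
  -- conjugate `A` to the standard place
  obtain ⟨g, hg⟩ : ∃ g : PTC.GQ, g • A = padicPlace (q : ℕ) := by
    obtain ⟨g, hg⟩ := exists_smul_eq hq₀ hA (liesOver_padic q₀)
    exact ⟨g, hg.symm⟩
  have hσ' : (padicPlace (q : ℕ)).IsFrobeniusAt (g * σ * g⁻¹) q := by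
    rw [← hg]; exact frob_conj hσ g
  have hplace : (P : Ideal (𝓞 K)) = (CFT6.place (embOf K q g)).asIdeal := by
    ext x
    rw [hP]
    have h1 : x ∈ (CFT6.place (embOf K q g)).asIdeal ↔
        ‖padicEmbedding (q : ℕ) (g ((x : K) : Qb))‖ < 1 := Iff.rfl
    rw [h1, ← mem_nonunits_padic, ← hg, mem_smul_nonunits]
    have h2 : g⁻¹ (g ((x : K) : Qb)) = ((x : K) : Qb) := g.symm_apply_apply _
    rw [h2]
  have hgU : g * σ * g⁻¹ ∈ K.fixingSubgroup := hn.conj_mem _ h _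
  by_cases hs : IsSplit K q
  · -- split case
    set y : PTC.GQ ⧸ K.fixingSubgroup := (g : PTC.GQ ⧸ K.fixingSubgroup) with hy
    have hPy : (P : Ideal (𝓞 K)) = (plc K q y).asIdeal := by rw [hplace, plc_mk]
    have h1 : psi0 K (thK θ hsm) (P : Ideal (𝓞 K)) = fr (thK θ hsm) q (Quotient.out y) := by
      unfold psi0
      rw [finsum_eq_single _ q]
      · unfold nloc
        rw [if_pos hs]
        refine (Finset.sum_eq_single y (fun y' _ hy' => ?_)
          (fun hmem => absurd (Finset.mem_univ _) hmem)).trans ?_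
        · rw [hPy, cnt_of_ne, Nat.cast_zero, mul_zero]
          intro heq
          exact hy' (plc_injective K hs heq).2
        · rw [hPy, cnt_self, Nat.cast_one, mul_one]
      · intro r hr
        unfold nloc
        split_ifs with hsr
        · refine Finset.sum_eq_zero (fun y' _ => ?_)
          rw [hPy, cnt_of_ne, Nat.cast_zero, mul_zero]
          intro heq
          exact hr (plc_injective K hsr heq).1
        · rfl
    rw [h1]
    -- the Frobenius value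
    set t : PTC.GQ := Quotient.out y with ht
    have htg : (t : PTC.GQ ⧸ K.fixingSubgroup) = (g : PTC.GQ ⧸ K.fixingSubgroup) :=
      Quotient.out_eq' y
    have hu : g⁻¹ * t ∈ K.fixingSubgroup := QuotientGroup.eq.1 htg.symm
    have hm : t⁻¹ * frob q * t ∈ stab (xiK K) (x0 K) :=
      conj_mem_stab (levelTrivial_cosetAct (openK K)) (fun γ x => hs γ x)
        (frob_spec q).mem_decompositionSubgroup t
    have hm' : t⁻¹ * frob q * t ∈ K.fixingSubgroup := of_stab hm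
    unfold fr
    rw [dif_pos hm, thK_apply θ hsm _ hm hm']
    congr 1
    -- `t⁻¹ frob t = (u⁻¹ σ u) * inertia`
    have hin := frob_inv_mul (frob_spec q) hσ'
    have hin2 := inertia_conj (τ := t) hin
    have hin3 : t⁻¹ * ((frob q)⁻¹ * (g * σ * g⁻¹)) * t ∈ K.fixingSubgroup := by
      have e : t⁻¹ * ((frob q)⁻¹ * (g * σ * g⁻¹)) * t =
          (t⁻¹ * frob q * t)⁻¹ * (t⁻¹ * (g * σ * g⁻¹) * t) := by group
      rw [e]
      refine mul_mem (inv_mem hm') ?_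
      have := hn.conj_mem _ hgU t⁻¹
      rwa [inv_inv] at this
    have h4 : θ ⟨_, hin3⟩ = 1 := hunr q q.2 _
      (liesOverPrime_smul (liesOver_padic (q : ℕ)) _) _ hin2 hin3
    have h5 : (⟨t⁻¹ * frob q * t, hm'⟩ : K.fixingSubgroup) * ⟨_, hin3⟩ =
        (⟨g⁻¹ * t, hu⟩)⁻¹ * ⟨σ, h⟩ * ⟨g⁻¹ * t, hu⟩ := Subtype.ext (by
      show t⁻¹ * frob q * t * (t⁻¹ * ((frob q)⁻¹ * (g * σ * g⁻¹)) * t) =
        (g⁻¹ * t)⁻¹ * σ * (g⁻¹ * t)
      group)
    have h6 := congrArg θ h5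
    rw [map_mul, h4, mul_one, map_mul, map_mul, map_inv] at h6
    rw [h6, mul_comm (θ ⟨g⁻¹ * t, hu⟩)⁻¹, inv_mul_cancel_right]
  · -- nonsplit case
    have h1 : psi0 K (thK θ hsm) (P : Ideal (𝓞 K)) = 0 := by
      unfold psi0
      refine finsum_eq_zero_of_forall_eq_zero (fun r => ?_)
      unfold nloc
      split_ifs with hsr
      · refine Finset.sum_eq_zero (fun y' _ => ?_)
        rw [hplace, cnt_of_ne, Nat.cast_zero, mul_zero]
        intro heq
        rw [← plc_mk] at heq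
        have h2 := (plc_injective K hsr heq).1
        rw [h2] at hsr
        exact hs hsr
      · rfl
    rw [h1]
    have h2 := theta_decomp_nonsplit hK hp2 hsm hunr hdih hs hσ'.mem_decompositionSubgroup hgU
    have h3 : θ ⟨σ, h⟩ = 1 := by
      by_cases hgm : g ∈ K.fixingSubgroup
      · have h4 : (⟨g * σ * g⁻¹, hgU⟩ : K.fixingSubgroup) = ⟨g, hgm⟩ * ⟨σ, h⟩ * (⟨g, hgm⟩)⁻¹ := rfl
        rw [h4, map_mul, map_mul, map_inv, mul_comm (θ ⟨g, hgm⟩), mul_inv_cancel_right] at h2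
        exact h2
      · rw [hdih g hgm σ h hgU, inv_eq_one] at h2
        exact h2
    rw [h3, toAdd_one]

end Fermat.Agent.CFR
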