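import Fermat.Agent.CFR.Cnt

/-!
# The homomorphism on the class group
-/

set_option autoImplicit false

open IsDedekindDomain Module
open scoped Pointwise NumberField nonZeroDivisors

namespace Fermat.Agent.CFR

open Fermat.Agent.PT Fermat.Agent.CFT Fermat.Agent.CFT6 Fermat.Agent.PTLocal Fermat.Agent.PTC
  Fermat.Agent.ABHN Fermat.Agent.Frob

attribute [local instance] isGalois_qbar

section

variable {p : ℕ} [hp : Fact p.Prime] (K : IntermediateField ℚ Qb) [NumberField K]

/-- the base point -/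
noncomputable abbrev x0 : PTC.GQ ⧸ K.fixingSubgroup := ((1 : PTC.GQ) : PTC.GQ ⧸ K.fixingSubgroup)

/-- the action on cosets -/
noncomputable abbrev xiK : PTC.GQ →* Equiv.Perm (PTC.GQ ⧸ K.fixingSubgroup) := cosetAct K.fixingSubgroup

omit [NumberField K] in
lemma stabK : stab (xiK K) (x0 K) = K.fixingSubgroup := stab_cosetAct K.fixingSubgroup

omit [NumberField K] in
lemma xiK_apply (g : PTC.GQ) (h : PTC.GQ) :
    xiK K g (h : PTC.GQ ⧸ K.fixingSubgroup) = ((g * h : PTC.GQ) : PTC.GQ ⧸ K.fixingSubgroup) := rfl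

lemma fdK : FiniteDimensional ℚ K := by
  have h1 := (inferInstance : NumberField K).to_finiteDimensional
  have h2 : (K.algebra' : Algebra ℚ K) = DivisionRing.toRatAlgebra := Subsingleton.elim _ _
  exact h1

lemma openK : IsOpenSub allL K.fixingSubgroup := by
  obtain ⟨N, hN, hle⟩ := PTC.exists_allL_le K (fdK K)
  exact ⟨N, hN, hle⟩

/-- elements of `K` in `H⁰` -/
noncomputable def h0El (a : K) (ha : a ≠ 0) :
    H0 (resAct (galAct ℚ Qb) (stab (xiK K) (x0 K))) :=
  ⟨Additive.ofMul (Units.mk0 (a : Qb) (by simpa using ha)), by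
    rw [mem_H0]
    rintro ⟨g, hg⟩
    rw [stabK] at hg
    apply Additive.toMul.injective
    apply Units.ext
    exact (IntermediateField.mem_fixingSubgroup_iff _ _).1 hg a a.2⟩

omit [NumberField K] in
lemma embOf_eq_iff' (q : Nat.Primes) (g g' : PTC.GQ) : embOf K q g = embOf K q g' ↔
    (g : PTC.GQ ⧸ K.fixingSubgroup) = g' := by
  rw [QuotientGroup.eq, IntermediateField.mem_fixingSubgroup_iff]
  constructor
  · intro h x hx
    have h2 := congrArg (fun f : Emb K q => f ⟨x, hx⟩) h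
    have h3 : g x = g' x := (padicEmbedding (q : ℕ)).injective h2
    show g.symm (g' x) = x
    rw [← h3, AlgEquiv.symm_apply_apply]
  · intro h
    apply RingHom.ext
    intro x
    rw [embOf_apply, embOf_apply]
    congr 1
    have h2 : g.symm (g' (x : Qb)) = x := h x x.2
    conv_lhs => rw [← h2]
    rw [AlgEquiv.apply_symm_apply]

/-- split primes -/
def IsSplit (q : Nat.Primes) : Prop := ∀ γ x, xiK K (rq q γ) x = x

omit [NumberField K] in
lemma smul_embOf_split {q : Nat.Primes} (hs : IsSplit K q) (g : PTC.GQ) (γ : Gq q) :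
    γ • embOf K q g = embOf K q g := by
  rw [smul_embOf, embOf_eq_iff']
  exact hs γ (g : PTC.GQ ⧸ K.fixingSubgroup)

/-- the place attached to a coset -/
noncomputable def plc (q : Nat.Primes) (y : PTC.GQ ⧸ K.fixingSubgroup) :
    HeightOneSpectrum (𝓞 K) := CFT6.place (embOf K q (Quotient.out y))

lemma plc_mk (q : Nat.Primes) (g : PTC.GQ) :
    plc K q (g : PTC.GQ ⧸ K.fixingSubgroup) = CFT6.place (embOf K q g) := by
  unfold plc
  congr 1
  rw [embOf_eq_iff']
  exact Quotient.out_eq' _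

lemma plc_injective {q q' : Nat.Primes} (hs : IsSplit K q) {y y' : PTC.GQ ⧸ K.fixingSubgroup}
    (h : plc K q y = plc K q' y') : q = q' ∧ y = y' := by
  have hq : q = q' := prime_unique (q_mem_place (embOf K q (Quotient.out y)))
    (by rw [show (CFT6.place (embOf K q (Quotient.out y))) = _ from h]; exact q_mem_place _)
  subst hq
  refine ⟨rfl, ?_⟩
  obtain ⟨τ, hτ⟩ := place_eq_iff.1 h
  have h1 : τ • embOf K q (Quotient.out y) = embOf K q (Quotient.out y') := RingHom.ext hτ
  rw [smul_embOf_split K hs, embOf_eq_iff'] at h1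
  have e : ∀ z : PTC.GQ ⧸ K.fixingSubgroup, ((Quotient.out z : PTC.GQ) : PTC.GQ ⧸ K.fixingSubgroup)
    = z := fun z => Quotient.out_eq' z
  rw [e, e] at h1
  exact h1

variable [Fintype (PTC.GQ ⧸ K.fixingSubgroup)]
  (θ : Chi p (allL.sub (stab (xiK K) (x0 K))))

open Classical in
/-- local contribution -/
noncomputable def nloc (q : Nat.Primes) (I : Ideal (𝓞 K)) : ZMod p :=
  if IsSplit K q then ∑ y, fr θ q (Quotient.out y) * (cnt (plc K q y) I : ZMod p) else 0

lemma finite_supp {I : Ideal (𝓞 K)} (hI : I ≠ 0) :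
    {q : Nat.Primes | (q : ℕ) ∣ Ideal.absNorm I}.Finite := by
  have h0 : Ideal.absNorm I ≠ 0 := by
    rw [Ne, Ideal.absNorm_eq_zero_iff]
    exact hI
  have h1 : (Subtype.val ⁻¹' ((Ideal.absNorm I).primeFactors : Set ℕ) : Set Nat.Primes).Finite :=
    Set.Finite.preimage Subtype.val_injective.injOn (Finset.finite_toSet _)
  refine h1.subset (fun q hq => ?_)
  exact Finset.mem_coe.2 (Nat.mem_primeFactors.2 ⟨q.2, hq, h0⟩)

lemma cnt_eq_zero {I : Ideal (𝓞 K)} (hI : I ≠ 0) {q : Nat.Primes}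
    (hq : ¬ (q : ℕ) ∣ Ideal.absNorm I) (y : PTC.GQ ⧸ K.fixingSubgroup) : cnt (plc K q y) I = 0 := by
  by_contra h
  exact hq (natAbs_mem_of_le (le_of_cnt_ne_zero hI h))

lemma support_nloc {I : Ideal (𝓞 K)} (hI : I ≠ 0) :
    Function.support (fun q => nloc K θ q I) ⊆ {q : Nat.Primes | (q : ℕ) ∣ Ideal.absNorm I} := by
  intro q hq
  by_contra hcon
  apply hq
  show nloc K θ q I = 0
  unfold nloc
  split_ifs
  · refine Finset.sum_eq_zero (fun y _ => ?_)
    rw [cnt_eq_zero K hI hcon, Nat.cast_zero, mul_zero]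
  · rfl

/-- the function on ideals -/
noncomputable def psi0 (I : Ideal (𝓞 K)) : ZMod p := ∑ᶠ q : Nat.Primes, nloc K θ q I

lemma psi0_mul {I J : Ideal (𝓞 K)} (hI : I ≠ 0) (hJ : J ≠ 0) :
    psi0 K θ (I * J) = psi0 K θ I + psi0 K θ J := by
  unfold psi0
  rw [← finsum_add_distrib ((finite_supp K hI).subset (support_nloc K θ hI))
    ((finite_supp K hJ).subset (support_nloc K θ hJ))]
  refine finsum_congr (fun q => ?_)
  unfold nloc
  split_ifs
  · rw [← Finset.sum_add_distrib]
    refine Finset.sum_congr rfl (fun y _ => ?_)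
    rw [cnt_mul _ hI hJ]
    push_cast
    ring
  · rw [add_zero]

/-- principal ideals are killed -/
theorem psi0_principal (hp2 : p ≠ 2) (hθ : Unr θ)
    (hns : ∀ q : Nat.Primes, ¬ IsSplit K q → PT.IsTrans ((xiK K).comp (rq q)) (x0 K) ∧
      ∀ γ, ∀ h : rq q γ ∈ stab (xiK K) (x0 K), θ.1 ⟨rq q γ, h⟩ = 0)
    {a : 𝓞 K} (ha : a ≠ 0) : psi0 K θ (Ideal.span {a}) = 0 := by
  classical
  have hI : (Ideal.span {a} : Ideal (𝓞 K)) ≠ 0 := by
    rw [Ne, Ideal.zero_eq_bot, Ideal.span_singleton_eq_bot]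
    exact ha
  have haK : (a : K) ≠ 0 := by simpa using ha
  set S : Finset Nat.Primes := (finite_supp K hI).toFinset.filter (fun q => IsSplit K q) with hS
  have hSmem : ∀ q, q ∈ S ↔ (q : ℕ) ∣ Ideal.absNorm (Ideal.span {a} : Ideal (𝓞 K)) ∧
      IsSplit K q := by
    intro q
    rw [hS, Finset.mem_filter, Set.Finite.mem_toFinset]
    rfl
  have h1 := sum_formula hp2 (levelTrivial_cosetAct (openK K)) (isTrans_cosetAct K.fixingSubgroup)
    hθ hns (fun y => Quotient.out y) (fun y => by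
      refine (xiK_apply K _ 1).trans ?_
      rw [mul_one]
      exact Quotient.out_eq' y) (h0El K (a : K) haK)
    (fun q y => ord (plc K q y) (a : K)) (fun q hs y => by
      have := norm_eq_zpow_ord (embOf K q (Quotient.out y))
        (smul_embOf_split K (fun γ x => hs γ x) (Quotient.out y)) haK
      exact this) S (fun q hq => ((hSmem q).1 hq).2)
    (fun q hq hs y => by
      show ord (plc K q y) (a : K) = 0
      rw [ord_eq_cnt _ ha, cnt_eq_zero K hI (fun h => hq ((hSmem q).2 ⟨h, hs⟩)), Nat.cast_zero])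
  unfold psi0
  rw [finsum_eq_sum_of_support_subset (s := S), ← h1]
  · refine Finset.sum_congr rfl (fun q hq => ?_)
    unfold nloc
    rw [if_pos ((hSmem q).1 hq).2]
    refine Finset.sum_congr rfl (fun y _ => ?_)
    rw [ord_eq_cnt _ ha, Int.cast_natCast]
  · intro q hq
    rw [Finset.mem_coe, hSmem]
    refine ⟨support_nloc K θ hI hq, ?_⟩
    by_contra hcon
    apply hq
    show nloc K θ q _ = 0
    unfold nloc
    rw [if_neg hcon]

end

end Fermat.Agent.CFR
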