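import Fermat.Agent.CFR.Vals

/-!
# Artin reciprocity (sum formula) for everywhere unramified characters
-/

set_option autoImplicit false

open NumberField IsDedekindDomain Module
open scoped Pointwise

namespace Fermat.Agent.CFR

open Fermat.Agent.PT Fermat.Agent.CFT Fermat.Agent.CFT6 Fermat.Agent.PTLocal Fermat.Agent.PTC
  Fermat.Agent.ABHN Fermat.Agent.Frob

attribute [local instance] isGalois_qbar

variable {p : ℕ} [hp : Fact p.Prime] {X : Type} [Fintype X] {ξ : PTC.GQ →* Equiv.Perm X} {x₀ : X}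

/-- the Frobenius value of `θ` at the place `(q, g)` -/
noncomputable def fr (θ : Chi p (allL.sub (stab ξ x₀))) (q : Nat.Primes) (g : PTC.GQ) : ZMod p :=
  open Classical in
  if h : g⁻¹ * frob q * g ∈ stab ξ x₀ then θ.1 ⟨g⁻¹ * frob q * g, h⟩ else 0

variable {θ : Chi p (allL.sub (stab ξ x₀))}

omit [Fintype X] in
/-- local component of `θ ∪ a` at a split place -/
theorem theta_local (hξ : LevelTrivial allL ξ) (hθ : Unr θ) {q : Nat.Primes}
    (hs : ∀ γ x, ξ (rq q γ) x = x) (g : PTC.GQ)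
    {ℓ : ℕ} [hℓ : Fact ℓ.Prime] (hq : (q : ℕ) ≠ ℓ) {lam : (ZMod ℓ)ˣ →* Multiplicative (ZMod p)}
    (hlam : ∃ u, lam u ≠ 1) (h0 : (cyCh lam).1 (frob q) ≠ 0) (b : H0 (sq q)) {n : ℤ}
    (hb : ‖vl b‖ = ((q : ℕ) : ℝ) ^ (-n)) :
    cycδ (lq q) (thq θ q hs g) b =
      (fr θ q g * ((cyCh lam).1 (frob q))⁻¹ * (n : ZMod p)).val •
        cycδ (lq q) (chq (cyCh lam) q) (qel q) := by
  have hm : g⁻¹ * frob q * g ∈ stab ξ x₀ :=
    conj_mem_stab hξ hs (frob_spec q).mem_decompositionSubgroup g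
  have hfr : fr θ q g = θ.1 ⟨g⁻¹ * frob q * g, hm⟩ := by
    unfold fr
    rw [dif_pos hm]
  rw [cycδ_smul_left (lq q) (fr θ q g * ((cyCh lam).1 (frob q))⁻¹)
    (χ := chq (cyCh lam) q) (χ' := thq θ q hs g) (fun γ => ?_) b,
    cyCh_cup_eq hlam q hq b hb, ← val_mul_nsmul (p_nsmul_cycδ _ _ _)]
  rw [hfr]
  exact thq_prop hξ hθ hs g (frob_spec q) hm hq h0 γ

omit [Fintype X] in
lemma theta_local_unit (hξ : LevelTrivial allL ξ) (hθ : Unr θ) {q : Nat.Primes}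
    (hs : ∀ γ x, ξ (rq q γ) x = x) (g : PTC.GQ) (b : H0 (sq q)) (hb : ‖vl b‖ = 1) :
    cycδ (lq q) (thq θ q hs g) b = 0 := by
  obtain ⟨ℓ, hℓ, -, hℓq, -, k, hk, hk'⟩ := exists_aux_avoid p q.2 ∅
  obtain ⟨lam, hlam, h0⟩ := exists_good_lam (p := p) (q := q) (ℓ := ⟨ℓ, hℓ⟩) hk hk'
    (fun h => hℓq h.symm)
  haveI : Fact ℓ.Prime := ⟨hℓ⟩
  rw [theta_local hξ hθ hs g (ℓ := ℓ) (fun h => hℓq h.symm) hlam h0 b (n := 0)
    (by rw [hb, neg_zero, zpow_zero]), Int.cast_zero, mul_zero, ZMod.val_zero, zero_smul]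

/-- finite sums of multiples -/
lemma sum_val_nsmul {M : Type*} [AddCommGroup M] {m : M} (hm : p • m = 0) {ι : Type*}
    (s : Finset ι) (f : ι → ZMod p) : ∑ i ∈ s, (f i).val • m = (∑ i ∈ s, f i).val • m := by
  classical
  induction s using Finset.induction_on with
  | empty => rw [Finset.sum_empty, Finset.sum_empty, ZMod.val_zero, zero_smul]
  | insert i s hi ih => rw [Finset.sum_insert hi, Finset.sum_insert hi, ih, val_add_nsmul hm]

/-- **the sum formula** -/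
theorem sum_formula (hp2 : p ≠ 2) (hξ : LevelTrivial allL ξ) (htr : PT.IsTrans ξ x₀) (hθ : Unr θ)
    (hns : ∀ q : Nat.Primes, ¬ (∀ γ x, ξ (rq q γ) x = x) → PT.IsTrans (ξ.comp (rq q)) x₀ ∧
      ∀ γ, ∀ h : rq q γ ∈ stab ξ x₀, θ.1 ⟨rq q γ, h⟩ = 0)
    (g : X → PTC.GQ) (hg : ∀ y, ξ (g y) x₀ = y)
    (a : H0 (resAct (galAct ℚ Qb) (stab ξ x₀))) (v : Nat.Primes → X → ℤ)
    (hv : ∀ q : Nat.Primes, (∀ γ x, ξ (rq q γ) x = x) → ∀ y,
      ‖iq q (g y ((Additive.toMul (a : Additive Qbˣ) : Qbˣ) : Qb))‖ = ((q : ℕ) : ℝ) ^ (-(v q y)))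
    (S : Finset Nat.Primes) (hS : ∀ q ∈ S, ∀ γ x, ξ (rq q γ) x = x)
    (hSv : ∀ q : Nat.Primes, q ∉ S → (∀ γ x, ξ (rq q γ) x = x) → ∀ y, v q y = 0) :
    ∑ q ∈ S, ∑ y, fr θ q (g y) * (v q y : ZMod p) = 0 := by
  classical
  rcases S.eq_empty_or_nonempty with rfl | ⟨q₀, hq₀⟩
  · rw [Finset.sum_empty]
  -- auxiliary primes
  obtain ⟨ℓ, hinj, hℓ⟩ := exists_aux_family p S ((S.image (fun q : Nat.Primes => (q : ℕ))) ∪ {p})
  have hfℓ : ∀ q, Fact (ℓ q : ℕ).Prime := fun q => ⟨(ℓ q).2⟩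
  have hℓS : ∀ q ∈ S, ∀ r ∈ S, (r : ℕ) ≠ (ℓ q : ℕ) := by
    intro q hq r hr h
    have h1 := (hℓ q hq).1
    rw [Finset.mem_union, not_or] at h1
    exact h1.1 (Finset.mem_image.2 ⟨r, hr, h⟩)
  have hℓp : ∀ q ∈ S, (ℓ q : ℕ) ≠ p := by
    intro q hq h
    have h1 := (hℓ q hq).1
    rw [Finset.mem_union, not_or] at h1
    exact h1.2 (Finset.mem_singleton.2 h)
  obtain ⟨q', hq'T, hq'⟩ := exists_common_inverse S ℓ hinj
    (fun q hq h => hℓS q hq q hq (congrArg Subtype.val h).symm) (S ∪ S.image ℓ)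
  rw [Finset.mem_union, not_or] at hq'T
  obtain ⟨hq'S, hq'ℓ⟩ := hq'T
  have hq'ℓ' : ∀ q ∈ S, (q' : ℕ) ≠ (ℓ q : ℕ) := fun q hq h =>
    hq'ℓ (Finset.mem_image.2 ⟨q, hq, Subtype.ext h.symm⟩)
  -- the cyclotomic characters
  have hex : ∀ q : Nat.Primes, ∃ lam : (ZMod (ℓ q : ℕ))ˣ →* Multiplicative (ZMod p), q ∈ S →
      (∃ u, lam u ≠ 1) ∧ (cyCh lam).1 (frob q) ≠ 0 := by
    intro q
    by_cases hq : q ∈ S
    · obtain ⟨-, k, hk, hk'⟩ := hℓ q hq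
      obtain ⟨lam, h1, h2⟩ := exists_good_lam (p := p) hk hk' (hℓS q hq q hq)
      exact ⟨lam, fun _ => ⟨h1, h2⟩⟩
    · exact ⟨1, fun h => absurd h hq⟩
  choose lam hlam using hex
  -- global classes
  have hsm : Smooth (allL.sub (stab ξ x₀)) (resAct (galAct ℚ Qb) (stab ξ x₀)) :=
    (gsm).sub _
  obtain ⟨β, hβ⟩ := (sh_h2_bijective hξ gsm htr).2 (cycδ hsm θ a)
  have hβ' : (shPair allL ξ (galAct ℚ Qb) x₀).h2 β = cycδ hsm θ a := hβ
  set z := cor ξ β with hz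
  have hpz : p • z = 0 := by
    have h1 : p • β = 0 := by
      apply (sh_h2_bijective hξ gsm htr).1
      have h2 : (shPair allL ξ (galAct ℚ Qb) x₀).h2 (p • β) = 0 := by
        rw [map_nsmul, hβ', p_nsmul_cycδ]
      exact h2.trans (map_zero _).symm
    show p • (sumHom ξ (galAct ℚ Qb)).h2 allL β = 0
    rw [← map_nsmul, h1, map_zero]
  have hm0 : ∀ r : Nat.Primes, (r : ℕ) * (q' : ℕ) ≠ 0 := fun r =>
    mul_ne_zero r.2.ne_zero q'.2.ne_zero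
  let Y : Nat.Primes → H2 allL (galAct ℚ Qb) := fun q =>
    cycδ gsm (cyCh (lam q)) (ratEl ((q : ℕ) * (q' : ℕ)) (hm0 q))
  have hpY : ∀ q, p • Y q = 0 := fun q => p_nsmul_cycδ _ _ _
  have hYloc : ∀ q r, (lc r).h2 (Y q) = cycδ (lq r) (chq (cyCh (lam q)) r)
      ((lc r).h0 (ratEl ((q : ℕ) * (q' : ℕ)) (hm0 q))) := by
    intro q r
    exact PTGlob.cycδ_nat (lc r) gsm (lq r) (cyCh (lam q)) _
  have hvl : ∀ q r : Nat.Primes, vl ((lc r).h0 (ratEl ((q : ℕ) * (q' : ℕ)) (hm0 q))) =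
      (((q : ℕ) : Cq r)) * ((q' : ℕ) : Cq r) := by
    intro q r
    rw [vl_ratEl, Nat.cast_mul]
  -- values of the `Y q`
  have hY1 : ∀ q ∈ S, (lc q).h2 (Y q) =
      (1 : ZMod p).val • cycδ (lq q) (chq (cyCh (lam q)) q) (qel q) := by
    intro q hq
    rw [hYloc, cyCh_cup_eq (hlam q hq).1 q (hℓS q hq q hq) _ (n := 1) ?_, Int.cast_one]
    rw [hvl, norm_mul, norm_natCast_q, norm_natCast_prime_ne (fun h : q = q' => hq'S (h ▸ hq)), mul_one,
      zpow_neg, zpow_one]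
  have hY2 : ∀ q ∈ S, (lc q').h2 (Y q) =
      (1 : ZMod p).val • cycδ (lq q') (chq (cyCh (lam q)) q') (qel q') := by
    intro q hq
    rw [hYloc, cyCh_cup_eq (hlam q hq).1 q' (hq'ℓ' q hq) _ (n := 1) ?_, Int.cast_one]
    rw [hvl, norm_mul, norm_natCast_q, norm_natCast_prime_ne (fun h : q' = q => hq'S (h ▸ hq)), one_mul,
      zpow_neg, zpow_one]
  have hY3 : ∀ q ∈ S, ∀ r, r ≠ q → r ≠ q' → (lc r).h2 (Y q) = 0 := by
    intro q hq r hr hr'
    rw [hYloc]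
    by_cases hrℓ : r = ℓ q
    · subst hrℓ
      refine cup_eq_zero_of_one_unit (ℓ q) (hℓp q hq) _ _ ((q : ℕ) * (q' : ℕ)) (hq' q hq) ?_
      rw [hvl, Nat.cast_mul]
    · refine cyCh_cup_unit (hlam q hq).1 r (fun h => hrℓ (Subtype.ext h)) _ ?_
      rw [hvl, norm_mul, norm_natCast_prime_ne hr, norm_natCast_prime_ne hr', one_mul]
  -- values of `z`
  have hzloc : ∀ (q : Nat.Primes) (hs : ∀ γ x, ξ (rq q γ) x = x), (lc q).h2 z =
      ∑ y, cycδ (lq q) (thq θ q hs (g y)) ((kap ξ x₀ q hs (g y)).h0 a) := by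
    intro q hs
    rw [hz, cor_split q hs g hg β]
    refine Finset.sum_congr rfl (fun y _ => ?_)
    rw [hβ']
    exact PTGlob.cycδ_nat (kap ξ x₀ q hs (g y)) hsm (lq q) θ a
  have hvk : ∀ (q : Nat.Primes) (hs : ∀ γ x, ξ (rq q γ) x = x) (y : X),
      ‖vl ((kap ξ x₀ q hs (g y)).h0 a)‖ = ((q : ℕ) : ℝ) ^ (-(v q y)) := fun q hs y => hv q hs y
  have hz1 : ∀ q ∈ S, (lc q).h2 z =
      (∑ y, fr θ q (g y) * ((cyCh (lam q)).1 (frob q))⁻¹ * (v q y : ZMod p)).val •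
        cycδ (lq q) (chq (cyCh (lam q)) q) (qel q) := by
    intro q hq
    rw [hzloc q (hS q hq), ← sum_val_nsmul (p_nsmul_cycδ _ _ _)]
    refine Finset.sum_congr rfl (fun y _ => ?_)
    exact theta_local hξ hθ (hS q hq) (g y) (hℓS q hq q hq) (hlam q hq).1 (hlam q hq).2 _
      (hvk q (hS q hq) y)
  have hz2 : ∀ q, q ∉ S → (lc q).h2 z = 0 := by
    intro q hq
    by_cases hs : ∀ γ x, ξ (rq q γ) x = x
    · rw [hzloc q hs]
      refine Finset.sum_eq_zero (fun y _ => ?_)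
      refine theta_local_unit hξ hθ hs (g y) _ ?_
      rw [hvk q hs y, hSv q hq hs y, neg_zero, zpow_zero]
    · obtain ⟨h1, h2⟩ := hns q hs
      refine cor_nonsplit hξ q h1 β ?_
      rw [hβ']
      refine (PTGlob.cycδ_nat (kap' ξ x₀ q) hsm ((lq q).sub _) θ a).trans ?_
      have h3 : PTGlob.chiPull (kap' ξ x₀ q) θ = 0 := by
        apply Subtype.ext
        funext γ
        exact h2 γ.1 γ.2
      rw [h3, cycδ_zero_left]
  -- the corrected class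
  set n : Nat.Primes → ZMod p := fun q => ∑ y, fr θ q (g y) * (v q y : ZMod p) with hn
  have hnq : ∀ q, ∑ y, fr θ q (g y) * ((cyCh (lam q)).1 (frob q))⁻¹ * (v q y : ZMod p) =
      n q * ((cyCh (lam q)).1 (frob q))⁻¹ := by
    intro q
    rw [hn, Finset.sum_mul]
    refine Finset.sum_congr rfl (fun y _ => ?_)
    ring
  let m : Nat.Primes → ZMod p := fun q => n q * ((cyCh (lam q)).1 (frob q))⁻¹
  set z' := z - ∑ q ∈ S, (m q).val • Y q with hz'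
  have hloc' : ∀ r, (lc r).h2 z' = (lc r).h2 z -
      ∑ q ∈ S, (m q).val • (lc r).h2 (Y q) := by
    intro r
    rw [hz', map_sub, map_sum]
    congr 1
    exact Finset.sum_congr rfl (fun q _ => map_nsmul _ _ _)
  have hfin : (lc q').h2 z' = 0 := by
    refine recip_br z' ?_ q' (fun r hr => ?_) (fun h => absurd h hp2)
    · rw [hz', smul_sub, hpz, zero_sub, neg_eq_zero, Finset.smul_sum]
      exact Finset.sum_eq_zero (fun q _ => by rw [smul_comm, hpY, smul_zero])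
    · show (lc r).h2 z' = 0
      rw [hloc']
      by_cases hrS : r ∈ S
      · rw [Finset.sum_eq_single r (fun q hq hqr => by rw [hY3 q hq r (Ne.symm hqr) hr, smul_zero])
          (fun h => absurd hrS h), hz1 r hrS, hY1 r hrS, hnq,
          ← val_mul_nsmul (p_nsmul_cycδ _ _ _), mul_one, sub_self]
      · rw [hz2 r hrS, zero_sub, neg_eq_zero]
        refine Finset.sum_eq_zero (fun q hq => ?_)
        rw [hY3 q hq r (fun h => hrS (h ▸ hq)) hr, smul_zero]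
  rw [hloc', hz2 q' hq'S, zero_sub, neg_eq_zero] at hfin
  -- comparison at `q'`
  have hc : ∀ q ∈ S, (cyCh (lam q)).1 (frob q') = - (cyCh (lam q)).1 (frob q) := fun q hq =>
    cyCh_frob_inv (hℓS q hq q hq) (hq'ℓ' q hq) (hq' q hq)
  have hc0 : (cyCh (lam q₀)).1 (frob q') ≠ 0 := by
    rw [hc q₀ hq₀]
    exact neg_ne_zero.2 (hlam q₀ hq₀).2
  set E := cycδ (lq q') (chq (cyCh (lam q₀)) q') (qel q') with hE
  have hpE : p • E = 0 := p_nsmul_cycδ _ _ _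
  have hE0 : E ≠ 0 := cyCh_cup_qel_ne_zero (hlam q₀ hq₀).1 q' (hq'ℓ' q₀ hq₀) (chq_ne_zero hc0)
  have hterm : ∀ q ∈ S, (m q).val • (lc q').h2 (Y q) =
      (n q * (-((cyCh (lam q₀)).1 (frob q'))⁻¹)).val • E := by
    intro q hq
    rw [hY2 q hq, ← val_mul_nsmul (p_nsmul_cycδ _ _ _), mul_one,
      cyCh_prop q' (hq'ℓ' q hq) (hq'ℓ' q₀ hq₀) hc0 (qel q'), ← val_mul_nsmul hpE]
    congr 2
    rw [hc q hq]
    show n q * ((cyCh (lam q)).1 (frob q))⁻¹ *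
      (-(cyCh (lam q)).1 (frob q) * ((cyCh (lam q₀)).1 (frob q'))⁻¹) = _
    have h0 := (hlam q hq).2
    field_simp
  rw [Finset.sum_congr rfl hterm, sum_val_nsmul hpE, ← Finset.sum_mul] at hfin
  have h4 := val_nsmul_eq_zero hpE hE0 hfin
  rcases mul_eq_zero.1 h4 with h5 | h5
  · exact h5
  · exact absurd (neg_eq_zero.1 h5) (inv_ne_zero hc0)

end Fermat.Agent.CFR
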