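import Fermat.Agent.CFT6.RecExists
import Mathlib.NumberTheory.LegendreSymbol.QuadraticReciprocity
import Mathlib.NumberTheory.LSeries.PrimesInAP

/-!
# The auxiliary imaginary quadratic field
-/

set_option autoImplicit false

open NumberField IsDedekindDomain Module Fermat.Agent.CFT
open scoped Pointwise ComplexConjugate

namespace Fermat.Agent.CFR

open Fermat.Agent.CFT6

/-- two embeddings of a normal extension differ by an automorphism. -/
lemma exists_comp_eq' {K L Ω : Type*} [Field K] [Field L] [Algebra K L] [Normal K L] [Field Ω]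
    (ψ ψ' : L →+* Ω) (h : ψ'.comp (algebraMap K L) = ψ.comp (algebraMap K L)) :
    ∃ σ : L ≃ₐ[K] L, ∀ x, ψ' x = ψ (σ x) := by
  letI : Algebra L Ω := ψ.toAlgebra
  letI : Algebra K Ω := (ψ.comp (algebraMap K L)).toAlgebra
  haveI : IsScalarTower K L Ω := IsScalarTower.of_algebraMap_eq fun x => rfl
  let f : L →ₐ[K] Ω := { ψ' with commutes' := fun x => congrFun (congrArg DFunLike.coe h) x }
  refine ⟨Normal.algHomEquivAut K Ω L f, fun x => ?_⟩
  have h1 := (Normal.algHomEquivAut K Ω L).symm_apply_apply f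
  have h2 := congrArg (fun e : L →ₐ[K] Ω => e x) h1
  exact h2.symm

lemma odd_mod_four {v : ℕ} (h : Odd v) : v % 4 = 1 ∨ v % 4 = 3 := by
  obtain ⟨k, rfl⟩ := h
  omega

/-- auxiliary prime: `ℓ ≡ 3 mod 4` with `v` a non-square modulo `ℓ`. -/
theorem exists_aux_prime_two {v : ℕ} (hv : v.Prime) :
    ∃ ℓ : ℕ, ℓ.Prime ∧ ℓ ≠ v ∧ ℓ % 4 = 3 ∧ ¬ IsSquare (v : ZMod ℓ) := by
  have hfv : Fact v.Prime := ⟨hv⟩
  rcases hv.eq_two_or_odd' with rfl | hodd
  · refine ⟨3, Nat.prime_three, by norm_num, by norm_num, ?_⟩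
    decide
  · have hv2 : v ≠ 2 := by
      rintro rfl
      revert hodd; decide
    have hcop : Nat.Coprime 4 v := by
      have h1 : Nat.Coprime 2 v := (Nat.coprime_primes Nat.prime_two hv).2 (Ne.symm hv2)
      exact Nat.Coprime.pow_left 2 h1
    -- the residue class modulo `v`
    have key : ∃ a : ZMod v, a ≠ 0 ∧ (v % 4 = 1 → ¬ IsSquare a) ∧ (v % 4 = 3 → IsSquare a) := by
      rcases odd_mod_four hodd with h | h
      · obtain ⟨a, ha⟩ := FiniteField.exists_nonsquare (F := ZMod v)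
          (by rw [ZMod.ringChar_zmod_n]; exact hv2)
        refine ⟨a, ?_, fun _ => ha, fun h' => by omega⟩
        rintro rfl
        exact ha ⟨0, by simp⟩
      · exact ⟨1, one_ne_zero, fun h' => by omega, fun _ => ⟨1, by simp⟩⟩
    obtain ⟨a, ha0, ha1, ha3⟩ := key
    obtain ⟨b, hb1, hb2⟩ : ∃ b : ℕ, b % 4 = 3 ∧ (b : ZMod v) = a := by
      obtain ⟨b, hb⟩ := Nat.chineseRemainder hcop 3 a.val
      refine ⟨b, hb.1, ?_⟩
      rw [← ZMod.natCast_zmod_val a]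
      exact (ZMod.natCast_eq_natCast_iff _ _ _).2 hb.2
    have hunit : IsUnit ((b : ℕ) : ZMod (4 * v)) := by
      rw [ZMod.isUnit_iff_coprime]
      refine Nat.Coprime.mul_right ?_ ?_
      · have h1 : Nat.Coprime b 2 := by
          rw [Nat.coprime_comm, Nat.Prime.coprime_iff_not_dvd Nat.prime_two]
          omega
        exact Nat.Coprime.pow_right 2 h1
      · rw [← ZMod.isUnit_iff_coprime, hb2]
        exact ha0.isUnit
    have : NeZero (4 * v) := ⟨by have := hv.pos; omega⟩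
    obtain ⟨ℓ, hℓv, hℓ, hℓb⟩ := Nat.forall_exists_prime_gt_and_eq_mod hunit v
    have h1 : ((ℓ : ℕ) : ZMod (4 * v)) = ((b : ℕ) : ZMod (4 * v)) := hℓb
    have h2 : ℓ ≡ b [MOD 4 * v] := (ZMod.natCast_eq_natCast_iff _ _ _).1 h1
    have h3 : ℓ % 4 = 3 := by
      have : ℓ ≡ b [MOD 4] := Nat.ModEq.of_mul_right v h2
      rw [← hb1]; exact this
    have h4 : (ℓ : ZMod v) = a := by
      rw [← hb2]
      exact (ZMod.natCast_eq_natCast_iff _ _ _).2 (Nat.ModEq.of_mul_left 4 h2)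
    have hfℓ : Fact ℓ.Prime := ⟨hℓ⟩
    refine ⟨ℓ, hℓ, hℓv.ne', h3, fun hsq => ?_⟩
    rcases odd_mod_four hodd with h | h
    · have hℓ2 : ℓ ≠ 2 := by omega
      have h5 := (ZMod.exists_sq_eq_prime_iff_of_mod_four_eq_one (p := v) (q := ℓ) h hℓ2).2 hsq
      rw [h4] at h5
      exact ha1 h h5
    · have h5 := (ZMod.exists_sq_eq_prime_iff_of_mod_four_eq_three (p := v) (q := ℓ) h h3
        (Ne.symm hℓv.ne')).1 (by rw [h4]; exact ha3 h)
      exact h5 hsq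

lemma pow_ne_one_of_not_isSquare {ℓ v : ℕ} [hℓ : Fact ℓ.Prime] (hne : ℓ ≠ v) (hv : v.Prime)
    (h4 : ℓ % 4 = 3) (h : ¬ IsSquare (v : ZMod ℓ)) : ((v : ℕ) : ZMod ℓ) ^ ((ℓ - 1) / 2) ≠ 1 := by
  have h0 : ((v : ℕ) : ZMod ℓ) ≠ 0 := by
    intro h0
    rw [ZMod.natCast_eq_zero_iff] at h0
    exact hne ((Nat.prime_dvd_prime_iff_eq hℓ.out hv).1 h0)
  intro h1
  apply h
  rw [ZMod.euler_criterion ℓ h0]
  have : ℓ / 2 = (ℓ - 1) / 2 := by omega
  rw [this]
  exact h1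

/-- the subfield of degree `2`, with additional information -/
theorem exists_subfield_two {ℓ : ℕ} [hℓ : Fact ℓ.Prime] (M : Type*) [Field M]
    [NumberField M] [IsCyclotomicExtension {ℓ} ℚ M] (h4 : ℓ % 4 = 3) :
    ∃ L : IntermediateField ℚ M, IsGalois ℚ L ∧ finrank ℚ L = 2 ∧
      (∀ q : Nat.Primes, (q : ℕ) ≠ ℓ → ((q : ℕ) : ZMod ℓ) ^ ((ℓ - 1) / 2) ≠ 1 → TransAt L q) ∧
      (∀ σ : M ≃ₐ[ℚ] M, (∀ ζ : M, ζ ^ ℓ = 1 → σ ζ = ζ⁻¹) → ∃ x ∈ L, σ x ≠ x) := by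
  obtain ⟨k, hk⟩ : ∃ k, k = (ℓ - 1) / 2 := ⟨_, rfl⟩
  have hpk : 2 * k = ℓ - 1 := by omega
  have hkodd : Odd k := by
    rw [Nat.odd_iff]; omega
  rw [← hk]
  have hp : Fact (Nat.Prime 2) := ⟨Nat.prime_two⟩
  have : NeZero ℓ := ⟨hℓ.out.ne_zero⟩
  have hgal : IsGalois ℚ M := IsCyclotomicExtension.isGalois {ℓ} ℚ M
  let e := IsCyclotomicExtension.Rat.galEquivZMod ℓ M
  let H : Subgroup Gal(M/ℚ) := ((powMonoidHom k : (ZMod ℓ)ˣ →* (ZMod ℓ)ˣ).ker).comap
    (e : Gal(M/ℚ) →* (ZMod ℓ)ˣ)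
  have hcomm : ∀ a b : Gal(M/ℚ), a * b = b * a := by
    intro a b
    apply e.injective
    rw [map_mul, map_mul, mul_comm]
  have hH : H.Normal := by
    infer_instance
  have hk0 : k ≠ 0 := by
    rintro rfl
    have := hℓ.out.two_le
    omega
  have hcardH : Nat.card H = k := by
    have h1 : Nat.card H = Nat.card ((powMonoidHom k : (ZMod ℓ)ˣ →* (ZMod ℓ)ˣ).ker) :=
      Nat.card_congr (e.toEquiv.subtypeEquiv (fun a => Iff.rfl))
    rw [h1, IsCyclic.card_powMonoidHom_ker, Nat.card_eq_fintype_card, ZMod.card_units, ← hpk]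
    exact Nat.gcd_mul_left_left _ _
  have hfM : finrank ℚ M = 2 * k := by
    rw [IsCyclotomicExtension.finrank M (Polynomial.cyclotomic.irreducible_rat hℓ.out.pos),
      Nat.totient_prime hℓ.out, hpk]
  let L := IntermediateField.fixedField H
  have hLM : finrank L M = k := by
    rw [IntermediateField.finrank_fixedField_eq_card, hcardH]
  have hLp : finrank ℚ L = 2 := by
    have h1 := Module.finrank_mul_finrank ℚ L M
    rw [hLM, hfM] at h1
    exact Nat.eq_of_mul_eq_mul_right (Nat.pos_of_ne_zero hk0) h1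
  obtain ⟨ζ, hζ⟩ : ∃ ζ : M, IsPrimitiveRoot ζ ℓ :=
    IsCyclotomicExtension.exists_isPrimitiveRoot ℚ M (S := {ℓ}) rfl hℓ.out.ne_zero
  refine ⟨L, ?_, hLp, ?_, ?_⟩
  · exact IsGalois.of_fixedField_normal_subgroup H
  · intro q hq hqk
    obtain ⟨φ⟩ : Nonempty (Emb M q) := inferInstance
    obtain ⟨τ, hτ⟩ := exists_frob hq φ
    obtain ⟨σ, hσ⟩ := exists_comp_eq (K := ℚ) (ψ := φ) (ψ' := τ • φ) (Subsingleton.elim _ _)
    have hLgal : IsGalois ℚ L := IsGalois.of_fixedField_normal_subgroup H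
    have hσH : σ ∉ H := by
      intro hmem
      have h2 : (e σ) ^ k = 1 := hmem
      apply hqk
      have h3 : φ (σ ζ) = φ (ζ ^ (q : ℕ)) := by
        rw [← hτ ζ hζ.pow_eq_one]
        exact (congrArg (fun g : Emb M q => g ζ) hσ).symm
      have h4 : σ ζ = ζ ^ (q : ℕ) := φ.injective h3
      rw [IsCyclotomicExtension.Rat.galEquivZMod_apply_of_pow_eq ℓ M σ hζ.pow_eq_one] at h4
      have h5 := eq_natCast_of_pow_eq hζ h4
      rw [← h5, ← Units.val_pow_eq_pow_val]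
      exact congrArg (Units.val) h2
    have h5 : ∃ x : L, σ x ≠ x := by
      by_contra hcon
      push Not at hcon
      apply hσH
      rw [← IntermediateField.fixingSubgroup_fixedField H, IntermediateField.mem_fixingSubgroup_iff]
      exact fun x hx => hcon ⟨x, hx⟩
    obtain ⟨x, hx⟩ := h5
    refine transAt_of_move (τ := τ) (ψ := φ.comp (algebraMap L M)) hLp ?_
    intro hcon
    apply hx
    apply φ.injective
    have h6 := congrArg (fun g : Emb L q => g x) hcon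
    have h7 := congrArg (fun g : Emb M q => g (x : M)) hσ
    exact h7.symm.trans h6
  · intro σ hσ
    by_contra hcon
    push Not at hcon
    have h1 : σ ∈ H := by
      rw [← IntermediateField.fixingSubgroup_fixedField H, IntermediateField.mem_fixingSubgroup_iff]
      exact hcon
    have h2 : (e σ) ^ k = 1 := h1
    have hℓ1 : 1 < ℓ := hℓ.out.one_lt
    have h3 : σ ζ = ζ ^ (ℓ - 1) := by
      rw [hσ ζ hζ.pow_eq_one]
      refine inv_eq_of_mul_eq_one_right ?_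
      rw [← pow_succ', Nat.sub_add_cancel hℓ1.le, hζ.pow_eq_one]
    rw [IsCyclotomicExtension.Rat.galEquivZMod_apply_of_pow_eq ℓ M σ hζ.pow_eq_one] at h3
    have h5 := eq_natCast_of_pow_eq hζ h3
    have h6 : ((ℓ - 1 : ℕ) : ZMod ℓ) ^ k = 1 := by
      rw [← h5, ← Units.val_pow_eq_pow_val]
      exact congrArg (Units.val) h2
    rw [Nat.cast_sub hℓ1.le, CharP.cast_eq_zero, Nat.cast_one, zero_sub, hkodd.neg_one_pow] at h6
    have h7 : (2 : ZMod ℓ) = 0 := by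
      have := congrArg (fun t : ZMod ℓ => 1 - t) h6
      norm_num at this
      exact this
    have h8 : ((2 : ℕ) : ZMod ℓ) = 0 := by exact_mod_cast h7
    rw [ZMod.natCast_eq_zero_iff] at h8
    have h9 := Nat.le_of_dvd (by norm_num) h8
    omega

/-- reduction of a positive rational number to a natural number modulo squares -/
lemma normAt_iff_natAbs_pos {L : Type*} [Field L] [NumberField L]
    (hL : finrank ℚ L = 2) {x : ℚ} (hx : 0 < x) (q : Nat.Primes) :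
    NormAt L q (x : Cq q) ↔ NormAt L q ((x.num.natAbs * x.den : ℕ) : Cq q) := by
  have hden : (x.den : ℚ) ≠ 0 := by exact_mod_cast x.den_nz
  have h1 : ((x.num.natAbs * x.den : ℕ) : ℚ) = x * (x.den : ℚ) ^ 2 := by
    have hxx : x * x.den = x.num := by exact_mod_cast Rat.mul_den_eq_num x
    have h : x.num = x.num.natAbs := (Int.natAbs_of_nonneg (Rat.num_pos.2 hx).le).symm
    have h' : (x.num.natAbs : ℚ) = (x.num : ℚ) := by
      rw [h, Int.cast_natCast, Int.natAbs_natCast]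
    push_cast
    rw [h', ← hxx]
    ring
  have h2 : ((x.num.natAbs * x.den : ℕ) : Cq q) =
      (x : Cq q) * ((x.den : ℚ) : Cq q) ^ finrank ℚ L := by
    rw [hL, ← Rat.cast_pow, ← Rat.cast_mul, ← h1, Rat.cast_natCast]
  have h3 := normAt_pow (L := L) (q := q) hden
  rw [h2]
  constructor
  · intro h
    exact h.mul h3
  · intro h
    have h4 := h.mul h3.inv
    rwa [mul_inv_cancel_right₀] at h4
    exact pow_ne_zero _ (by exact_mod_cast hden)

/-- REC over `ℚ`, `p = 2` -/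
theorem rec_aux_two {ℓ : ℕ} [hℓ : Fact ℓ.Prime] (M : Type*) [Field M] {L : Type*} [Field L]
    [NumberField L] [IsGalois ℚ L]
    [NumberField M] [IsCyclotomicExtension {ℓ} ℚ M] [Algebra L M]
    (hL : finrank ℚ L = 2) {k : ℕ} (hpk : 2 * k = ℓ - 1) (hℓ2 : ℓ ≠ 2)
    (htrans : ∀ q : Nat.Primes, (q : ℕ) ≠ ℓ → ((q : ℕ) : ZMod ℓ) ^ k ≠ 1 → TransAt L q)
    (v₀ : Nat.Primes) (hv : (v₀ : ℕ) ≠ ℓ) (hv' : ((v₀ : ℕ) : ZMod ℓ) ^ k ≠ 1) {x : ℚ} (hx : 0 < x)
    (h : ∀ q : Nat.Primes, q ≠ v₀ → NormAt L q (x : Cq q)) : NormAt L v₀ (x : Cq v₀) := by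
  have hp : Fact (Nat.Prime 2) := ⟨Nat.prime_two⟩
  have hn : (x.num.natAbs * x.den : ℕ) ≠ 0 :=
    mul_ne_zero (Int.natAbs_ne_zero.2 (Rat.num_ne_zero.2 hx.ne')) x.den_nz
  rw [normAt_iff_natAbs_pos hL hx]
  set n : ℕ := (x.num.natAbs * x.den : ℕ) with hndef
  have h1 : 2 ∣ n.factorization v₀ :=
    dvd_factorization_of_normAt (ℓ := ℓ) M hL hpk hℓ2 htrans v₀ hv hv' hn
      (fun q hq => (normAt_iff_natAbs_pos hL hx q).1 (h q hq))
  obtain ⟨c, hc⟩ := h1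
  have h2 := normAt_of_valuation hL (htrans v₀ hv hv')
    (fun ψ z hz => unr_of_cyclo (ℓ := ℓ) M hv ψ z hz) (x := (n : ℚ_[(v₀ : ℕ)]))
    (by exact_mod_cast hn) (m := -c) ?_
  · simpa using h2
  · rw [Padic.norm_eq_zpow_neg_valuation (by exact_mod_cast hn), Padic.valuation_natCast,
      ← Nat.factorization_def n v₀.2, hc]
    congr 1
    push_cast
    ring

/-- (REC over `ℚ`), imaginary quadratic case -/
theorem exists_rec_field_two (v₀ : Nat.Primes) :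
    ∃ (L : IntermediateField ℚ (AlgebraicClosure ℚ)) (_ : NumberField L),
      IsGalois ℚ L ∧ finrank ℚ L = 2 ∧ TransAt L v₀ ∧
      (∀ (c : AlgebraicClosure ℚ ≃ₐ[ℚ] AlgebraicClosure ℚ) (ι : AlgebraicClosure ℚ →+* ℂ),
        (∀ x, ι (c x) = conj (ι x)) → ∃ x ∈ L, c x ≠ x) ∧
      ∀ x : ℚ, 0 < x → (∀ q : Nat.Primes, q ≠ v₀ → NormAt L q (x : Cq q)) →
        NormAt L v₀ (x : Cq v₀) := by
  obtain ⟨ℓ, hℓ, hℓv, h4, hns⟩ := exists_aux_prime_two v₀.2
  have : Fact ℓ.Prime := ⟨hℓ⟩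
  have : NeZero ℓ := ⟨hℓ.ne_zero⟩
  have hk := pow_ne_one_of_not_isSquare hℓv v₀.2 h4 hns
  have hpk : 2 * ((ℓ - 1) / 2) = ℓ - 1 := by omega
  have hℓ2 : ℓ ≠ 2 := by omega
  let M := CyclotomicField ℓ ℚ
  have hM : IsCyclotomicExtension {ℓ} ℚ M := isCyclotomic_rat ℓ _
  have hMgal : IsGalois ℚ M := IsCyclotomicExtension.isGalois {ℓ} ℚ M
  obtain ⟨L₀, hgal, hfin, htrans, hconj⟩ := exists_subfield_two (ℓ := ℓ) M h4
  let ι₀ : M →ₐ[ℚ] AlgebraicClosure ℚ := IsAlgClosed.lift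
  let L : IntermediateField ℚ (AlgebraicClosure ℚ) := L₀.map ι₀
  let e : L₀ ≃ₐ[ℚ] L := L₀.equivMap ι₀
  have hfd : FiniteDimensional ℚ L := e.toLinearEquiv.finiteDimensional
  have hnf : NumberField L := ⟨⟩
  have hv0 : TransAt L₀ v₀ := htrans v₀ hℓv.symm hk
  refine ⟨L, hnf, IsGalois.of_algEquiv e, ?_, hv0.congr e.toRingEquiv, ?_, ?_⟩
  · rw [← hfin]
    exact e.toLinearEquiv.finrank_eq.symm
  · intro c ι hc
    obtain ⟨σ, hσ⟩ : ∃ σ : M ≃ₐ[ℚ] M, ∀ x, c (ι₀ x) = ι₀ (σ x) :=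
      exists_comp_eq' (K := ℚ) (L := M) (ι₀ : M →+* AlgebraicClosure ℚ)
        ((c : AlgebraicClosure ℚ →+* AlgebraicClosure ℚ).comp (ι₀ : M →+* AlgebraicClosure ℚ))
        (Subsingleton.elim _ _)
    obtain ⟨x, hx, hx'⟩ := hconj σ (fun ζ hζ => by
      apply (ι₀ : M →+* AlgebraicClosure ℚ).injective
      apply ι.injective
      show ι (ι₀ (σ ζ)) = ι (ι₀ ζ⁻¹)
      rw [← hσ, hc, map_inv₀, map_inv₀]
      have h1 : (ι (ι₀ ζ)) ^ ℓ = 1 := by
        rw [← map_pow, ← map_pow, hζ, map_one, map_one]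
      have h2 : ‖ι (ι₀ ζ)‖ = 1 := Complex.norm_eq_one_of_pow_eq_one h1 hℓ.ne_zero
      exact (Complex.inv_eq_conj h2).symm)
    refine ⟨ι₀ x, ⟨x, hx, rfl⟩, fun h => hx' ?_⟩
    apply (ι₀ : M →+* AlgebraicClosure ℚ).injective
    exact (hσ x).symm.trans h
  · intro x hx h
    exact (rec_aux_two (ℓ := ℓ) M hfin hpk hℓ2 htrans v₀ hℓv.symm hk hx
      (fun q hq => (h q hq).congr e.toRingEquiv.symm)).congr e.toRingEquiv

end Fermat.Agent.CFR
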