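import Fermat.Agent.ABHN.Final
import Fermat.Agent.CFR.Two
import Fermat.Agent.PTC.RecipFinal

/-!
# Totally complex fixed fields, and ABHN for them
-/

set_option autoImplicit false

open scoped ComplexConjugate

namespace Fermat.Agent.CFR

open Fermat.Agent.PT Fermat.Agent.PTLocal Fermat.Agent.PTGlob Fermat.Agent.CFT
  Fermat.Agent.ABHN IntermediateField

-- the frozen algebra structure on `ℚ̄`, and the induced ones on subfields
attribute [-instance] DivisionRing.toRatAlgebra
noncomputable local instance instAlgebraQbT : Algebra ℚ (AlgebraicClosure ℚ) :=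
  DivisionRing.toRatAlgebra
attribute [local instance] isGalois_qbar

/-- the fixed field of an open subgroup without complex conjugations is totally complex. -/
theorem isTotallyComplex_fixedField (U : Subgroup PTC.GQ) (hU : IsOpenSub PTC.allL U)
    (c : PTC.GQ) (ι : AlgebraicClosure ℚ →+* ℂ) (hc : ∀ x, ι (c x) = conj (ι x))
    (h : ∀ g : PTC.GQ, g⁻¹ * c * g ∉ U) :
    NumberField.IsTotallyComplex (IntermediateField.fixedField U) := by
  constructor
  intro w
  rw [← NumberField.InfinitePlace.not_isReal_iff_isComplex, NumberField.InfinitePlace.isReal_iff]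
  intro hreal
  set φ : fixedField U →+* ℂ := w.embedding with hφ
  -- extend `φ` to `ℚ̄`
  obtain ⟨φ', hφ'⟩ : ∃ φ' : AlgebraicClosure ℚ →+* ℂ, ∀ x : fixedField U,
      φ' (x : AlgebraicClosure ℚ) = φ x := by
    letI : Algebra (fixedField U) ℂ := φ.toAlgebra
    haveI : Algebra.IsAlgebraic (fixedField U) (AlgebraicClosure ℚ) := inferInstance
    let f : AlgebraicClosure ℚ →ₐ[fixedField U] ℂ := IsAlgClosed.lift
    exact ⟨f, fun x => f.commutes x⟩
  obtain ⟨g, hg⟩ := exists_comp_eq' (K := ℚ) (L := AlgebraicClosure ℚ) ι φ'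
    (Subsingleton.elim _ _)
  apply h g
  have h1 : g⁻¹ * c * g ∈ (fixedField U).fixingSubgroup := by
    rw [IntermediateField.mem_fixingSubgroup_iff]
    intro x hx
    have h2 := NumberField.ComplexEmbedding.isReal_iff.1 hreal
    have h3 : conj (φ ⟨x, hx⟩) = φ ⟨x, hx⟩ := by
      have := congrArg (fun f : fixedField U →+* ℂ => f ⟨x, hx⟩) h2
      exact this
    rw [← hφ' ⟨x, hx⟩] at h3
    have h4 : ι (c (g x)) = ι (g x) := by
      rw [hc, ← hg]; exact h3
    have h5 : c (g x) = g x := ι.injective h4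
    show g⁻¹ (c (g x)) = x
    rw [h5]
    exact g.symm_apply_apply x
  obtain ⟨F, hF, hle⟩ := PTC.isOpenSub_allL_iff.1 hU
  -- `U` is closed
  have hcl : IsClosed (U : Set PTC.GQ) := by
    have ho : IsOpen (U : Set PTC.GQ) :=
      Subgroup.isOpen_mono hle (IntermediateField.fixingSubgroup_isOpen F)
    exact (⟨U, ho⟩ : OpenSubgroup PTC.GQ).isClosed
  have h6 := InfiniteGalois.fixingSubgroup_fixedField (k := ℚ) (K := AlgebraicClosure ℚ)
    ⟨U, hcl⟩
  have h7 : (fixedField U).fixingSubgroup = U := h6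
  rwa [h7] at h1

variable {p : ℕ} [hp : Fact p.Prime]

/-- **ABHN** for `K` totally complex, semilocal form. -/
theorem abhn_coset_tc (U : Subgroup PTC.GQ) (hU : IsOpenSub PTC.allL U)
    (htc : NumberField.IsTotallyComplex (IntermediateField.fixedField U)) (n : ℕ)
    (β : H2 PTC.allL (mapAct (cosetAct U) (galAct ℚ (AlgebraicClosure ℚ))))
    (hβ : p ^ n • β = 0)
    (hloc : ∀ q : Nat.Primes, (ABHN.mapPair (cosetAct U) (sysAll.loc q)).h2 β = 0) : β = 0 := by
  obtain ⟨ζ, hζ⟩ := PTC.exists_zeta p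
  have hfi : U.FiniteIndex := hU.finiteIndex
  have hX : Finite (PTC.GQ ⧸ U) := inferInstance
  refine sysAll.abhn_semi_tc hζ Function.surjective_id (cosetAct U) (levelTrivial_cosetAct hU)
    ((1 : PTC.GQ) : PTC.GQ ⧸ U) (isTrans_cosetAct U) U (stab_cosetAct U) hU ?_ n β hβ hloc
  have h1 : (lgAll.sub U hU).E = IntermediateField.fixedField U := by
    unfold LGal.E
    congr 1
    ext g
    constructor
    · rintro ⟨x, rfl⟩
      exact x.2
    · intro hg
      exact ⟨⟨g, hg⟩, rfl⟩
  rw [h1]
  exact htc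

end Fermat.Agent.CFR
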