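import Fermat.Agent.CFR.Procyc
import Fermat.Agent.QuadRep.RootsOfUnity

/-!
# Everywhere unramified characters: local components
-/

set_option autoImplicit false

open NumberField IsDedekindDomain Module
open scoped Pointwise

namespace Fermat.Agent.CFR

open Fermat.Agent.PT Fermat.Agent.CFT Fermat.Agent.CFT6 Fermat.Agent.PTLocal Fermat.Agent.PTC
  Fermat.Agent.ABHN Fermat.Agent.Frob

attribute [local instance] isGalois_qbar

section cyc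

variable {p : ℕ} [hp : Fact p.Prime] {ℓ : ℕ} [hℓ : Fact ℓ.Prime]

lemma chi_frob {q : Nat.Primes} (hq : (q : ℕ) ≠ ℓ) {σ : PTC.GQ}
    (hσ : (padicPlace (q : ℕ)).IsFrobeniusAt σ q) :
    ((chi ℓ σ : (ZMod ℓ)ˣ) : ZMod ℓ) = ((q : ℕ) : ZMod ℓ) := by
  have : NeZero ℓ := ⟨hℓ.out.ne_zero⟩
  obtain ⟨ζ, hζ⟩ := HasEnoughRootsOfUnity.exists_primitiveRoot (AlgebraicClosure ℚ) ℓ
  refine chi_eq σ hζ ?_
  exact QuadRep.frobenius_smul_root q.2 (liesOver_padic (q : ℕ)) hσ hℓ.out.pos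
    ((Nat.coprime_primes hℓ.out q.2).2 (Ne.symm hq)) ζ hζ.pow_eq_one

lemma inertia_le_ker_chi {q : Nat.Primes} (hq : (q : ℕ) ≠ ℓ) :
    (padicPlace (q : ℕ)).inertiaSubgroupIn ℚ ≤ (chi ℓ).ker := by
  intro σ hσ
  rw [MonoidHom.mem_ker, chi_eq_one_iff]
  intro t ht
  exact QuadRep.inertia_smul_root q.2 (liesOver_padic (q : ℕ)) hσ hℓ.out.pos
    ((Nat.coprime_primes hℓ.out q.2).2 (Ne.symm hq)) t ht

lemma cyCh_eq_of_mem {lam : (ZMod ℓ)ˣ →* Multiplicative (ZMod p)} {σ τ : PTC.GQ}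
    (h : σ⁻¹ * τ ∈ (chi ℓ).ker) : (cyCh lam).1 τ = (cyCh lam).1 σ := by
  have h1 : chi ℓ τ = chi ℓ σ := by
    rw [MonoidHom.mem_ker, map_mul, map_inv, inv_mul_eq_one] at h
    exact h.symm
  show Multiplicative.toAdd (lam (chi ℓ τ)) = Multiplicative.toAdd (lam (chi ℓ σ))
  rw [h1]

end cyc

/-- normal subgroups containing a level are levels -/
lemma mem_allL_of_le {N N₀ : Subgroup PTC.GQ} (hN : N.Normal) (hN₀ : N₀ ∈ allL.carrier)
    (hle : N₀ ≤ N) : N ∈ allL.carrier := by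
  obtain ⟨hn, F, hF, rfl⟩ := hN₀
  have hcl : IsClosed (N : Set PTC.GQ) := by
    have ho : IsOpen (N : Set PTC.GQ) :=
      Subgroup.isOpen_mono hle (IntermediateField.fixingSubgroup_isOpen F)
    exact (⟨N, ho⟩ : OpenSubgroup PTC.GQ).isClosed
  have h6 := InfiniteGalois.fixingSubgroup_fixedField (k := ℚ) (K := AlgebraicClosure ℚ) ⟨N, hcl⟩
  refine ⟨hN, IntermediateField.fixedField N, ?_, h6.symm⟩
  have h7 : IntermediateField.fixedField N ≤ F := by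
    rw [← InfiniteGalois.fixedField_fixingSubgroup F]
    exact IntermediateField.fixedField_antitone hle
  exact FiniteDimensional.of_injective (IntermediateField.inclusion h7).toLinearMap
      (IntermediateField.inclusion h7).injective

lemma inf_mem_allL {N N' : Subgroup PTC.GQ} (hN : N ∈ allL.carrier) (hN' : N' ∈ allL.carrier) :
    N ⊓ N' ∈ allL.carrier := by
  obtain ⟨M, hM, h1, h2⟩ := allL.directed' N hN N' hN'
  have := allL.normal' N hN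
  have := allL.normal' N' hN'
  exact mem_allL_of_le (Subgroup.normal_inf_normal _ _) hM (le_inf h1 h2)

variable {p : ℕ} [hp : Fact p.Prime]

/-- proportionality of characters factoring through an unramified level -/
theorem chi_prop (q : Nat.Primes) {N : Subgroup PTC.GQ} (hN : N ∈ allL.carrier)
    (hI : (padicPlace (q : ℕ)).inertiaSubgroupIn ℚ ≤ N) {σ : PTC.GQ}
    (hσ : (padicPlace (q : ℕ)).IsFrobeniusAt σ q) {f f' : Chi p (Lvq q)}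
    (hf : ∀ γ, rq q γ ∈ N → f.1 γ = 0) (hf' : ∀ γ, rq q γ ∈ N → f'.1 γ = 0) {c c' : ZMod p}
    (hc : ∀ γ, σ⁻¹ * rq q γ ∈ N → f.1 γ = c) (hc' : ∀ γ, σ⁻¹ * rq q γ ∈ N → f'.1 γ = c')
    (hc0 : c' ≠ 0) (γ : Gq q) : f.1 γ = c * c'⁻¹ * f'.1 γ := by
  obtain ⟨g, hg⟩ := exists_loc_level q hN hσ.mem_decompositionSubgroup
  obtain ⟨j, hj⟩ := procyc_level q hN hI hσ hg γ
  have key : ∀ f : Chi p (Lvq q), (∀ γ, rq q γ ∈ N → f.1 γ = 0) → f.1 γ = j * f.1 g := by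
    intro f hf
    have hpow : ∀ n : ℕ, f.1 (g ^ n) = n * f.1 g := by
      intro n
      induction n with
      | zero =>
        rw [pow_zero, Nat.cast_zero, zero_mul]
        exact chi_one f
      | succ n ih =>
        rw [pow_succ]
        erw [chi_mul f]
        rw [ih]
        push_cast
        ring
    have h1 : f.1 ((g ^ j)⁻¹ * γ) = 0 := hf _ hj
    have h2 : f.1 ((g ^ j)⁻¹ * γ) = - f.1 (g ^ j) + f.1 γ := by
      have h3 := chi_mul f (g ^ j)⁻¹ γ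
      have h4 := chi_inv f (g ^ j)
      exact h3.trans (congrArg (· + f.1 γ) h4)
    rw [h1, hpow] at h2
    linear_combination -h2
  rw [key f hf, key f' hf', hc g hg, hc' g hg]
  field_simp

section theta

variable {X : Type} {ξ : PTC.GQ →* Equiv.Perm X} {x₀ : X}

/-- local component of a character of a stabiliser at a split place -/
noncomputable def kap (ξ : PTC.GQ →* Equiv.Perm X) (x₀ : X) (q : Nat.Primes)
    (hs : ∀ γ x, ξ (rq q γ) x = x) (g : PTC.GQ) :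
    PairHom (allL.sub (stab ξ x₀)) (resAct (galAct ℚ Qb) (stab ξ x₀)) (Lvq q) (sq q) where
  r := (cj (rq q) g).codRestrict (stab ξ x₀) (fun γ => by
    show ξ (g⁻¹ * rq q γ * g) x₀ = x₀
    rw [map_mul, map_mul, Equiv.Perm.mul_apply, Equiv.Perm.mul_apply, hs,
      ← Equiv.Perm.mul_apply, ← map_mul, inv_mul_cancel, map_one]
    rfl)
  f := (embU (iq q)).comp (galAct ℚ Qb g)
  lev := by
    rintro _ ⟨N, hN, rfl⟩
    obtain ⟨N', hN', h⟩ := sysAll.cj_lev q g N hN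
    exact ⟨N', hN', fun γ hγ => h γ hγ⟩
  comm γ a := by
    apply Additive.toMul.injective
    apply Units.ext
    show iq q (g ((g⁻¹ * rq q γ * g) ((Additive.toMul a : Qbˣ) : Qb))) =
      γ (iq q (g ((Additive.toMul a : Qbˣ) : Qb)))
    rw [← iq_local]
    congr 1
    have e : g * (g⁻¹ * rq q γ * g) = rq q γ * g := by group
    exact congrArg (fun s : PTC.GQ => s ((Additive.toMul a : Qbˣ) : Qb)) e

variable (θ : Chi p (allL.sub (stab ξ x₀)))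

/-- local component of `θ` -/
noncomputable def thq (q : Nat.Primes) (hs : ∀ γ x, ξ (rq q γ) x = x) (g : PTC.GQ) :
    Chi p (Lvq q) := PTGlob.chiPull (kap ξ x₀ q hs g) θ

lemma thq_apply (q : Nat.Primes) (hs : ∀ γ x, ξ (rq q γ) x = x) (g : PTC.GQ) (γ : Gq q)
    (h : g⁻¹ * rq q γ * g ∈ stab ξ x₀) : (thq θ q hs g).1 γ = θ.1 ⟨g⁻¹ * rq q γ * g, h⟩ := rfl

/-- the largest normal level on which everything is trivial -/
def thN : Subgroup PTC.GQ where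
  carrier := {σ | (∀ x, ξ σ x = x) ∧ ∀ g, ∀ h : g⁻¹ * σ * g ∈ stab ξ x₀,
    θ.1 ⟨g⁻¹ * σ * g, h⟩ = 0}
  one_mem' := by
    refine ⟨fun x => by rw [map_one]; rfl, fun g h => ?_⟩
    have h1 : (⟨g⁻¹ * 1 * g, h⟩ : stab ξ x₀) = 1 := Subtype.ext (by
      show g⁻¹ * 1 * g = 1
      group)
    rw [h1]
    exact chi_one θ
  mul_mem' := by
    rintro a b ⟨ha, ha'⟩ ⟨hb, hb'⟩
    refine ⟨fun x => by rw [map_mul, Equiv.Perm.mul_apply, hb, ha], fun g h => ?_⟩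
    have e : ∀ s : PTC.GQ, (∀ x, ξ s x = x) → g⁻¹ * s * g ∈ stab ξ x₀ := by
      intro s hs
      show ξ (g⁻¹ * s * g) x₀ = x₀
      rw [map_mul, map_mul, Equiv.Perm.mul_apply, Equiv.Perm.mul_apply, hs,
        ← Equiv.Perm.mul_apply, ← map_mul, inv_mul_cancel, map_one]
      rfl
    have h1 : (⟨g⁻¹ * (a * b) * g, h⟩ : stab ξ x₀) =
        ⟨g⁻¹ * a * g, e a ha⟩ * ⟨g⁻¹ * b * g, e b hb⟩ := Subtype.ext (by
          show g⁻¹ * (a * b) * g = g⁻¹ * a * g * (g⁻¹ * b * g)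
          group)
    rw [h1]
    have h2 := chi_mul θ ⟨g⁻¹ * a * g, e a ha⟩ ⟨g⁻¹ * b * g, e b hb⟩
    refine h2.trans ?_
    have h3 := ha' g (e a ha)
    have h4 := hb' g (e b hb)
    rw [h3, h4, add_zero]
  inv_mem' := by
    rintro a ⟨ha, ha'⟩
    have hinv : ∀ x, ξ a⁻¹ x = x := fun x => by
      rw [map_inv, Equiv.Perm.inv_eq_iff_eq, ha]
    refine ⟨hinv, fun g h => ?_⟩
    have e : g⁻¹ * a * g ∈ stab ξ x₀ := by
      show ξ (g⁻¹ * a * g) x₀ = x₀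
      rw [map_mul, map_mul, Equiv.Perm.mul_apply, Equiv.Perm.mul_apply, ha,
        ← Equiv.Perm.mul_apply, ← map_mul, inv_mul_cancel, map_one]
      rfl
    have h1 : (⟨g⁻¹ * a⁻¹ * g, h⟩ : stab ξ x₀) = (⟨g⁻¹ * a * g, e⟩)⁻¹ := Subtype.ext (by
      show g⁻¹ * a⁻¹ * g = (g⁻¹ * a * g)⁻¹
      group)
    rw [h1]
    have h2 := chi_inv θ ⟨g⁻¹ * a * g, e⟩
    refine h2.trans ?_
    have h3 := ha' g e
    rw [h3, neg_zero]

lemma mem_thN {σ : PTC.GQ} : σ ∈ thN θ ↔ (∀ x, ξ σ x = x) ∧ ∀ g,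
    ∀ h : g⁻¹ * σ * g ∈ stab ξ x₀, θ.1 ⟨g⁻¹ * σ * g, h⟩ = 0 := Iff.rfl

instance thN_normal : (thN θ).Normal := by
  constructor
  rintro n ⟨hn, hn'⟩ t
  refine ⟨fun x => ?_, fun g h => ?_⟩
  · rw [map_mul, map_mul, Equiv.Perm.mul_apply, Equiv.Perm.mul_apply, hn,
      ← Equiv.Perm.mul_apply, ← map_mul, mul_inv_cancel, map_one]
    rfl
  · have e : g⁻¹ * (t * n * t⁻¹) * g = (t⁻¹ * g)⁻¹ * n * (t⁻¹ * g) := by group
    have h' : (t⁻¹ * g)⁻¹ * n * (t⁻¹ * g) ∈ stab ξ x₀ := e ▸ h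
    have h1 : (⟨g⁻¹ * (t * n * t⁻¹) * g, h⟩ : stab ξ x₀) = ⟨_, h'⟩ := Subtype.ext e
    rw [h1]
    exact hn' (t⁻¹ * g) h'

lemma thN_mem (hξ : LevelTrivial allL ξ) : thN θ ∈ allL.carrier := by
  obtain ⟨_, ⟨N, hN, rfl⟩, hθ⟩ := θ.2.1
  obtain ⟨N', hN', hx⟩ := hξ
  obtain ⟨M, hM, h1, h2⟩ := allL.directed' N hN N' hN'
  refine mem_allL_of_le inferInstance hM (fun σ hσ => ⟨fun x => hx σ (h2 hσ) x, fun g h => ?_⟩)
  have h3 : g⁻¹ * σ * g ∈ M := by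
    have := (allL.normal' M hM).conj_mem σ hσ g⁻¹
    rwa [inv_inv] at this
  have h4 := hθ 1 ⟨g⁻¹ * σ * g, h⟩ (h1 h3)
  rw [one_mul] at h4
  exact h4.trans (chi_one θ)

/-- unramifiedness -/
def Unr : Prop := ∀ (q : Nat.Primes) (g : PTC.GQ),
  ∀ σ ∈ (padicPlace (q : ℕ)).inertiaSubgroupIn ℚ, ∀ h : g⁻¹ * σ * g ∈ stab ξ x₀,
    θ.1 ⟨g⁻¹ * σ * g, h⟩ = 0

variable {θ}

lemma inertia_decomp {q : Nat.Primes} {σ : PTC.GQ}
    (hσ : σ ∈ (padicPlace (q : ℕ)).inertiaSubgroupIn ℚ) :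
    σ • padicPlace (q : ℕ) = padicPlace (q : ℕ) := ((mem_inertia_iff _ _).1 hσ).1

lemma act_trivial_of_split (hξ : LevelTrivial allL ξ) {q : Nat.Primes}
    (hs : ∀ γ x, ξ (rq q γ) x = x) {σ : PTC.GQ}
    (hσ : σ • padicPlace (q : ℕ) = padicPlace (q : ℕ)) (x : X) : ξ σ x = x := by
  obtain ⟨N, hN, hx⟩ := hξ
  obtain ⟨g, hg⟩ := exists_loc_level q hN hσ
  have h1 := hx _ hg x
  rw [map_mul, Equiv.Perm.mul_apply, hs, map_inv, Equiv.Perm.inv_eq_iff_eq] at h1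
  exact h1.symm

lemma inertia_le_thN (hξ : LevelTrivial allL ξ) (hθ : Unr θ) {q : Nat.Primes}
    (hs : ∀ γ x, ξ (rq q γ) x = x) :
    (padicPlace (q : ℕ)).inertiaSubgroupIn ℚ ≤ thN θ := fun σ hσ =>
  ⟨act_trivial_of_split hξ hs (inertia_decomp hσ), fun g h => hθ q g σ hσ h⟩

lemma conj_mem_stab (hξ : LevelTrivial allL ξ) {q : Nat.Primes}
    (hs : ∀ γ x, ξ (rq q γ) x = x) {σ : PTC.GQ}
    (hσ : σ • padicPlace (q : ℕ) = padicPlace (q : ℕ)) (g : PTC.GQ) :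
    g⁻¹ * σ * g ∈ stab ξ x₀ := by
  show ξ (g⁻¹ * σ * g) x₀ = x₀
  rw [map_mul, map_mul, Equiv.Perm.mul_apply, Equiv.Perm.mul_apply,
    act_trivial_of_split hξ hs hσ, ← Equiv.Perm.mul_apply, ← map_mul, inv_mul_cancel, map_one]
  rfl

/-- **local components of `θ` are multiples of the local component of a cyclotomic character.** -/
theorem thq_prop (hξ : LevelTrivial allL ξ) (hθ : Unr θ) {q : Nat.Primes}
    (hs : ∀ γ x, ξ (rq q γ) x = x) (g : PTC.GQ) {σ : PTC.GQ}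
    (hσ : (padicPlace (q : ℕ)).IsFrobeniusAt σ q) (hm : g⁻¹ * σ * g ∈ stab ξ x₀)
    {ℓ : ℕ} [hℓ : Fact ℓ.Prime] (hq : (q : ℕ) ≠ ℓ) {lam : (ZMod ℓ)ˣ →* Multiplicative (ZMod p)}
    (h0 : (cyCh lam).1 σ ≠ 0) (γ : Gq q) :
    (thq θ q hs g).1 γ = θ.1 ⟨g⁻¹ * σ * g, hm⟩ * ((cyCh lam).1 σ)⁻¹ * (chq (cyCh lam) q).1 γ := by
  have hN : thN θ ⊓ (chi ℓ).ker ∈ allL.carrier := inf_mem_allL (thN_mem θ hξ) (ker_chi_level ℓ)
  refine chi_prop q hN (le_inf (inertia_le_thN hξ hθ hs) (inertia_le_ker_chi hq)) hσ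
    (fun γ hγ => ?_) (fun γ hγ => ?_) (fun γ hγ => ?_) (fun γ hγ => ?_) h0 γ
  · exact hγ.1.2 g _
  · rw [chq_apply]
    have h1 : chi ℓ (ExtCitation.primeLocalToGlobal q γ) = 1 := hγ.2
    show Multiplicative.toAdd (lam (chi ℓ (ExtCitation.primeLocalToGlobal q γ))) = 0
    rw [h1, map_one, toAdd_one]
  · -- `θ (g⁻¹ r γ g) = θ (g⁻¹ σ g)`
    have h1 : g⁻¹ * (σ⁻¹ * rq q γ) * g ∈ stab ξ x₀ := by
      have h2 := (stab ξ x₀).mul_mem ((stab ξ x₀).inv_mem hm)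
        ((kap ξ x₀ q hs g).r γ).2
      have h3 : (g⁻¹ * σ * g)⁻¹ * (g⁻¹ * rq q γ * g) = g⁻¹ * (σ⁻¹ * rq q γ) * g := by group
      rw [← h3]
      exact h2
    have h4 := hγ.1.2 g h1
    have h5 : (kap ξ x₀ q hs g).r γ = ⟨g⁻¹ * σ * g, hm⟩ * ⟨_, h1⟩ := Subtype.ext (by
      show g⁻¹ * rq q γ * g = g⁻¹ * σ * g * (g⁻¹ * (σ⁻¹ * rq q γ) * g)
      group)
    show θ.1 ((kap ξ x₀ q hs g).r γ) = _
    rw [h5]
    refine (chi_mul θ _ _).trans ?_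
    rw [h4, add_zero]
  · exact cyCh_eq_of_mem hγ.2

end theta

end Fermat.Agent.CFR
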