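import Fermat.Agent.CFR.Cor
import Fermat.Agent.CFR.AuxPrimes

/-!
# Local classes and valuations
-/

set_option autoImplicit false

open NumberField IsDedekindDomain Module
open scoped Pointwise

namespace Fermat.Agent.CFR

open Fermat.Agent.PT Fermat.Agent.CFT Fermat.Agent.CFT6 Fermat.Agent.PTLocal Fermat.Agent.PTC
  Fermat.Agent.ABHN Fermat.Agent.Frob

attribute [local instance] isGalois_qbar

variable {p : ℕ} [hp : Fact p.Prime]

section vl

variable {q : Nat.Primes}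

lemma vl_sub (a b : H0 (sq q)) : vl (a - b) = vl a / vl b := by
  show (((Additive.toMul (a : Additive (Cq q)ˣ)) / (Additive.toMul (b : Additive (Cq q)ˣ)) :
    (Cq q)ˣ) : Cq q) = _
  rw [Units.val_div_eq_div_val]
  rfl

lemma vl_zsmul (n : ℤ) (a : H0 (sq q)) : vl (n • a) = vl a ^ n := by
  show (((Additive.toMul (a : Additive (Cq q)ˣ)) ^ n : (Cq q)ˣ) : Cq q) = _
  rw [Units.val_zpow_eq_zpow_val]
  rfl

lemma vl_ne_zero (a : H0 (sq q)) : vl a ≠ 0 :=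
  (Additive.toMul (a : Additive (Cq q)ˣ) : (Cq q)ˣ).ne_zero

end vl

/-- the rational number `m` in `H⁰` -/
noncomputable def ratEl (m : ℕ) (hm : m ≠ 0) : H0 (galAct ℚ Qb) :=
  ⟨Additive.ofMul (Units.mk0 (m : Qb) (by exact_mod_cast hm)), by
    rw [mem_H0]
    intro g
    apply Additive.toMul.injective
    apply Units.ext
    show g (m : Qb) = (m : Qb)
    rw [map_natCast]⟩

lemma vl_ratEl (q : Nat.Primes) (m : ℕ) (hm : m ≠ 0) :
    vl ((lc q).h0 (ratEl m hm)) = (m : Cq q) := by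
  show iq q (m : Qb) = (m : Cq q)
  rw [map_natCast]

/-- the uniformiser -/
noncomputable def qel (q : Nat.Primes) : H0 (sq q) := (lc q).h0 (ratEl (q : ℕ) q.2.ne_zero)

lemma vl_qel (q : Nat.Primes) : vl (qel q) = ((q : ℕ) : Cq q) := vl_ratEl q _ _

lemma norm_qel (q : Nat.Primes) : ‖vl (qel q)‖ = ((q : ℕ) : ℝ)⁻¹ := by
  rw [vl_qel, norm_natCast_q]

variable {ℓ : ℕ} [hℓ : Fact ℓ.Prime] {lam : (ZMod ℓ)ˣ →* Multiplicative (ZMod p)}

/-- the local symbol of a cyclotomic character depends only on the valuation -/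
theorem cyCh_cup_eq (hlam : ∃ u, lam u ≠ 1) (q : Nat.Primes) (hq : (q : ℕ) ≠ ℓ)
    (b : H0 (sq q)) {n : ℤ} (hb : ‖vl b‖ = ((q : ℕ) : ℝ) ^ (-n)) :
    cycδ (lq q) (chq (cyCh lam) q) b =
      ((n : ZMod p)).val • cycδ (lq q) (chq (cyCh lam) q) (qel q) := by
  have hq0 : ((q : ℕ) : ℝ) ≠ 0 := by exact_mod_cast q.2.ne_zero
  have h1 : cycδ (lq q) (chq (cyCh lam) q) (b - n • qel q) = 0 := by
    refine cyCh_cup_eq_zero (p := p) hlam q hq (b - n • qel q) (m := 0) ?_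
    rw [vl_sub, vl_zsmul, norm_div, norm_zpow, norm_qel, hb, zero_mul, zpow_zero, inv_zpow,
      zpow_neg, div_self]
    exact inv_ne_zero (zpow_ne_zero _ hq0)
  rw [map_sub, map_zsmul, sub_eq_zero] at h1
  rw [h1, zsmul_eq_val (p_nsmul_cycδ _ _ _)]

/-- the local symbol of the uniformiser is non-trivial -/
theorem cyCh_cup_qel_ne_zero (hlam : ∃ u, lam u ≠ 1) (q : Nat.Primes) (hq : (q : ℕ) ≠ ℓ)
    (h0 : chq (cyCh lam) q ≠ 0) : cycδ (lq q) (chq (cyCh lam) q) (qel q) ≠ 0 := by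
  intro h
  obtain ⟨m, hm⟩ := exists_zpow_of_cyCh_cup hlam q hq h0 (qel q) h
  rw [norm_qel, ← zpow_neg_one] at hm
  have hq1 : (1 : ℝ) < ((q : ℕ) : ℝ) := by exact_mod_cast q.2.one_lt
  have h3 : (-1 : ℤ) = m * p := zpow_right_injective₀ (by linarith) hq1.ne' hm
  have h4 : (p : ℤ) ∣ 1 := ⟨-m, by linarith⟩
  have h5 := Int.eq_one_of_dvd_one (by positivity) h4
  exact hp.out.one_lt.ne' (by exact_mod_cast h5)

/-- at other primes the symbol of a unit is trivial -/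
theorem cyCh_cup_unit (hlam : ∃ u, lam u ≠ 1) (q : Nat.Primes) (hq : (q : ℕ) ≠ ℓ)
    (b : H0 (sq q)) (hb : ‖vl b‖ = 1) : cycδ (lq q) (chq (cyCh lam) q) b = 0 :=
  cyCh_cup_eq_zero (p := p) hlam q hq b (m := 0) (by rw [hb, zero_mul, zpow_zero])

/-- a Frobenius element -/
noncomputable def frob (q : Nat.Primes) : PTC.GQ :=
  (exists_isFrobeniusAt (L := Qb) q.2 (liesOver_padic (q : ℕ))).choose

lemma frob_spec (q : Nat.Primes) : (padicPlace (q : ℕ)).IsFrobeniusAt (frob q) q :=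
  (exists_isFrobeniusAt (L := Qb) q.2 (liesOver_padic (q : ℕ))).choose_spec

lemma chq_ne_zero {q : Nat.Primes} (h : (cyCh lam).1 (frob q) ≠ 0) : chq (cyCh lam) q ≠ 0 := by
  obtain ⟨g, hg⟩ := exists_loc_level q (ker_chi_level ℓ) (frob_spec q).mem_decompositionSubgroup
  intro h0
  apply h
  rw [← cyCh_eq_of_mem (lam := lam) hg]
  have h1 : (chq (cyCh lam) q).1 g = 0 := by rw [h0]; rfl
  exact h1

/-- two cyclotomic characters at a common unramified place -/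
theorem cyCh_prop {ℓ' : ℕ} [hℓ' : Fact ℓ'.Prime] {lam' : (ZMod ℓ')ˣ →* Multiplicative (ZMod p)}
    (q : Nat.Primes) (hq : (q : ℕ) ≠ ℓ) (hq' : (q : ℕ) ≠ ℓ') (h0 : (cyCh lam').1 (frob q) ≠ 0)
    (b : H0 (sq q)) : cycδ (lq q) (chq (cyCh lam) q) b =
      ((cyCh lam).1 (frob q) * ((cyCh lam').1 (frob q))⁻¹).val •
        cycδ (lq q) (chq (cyCh lam') q) b := by
  have hN : (chi ℓ).ker ⊓ (chi ℓ').ker ∈ allL.carrier :=
    inf_mem_allL (ker_chi_level ℓ) (ker_chi_level ℓ')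
  refine cycδ_smul_left (lq q) _ (fun γ => ?_) b
  refine chi_prop q hN (le_inf (inertia_le_ker_chi hq) (inertia_le_ker_chi hq')) (frob_spec q)
    (fun γ hγ => ?_) (fun γ hγ => ?_) (fun γ hγ => cyCh_eq_of_mem hγ.1)
    (fun γ hγ => cyCh_eq_of_mem hγ.2) h0 γ
  · have h1 : chi ℓ (ExtCitation.primeLocalToGlobal q γ) = 1 := hγ.1
    show Multiplicative.toAdd (lam (chi ℓ (ExtCitation.primeLocalToGlobal q γ))) = 0
    rw [h1, map_one, toAdd_one]
  · have h1 : chi ℓ' (ExtCitation.primeLocalToGlobal q γ) = 1 := hγ.2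
    show Multiplicative.toAdd (lam' (chi ℓ' (ExtCitation.primeLocalToGlobal q γ))) = 0
    rw [h1, map_one, toAdd_one]

/-- existence of a good cyclotomic character -/
lemma exists_good_lam {q ℓ : Nat.Primes} {k : ℕ} (hpk : p * k = (ℓ : ℕ) - 1)
    (hk : ((q : ℕ) : ZMod (ℓ : ℕ)) ^ k ≠ 1) (hne : (q : ℕ) ≠ (ℓ : ℕ)) :
    haveI : Fact (ℓ : ℕ).Prime := ⟨ℓ.2⟩
    ∃ lam : (ZMod (ℓ : ℕ))ˣ →* Multiplicative (ZMod p), (∃ u, lam u ≠ 1) ∧
      (cyCh lam).1 (frob q) ≠ 0 := by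
  haveI : Fact (ℓ : ℕ).Prime := ⟨ℓ.2⟩
  obtain ⟨lam, hlam⟩ := exists_lam (p := p) (ℓ := (ℓ : ℕ)) hpk
  have h1 : lam (chi (ℓ : ℕ) (frob q)) ≠ 1 := by
    rw [Ne, hlam]
    intro h
    apply hk
    rw [← chi_frob hne (frob_spec q), ← Units.val_pow_eq_pow_val, h, Units.val_one]
  exact ⟨lam, ⟨_, h1⟩, fun h => h1 (toAdd_eq_zero.1 h)⟩

/-- Frobenius values at `q` and `q'` with `q q' = 1` modulo `ℓ` -/
lemma cyCh_frob_inv {q q' : Nat.Primes} (hq : (q : ℕ) ≠ ℓ) (hq' : (q' : ℕ) ≠ ℓ)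
    (h : (((q : ℕ) * (q' : ℕ) : ℕ) : ZMod ℓ) = 1) :
    (cyCh lam).1 (frob q') = - (cyCh lam).1 (frob q) := by
  have h1 : chi ℓ (frob q) * chi ℓ (frob q') = 1 := by
    apply Units.ext
    rw [Units.val_mul, chi_frob hq (frob_spec q), chi_frob hq' (frob_spec q'), ← Nat.cast_mul, h]
    rfl
  have h2 : chi ℓ (frob q') = (chi ℓ (frob q))⁻¹ := eq_inv_of_mul_eq_one_right h1
  show Multiplicative.toAdd (lam (chi ℓ (frob q'))) = -Multiplicative.toAdd (lam (chi ℓ (frob q)))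
  rw [h2, map_inv, toAdd_inv]

lemma norm_natCast_prime_ne {q r : Nat.Primes} (h : r ≠ q) : ‖((q : ℕ) : Cq r)‖ = 1 := by
  have h1 : ((q : ℕ) : Cq r) = algebraMap ℚ_[(r : ℕ)] (Cq r) ((q : ℕ) : ℚ_[(r : ℕ)]) := by
    rw [map_natCast]
  rw [h1, norm_algebraMap_padic, Padic.norm_natCast_eq_one_iff]
  exact (Nat.coprime_primes r.2 q.2).2 (fun h' => h (Subtype.ext h'))

end Fermat.Agent.CFR
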